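import Fermat.Agent.S17.El.Glob.Ext
import Fermat.Agent.S17.El.MCBasic

/-!
# S17/El/Glob: from local inequalities with M-constants to inequalities of heights  (WP EL-G-GP)

`GP1`: if `|A|_v ≤ γ_v |B|_v` for ALL absolute values `v` of `ℚ̄` then `h(A) ≤ h(B) + ht γ`.

Proof.  Let `L` be a number field containing the coordinates of `A`, `B` and the elements of `γ.c`
(`AH.exists_numberField`), `w = (1 :: γ.c)`.  By `AH.absLogHeight_eq_of_mem` the claim is
`logHeight A ≤ logHeight B + [L:ℚ] log(γ.A+1) + γ.N logHeight w`, i.e.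
`mulHeight A ≤ (γ.A+1)^[L:ℚ] * mulHeight w ^ γ.N * mulHeight B`.  Expand with `Height.mulHeight_eq`
(`NumberField.mulHeight_eq`) and compare place by place exactly as in `AH.RelAux.mulHeight_le_of_local`
(file `S17/AH/Rel.lean`; `NumberField.totalWeight_eq_finrank`): every place of `L` is the restriction
of an absolute value `v` of `ℚ̄` (`exists_extension_*`), `⨆ i, w (A i) = nrm v A`, and
`γ.val v ≤ (γ.A+1) * (⨆ w)^N`, `= (⨆ w)^N` if `v` is non archimedean.
-/

set_option autoImplicit false

namespace Fermat.Agent.S17.El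

open AH

namespace GPAux

section glob
open Height Height.AdmissibleAbsValues Multiset

variable {K : Type*} [Field K] [Height.AdmissibleAbsValues K]
  {α β γ : Type*} [Finite α] [Finite β] [Finite γ]

lemma mulHeight_le_of_local_pow (c : ℝ) (hc : 0 ≤ c) (N : ℕ) (s : α → K) (w : γ → K) (t : β → K)
    (hs : s ≠ 0) (hw : w ≠ 0) (ht : t ≠ 0)
    (harch : ∀ v ∈ archAbsVal (K := K),
      (⨆ a, v (s a)) ≤ c * (⨆ g, v (w g)) ^ N * ⨆ b, v (t b))
    (hnon : ∀ v ∈ nonarchAbsVal (K := K),
      (⨆ a, v (s a)) ≤ (⨆ g, v (w g)) ^ N * ⨆ b, v (t b)) :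
    mulHeight s ≤ c ^ totalWeight K * mulHeight w ^ N * mulHeight t := by
  rw [mulHeight_eq hs, mulHeight_eq hw, mulHeight_eq ht, mul_pow, ← prod_map_pow,
    finprod_pow (by fun_prop (disch := assumption)), mul_mul_mul_comm, ← mul_assoc,
    ← mul_assoc, mul_assoc (_ * _ * _)]
  gcongr
  · exact finprod_nonneg fun v ↦ Real.iSup_nonneg_of_nonnegHomClass v.val _
  · refine mul_nonneg (mul_nonneg (pow_nonneg hc _) ?_) ?_
    · exact prod_map_nonneg fun v _ ↦ Real.iSup_nonneg_of_nonnegHomClass v _
    · exact prod_map_nonneg fun v _ ↦ pow_nonneg (Real.iSup_nonneg_of_nonnegHomClass v _) _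
  · rw [mul_assoc, ← prod_map_mul, ← prod_replicate, totalWeight, ← map_const', ← prod_map_mul]
    refine prod_map_le_prod_map₀ _ _ (fun v _ ↦ Real.iSup_nonneg_of_nonnegHomClass v _)
      fun v hv ↦ ?_
    have := harch v hv
    linarith
  · rw [← finprod_mul_distrib (by fun_prop (disch := assumption))
      (by fun_prop (disch := assumption))]
    refine finprod_le_finprod (by fun_prop (disch := assumption))
      (fun v ↦ Real.iSup_nonneg_of_nonnegHomClass v.val _) (by fun_prop (disch := assumption))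
      fun v ↦ ?_
    exact hnon v.val v.prop

end glob

theorem mx_le {K : Type*} [Field K] (v : AbsoluteValue K ℝ) (l : List K) {B : ℝ} (h1 : 1 ≤ B)
    (h : ∀ a ∈ l, v a ≤ B) : MC.mx v l ≤ B := by
  induction l with
  | nil => exact h1
  | cons a l ih =>
    exact max_le (h a (List.mem_cons_self)) (ih fun b hb => h b (List.mem_cons_of_mem _ hb))

theorem mx_le_nrm {K : Type*} [Field K] (v : AbsoluteValue K ℝ) (l : List K) :
    MC.mx v l ≤ nrm v (fun i : Fin (1 :: l).length => (1 :: l).get i) := by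
  refine mx_le v l ?_ fun a ha => ?_
  · have := le_nrm v (fun i : Fin (1 :: l).length => (1 :: l).get i) ⟨0, by simp⟩
    simpa using this
  · obtain ⟨i, hi⟩ := List.get_of_mem (List.mem_cons_of_mem (1 : K) ha)
    have := le_nrm v (fun i : Fin (1 :: l).length => (1 :: l).get i) i
    simp only [hi] at this
    exact this

end GPAux

/-- the global size of an `M`-constant. -/
noncomputable def MC.ht (γ : MC Qb) : ℝ :=
  Real.log ((γ.A : ℝ) + 1) +
    γ.N * absLogHeight (fun i : Fin (1 :: γ.c).length => (1 :: γ.c).get i)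

theorem MC.ht_nonneg (γ : MC Qb) : 0 ≤ γ.ht := by
  unfold MC.ht
  have h1 : 0 ≤ Real.log ((γ.A : ℝ) + 1) :=
    Real.log_nonneg (by have : (0 : ℝ) ≤ γ.A := Nat.cast_nonneg _; linarith)
  have h2 := absLogHeight_nonneg (fun i : Fin (1 :: γ.c).length => (1 :: γ.c).get i)
  positivity

/-- the trivial `M`-constant. -/
def MC.triv : MC Qb := ⟨[], 0, 0⟩

theorem MC.val_triv (v : AbsoluteValue Qb ℝ) : MC.triv.val v = 1 := by
  simp [MC.triv, MC.val]

theorem MC.ht_triv : MC.triv.ht = 0 := by
  simp [MC.triv, MC.ht]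

theorem GP1 (γ : MC Qb) {ι κ : Type*} [Finite ι] [Finite κ] {A : ι → Qb} {B : κ → Qb}
    (hA : A ≠ 0) (hB : B ≠ 0)
    (h : ∀ v : AbsoluteValue Qb ℝ, nrm v A ≤ γ.val v * nrm v B) :
    absLogHeight A ≤ absLogHeight B + γ.ht := by
  classical
  set W : Fin (1 :: γ.c).length → Qb := fun i => (1 :: γ.c).get i with hW
  obtain ⟨L, hL, hS⟩ := exists_numberField (Set.range A ∪ Set.range B ∪ Set.range W)
    (((Set.finite_range A).union (Set.finite_range B)).union (Set.finite_range W))
  have := numberField_of_finiteDimensional L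
  have hAL : ∀ i, A i ∈ L := fun i => hS (Or.inl (Or.inl ⟨i, rfl⟩))
  have hBL : ∀ i, B i ∈ L := fun i => hS (Or.inl (Or.inr ⟨i, rfl⟩))
  have hWL : ∀ i, W i ∈ L := fun i => hS (Or.inr ⟨i, rfl⟩)
  set s : ι → L := fun i => ⟨A i, hAL i⟩ with hs
  set t : κ → L := fun i => ⟨B i, hBL i⟩ with ht
  set w : Fin (1 :: γ.c).length → L := fun i => ⟨W i, hWL i⟩ with hw
  have hs0 : s ≠ 0 := fun h0 => hA (funext fun i => congrArg Subtype.val (congrFun h0 i))
  have ht0 : t ≠ 0 := fun h0 => hB (funext fun i => congrArg Subtype.val (congrFun h0 i))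
  have hw0 : w ≠ 0 := by
    intro h0
    have := congrArg Subtype.val (congrFun h0 ⟨0, by simp⟩)
    simp [hw, hW] at this
  have hc1 : (1 : ℝ) ≤ (γ.A : ℝ) + 1 := by
    have : (0 : ℝ) ≤ γ.A := Nat.cast_nonneg _
    linarith
  -- the local comparison
  have key : ∀ (u : AbsoluteValue L ℝ) (v : AbsoluteValue Qb ℝ), (∀ z : L, v (z : Qb) = u z) →
      (⨆ a, u (s a)) ≤ MC.af v γ.A * (⨆ g, u (w g)) ^ γ.N * ⨆ b, u (t b) := by
    intro u v huv
    have e1 : (⨆ a, u (s a)) = nrm v A := by
      unfold nrm; exact iSup_congr fun a => (huv (s a)).symm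
    have e2 : (⨆ b, u (t b)) = nrm v B := by
      unfold nrm; exact iSup_congr fun a => (huv (t a)).symm
    have e3 : (⨆ g, u (w g)) = nrm v W := by
      unfold nrm; exact iSup_congr fun a => (huv (w a)).symm
    rw [e1, e2, e3]
    refine le_trans (h v) (mul_le_mul_of_nonneg_right ?_ (nrm_nonneg v B))
    rw [MC.val_eq]
    refine mul_le_mul_of_nonneg_left ?_ (le_trans zero_le_one (MC.one_le_af v _))
    exact pow_le_pow_left₀ (le_trans zero_le_one (MC.one_le_mx v _)) (GPAux.mx_le_nrm v γ.c) _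
  have hmain : Height.mulHeight s ≤
      ((γ.A : ℝ) + 1) ^ Height.totalWeight L * Height.mulHeight w ^ γ.N * Height.mulHeight t := by
    refine GPAux.mulHeight_le_of_local_pow _ (le_trans zero_le_one hc1) γ.N s w t hs0 hw0 ht0 ?_ ?_
    · intro u hu
      have hu' : NumberField.IsInfinitePlace u := NumberField.mem_multisetInfinitePlace.1 hu
      obtain ⟨p, rfl⟩ := (NumberField.isInfinitePlace_iff u).1 hu'
      obtain ⟨v, hv⟩ := exists_extension_infinitePlace L p
      refine le_trans (key p.val v hv) ?_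
      refine mul_le_mul_of_nonneg_right (mul_le_mul_of_nonneg_right ?_ ?_) ?_
      · unfold MC.af
        split_ifs
        · exact hc1
        · exact le_rfl
      · exact pow_nonneg (Real.iSup_nonneg fun _ => p.val.nonneg _) _
      · exact Real.iSup_nonneg fun _ => p.val.nonneg _
    · intro u hu
      have hu' : NumberField.IsFinitePlace u := hu
      obtain ⟨p, rfl⟩ := (NumberField.isFinitePlace_iff u).1 hu'
      obtain ⟨v, hvn, hv⟩ := exists_extension_finitePlace L p
      have := key p.val v hv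
      unfold MC.af at this
      rwa [if_pos hvn, one_mul] at this
  -- take logarithms
  have hlog : Height.logHeight s ≤ Height.totalWeight L * Real.log ((γ.A : ℝ) + 1) +
      γ.N * Height.logHeight w + Height.logHeight t := by
    have hpos1 : (0 : ℝ) < ((γ.A : ℝ) + 1) ^ Height.totalWeight L := by positivity
    have hpos2 : (0 : ℝ) < Height.mulHeight w ^ γ.N := pow_pos (Height.mulHeight_pos _) _
    have hpos3 : (0 : ℝ) < Height.mulHeight t := Height.mulHeight_pos _
    have := Real.log_le_log (Height.mulHeight_pos s) hmain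
    rw [Real.log_mul (mul_pos hpos1 hpos2).ne' hpos3.ne', Real.log_mul hpos1.ne' hpos2.ne',
      Real.log_pow, Real.log_pow] at this
    exact this
  rw [NumberField.totalWeight_eq_finrank] at hlog
  have hd := finrank_cast_pos L
  unfold MC.ht
  rw [absLogHeight_eq_of_mem L A hAL, absLogHeight_eq_of_mem L B hBL,
    absLogHeight_eq_of_mem L W hWL, div_le_iff₀ hd]
  have e : (Height.logHeight t / (Module.finrank ℚ L : ℝ) + (Real.log ((γ.A : ℝ) + 1) +
      γ.N * (Height.logHeight w / (Module.finrank ℚ L : ℝ)))) * (Module.finrank ℚ L : ℝ) =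
      (Module.finrank ℚ L : ℝ) * Real.log ((γ.A : ℝ) + 1) + γ.N * Height.logHeight w +
        Height.logHeight t := by
    field_simp
    ring
  rw [e]
  exact hlog

end Fermat.Agent.S17.El
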