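import Mathlib

/-!
# S17/El/Glob: abstract part 2 -- positivity and Northcott from the key inequality (WP EL-G-AT2)

Mathlib only.  `B` symmetric and quasi-biadditive (constant `c`).  `q₀ x = B x x`, `θ w = q₀ w + B k w`.
`O(c)` = bounded by a multiple of `c`.
1. `|B 0 z| ≤ c`, `|B (-x) z + B x z| ≤ 2c`, `q₀(x+y) = q₀ x + q₀ y + 2 B x y + O(3c)`,
   `q₀(x-y) = q₀ x + q₀ y - 2 B x y + O(11c)`; hence the quasi parallelogram law (14c).
2. (H3) `θ ≥ -c₃` on `NS`.   `θ(w+a) + θ(w-a) = 2 θ w + 2 q₀ a + O(18c)`, so by (H4) (`𝒜` finite, `q₀` bounded on `𝒜`)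
   `θ ≥ -c₄` everywhere.
3. `θ w + θ(-w) = 2 q₀ w + O(6c)`, so `q₀ ≥ -c₅`.  Take `q = q₀ + c₅`.
4. `q₀(w - k) ≥ -c₅` gives `B k w ≤ (q₀ w + q₀ k + 11c + c₅)/2`, so `θ w ≤ 3/2 q₀ w + c₆`.
5. Northcott: `x ∈ Γ`, `q₀ x ≤ b`; `a` as in (H4) for `w = x`;
   `q₀(x+a) ≤ 2 q₀ x + 2 q₀ a - q₀(x-a) + 14c ≤ 2b + …`; `2 s(x+a) ≤ θ(x+a) + c₃ ≤ …`: finite union of the sets of (H5).
-/

set_option autoImplicit false

namespace Fermat.Agent.S17.El

theorem AT2 {J : Type*} [AddCommGroup J] (B : J → J → ℝ) (hsymm : ∀ x y, B x y = B y x)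
    (c : ℝ) (hB : ∀ x y z, |B (x + y) z - B x z - B y z| ≤ c)
    (NS : Set J) (s : J → ℝ) (hs : ∀ w, 0 ≤ s w) (k : J) (c₃ : ℝ)
    (H3 : ∀ w ∈ NS, 2 * s w ≤ B w w + B k w + c₃)
    (𝒜 : Set J) (h𝒜 : 𝒜.Finite) (H4 : ∀ w, ∃ a ∈ 𝒜, w + a ∈ NS ∧ w - a ∈ NS)
    (Γ : Set J) (H5 : ∀ a ∈ 𝒜, ∀ b : ℝ, {x | x ∈ Γ ∧ s (x + a) ≤ b}.Finite) :
    ∃ q : J → ℝ, (∀ x, 0 ≤ q x) ∧
      (∃ C : ℝ, ∀ x y, |q (x + y) + q (x - y) - 2 * (q x + q y)| ≤ C) ∧
      ∀ b : ℝ, {x | x ∈ Γ ∧ q x ≤ b}.Finite := by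
  have A : ∀ x y z, -c ≤ B (x + y) z - B x z - B y z ∧ B (x + y) z - B x z - B y z ≤ c :=
    fun x y z => abs_le.mp (hB x y z)
  have hc0 : 0 ≤ c := le_trans (abs_nonneg _) (hB 0 0 0)
  -- (1a)
  have h1a : ∀ z, -c ≤ B 0 z ∧ B 0 z ≤ c := by
    intro z
    have := A 0 0 z
    rw [add_zero] at this
    constructor <;> linarith [this.1, this.2]
  -- (1b)
  have h1b : ∀ x z, -(2 * c) ≤ B (-x) z + B x z ∧ B (-x) z + B x z ≤ 2 * c := by
    intro x z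
    have h1 := A x (-x) z
    rw [add_neg_cancel] at h1
    have h2 := h1a z
    constructor <;> linarith [h1.1, h1.2, h2.1, h2.2]
  -- (1c)
  have h1c : ∀ x y, -(3 * c) ≤ B (x + y) (x + y) - B x x - B y y - 2 * B x y ∧
      B (x + y) (x + y) - B x x - B y y - 2 * B x y ≤ 3 * c := by
    intro x y
    have e1 := A x y (x + y)
    have e2 := A x y x
    have e3 := A x y y
    rw [hsymm x (x + y), hsymm y (x + y)] at e1
    rw [hsymm y x] at e2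
    constructor <;> linarith [e1.1, e1.2, e2.1, e2.2, e3.1, e3.2]
  -- q₀ (-y)
  have hneg : ∀ y, -(4 * c) ≤ B (-y) (-y) - B y y ∧ B (-y) (-y) - B y y ≤ 4 * c := by
    intro y
    have e1 := h1b y (-y)
    have e2 := h1b y y
    rw [hsymm y (-y)] at e1
    constructor <;> linarith [e1.1, e1.2, e2.1, e2.2]
  -- (1d)
  have h1d : ∀ x y, -(11 * c) ≤ B (x - y) (x - y) - B x x - B y y + 2 * B x y ∧
      B (x - y) (x - y) - B x x - B y y + 2 * B x y ≤ 11 * c := by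
    intro x y
    have e1 := h1c x (-y)
    rw [← sub_eq_add_neg] at e1
    have e2 := hneg y
    have e3 := h1b y x
    rw [hsymm (-y) x, hsymm y x] at e3
    constructor <;> linarith [e1.1, e1.2, e2.1, e2.2, e3.1, e3.2]
  -- parallelogram
  have hpar : ∀ x y, -(14 * c) ≤ B (x + y) (x + y) + B (x - y) (x - y) - 2 * (B x x + B y y) ∧
      B (x + y) (x + y) + B (x - y) (x - y) - 2 * (B x x + B y y) ≤ 14 * c := by
    intro x y
    have e1 := h1c x y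
    have e2 := h1d x y
    constructor <;> linarith [e1.1, e1.2, e2.1, e2.2]
  -- bound of q₀ on 𝒜
  obtain ⟨Q, hQ⟩ := (h𝒜.image fun a => B a a).bddAbove
  have hQ' : ∀ a ∈ 𝒜, B a a ≤ Q := fun a ha => hQ ⟨a, ha, rfl⟩
  -- (2)
  have hθNS : ∀ w ∈ NS, -c₃ ≤ B w w + B k w := by
    intro w hw
    have := H3 w hw
    have := hs w
    linarith
  have hklin : ∀ w a, -(4 * c) ≤ B k (w + a) + B k (w - a) - 2 * B k w ∧
      B k (w + a) + B k (w - a) - 2 * B k w ≤ 4 * c := by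
    intro w a
    have e1 := A w a k
    have e2 := A w (-a) k
    rw [← sub_eq_add_neg] at e2
    have e3 := h1b a k
    rw [hsymm k (w + a), hsymm k (w - a), hsymm k w]
    constructor <;> linarith [e1.1, e1.2, e2.1, e2.2, e3.1, e3.2]
  have hθ : ∀ w, -(c₃ + Q + 9 * c) ≤ B w w + B k w := by
    intro w
    obtain ⟨a, ha, h1, h2⟩ := H4 w
    have e1 := hθNS _ h1
    have e2 := hθNS _ h2
    have e3 := hpar w a
    have e4 := hklin w a
    have e5 := hQ' a ha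
    linarith [e3.1, e3.2, e4.1, e4.2]
  -- (3)
  set c₅ : ℝ := c₃ + Q + 12 * c with hc₅
  have hq₀ : ∀ w, -c₅ ≤ B w w := by
    intro w
    have e1 := hθ w
    have e2 := hθ (-w)
    have e3 := hneg w
    have e4 := h1b w k
    rw [hsymm (-w) k, hsymm w k] at e4
    linarith [e3.1, e3.2, e4.1, e4.2]
  -- (4)
  have hθup : ∀ w, B w w + B k w ≤ 3 / 2 * B w w + (B k k + 11 * c + c₅) / 2 := by
    intro w
    have e1 := hq₀ (w - k)
    have e2 := h1d w k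
    rw [hsymm w k] at e2
    linarith [e2.1, e2.2]
  refine ⟨fun x => B x x + c₅, fun x => by have := hq₀ x; linarith, ⟨14 * c + 2 * |c₅|, ?_⟩, ?_⟩
  · intro x y
    have e1 := hpar x y
    have e2 := le_abs_self c₅
    have e3 := neg_abs_le c₅
    rw [abs_le]
    constructor <;> linarith [e1.1, e1.2]
  · intro b
    set b'' : ℝ := (3 / 2 * (2 * (b - c₅) + 2 * Q + c₅ + 14 * c) + (B k k + 11 * c + c₅) / 2 + c₃) / 2
      with hb''
    refine (Set.Finite.biUnion h𝒜 (fun a ha => H5 a ha b'')).subset ?_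
    rintro x ⟨hxΓ, hxb⟩
    obtain ⟨a, ha, h1, h2⟩ := H4 x
    refine Set.mem_biUnion ha ⟨hxΓ, ?_⟩
    have e1 := hpar x a
    have e2 := hq₀ (x - a)
    have e3 := hQ' a ha
    have e4 := H3 _ h1
    have e5 := hθup (x + a)
    have e6 : B x x ≤ b - c₅ := by linarith
    rw [hb'']
    linarith [e1.1, e1.2]

end Fermat.Agent.S17.El
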