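import Fermat.Agent.S17.El.Glob.AT1
import Fermat.Agent.S17.El.Glob.AT2

/-!
# S17/El/Glob: the abstract height theorem (from AT1 + AT2)
-/

set_option autoImplicit false

namespace Fermat.Agent.S17.El

theorem abstract_height {X J : Type*} [AddCommGroup J] (j : X → J) (Gh : X → X → ℝ)
    (hsymm : ∀ P R, Gh P R = Gh R P)
    (H1 : ∀ m : ℕ, ∃ c : ℝ, ∀ Z : Multiset X, Z.card ≤ m → (Z.map j).sum = 0 →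
      ∀ R, |(Z.map fun P => Gh P R).sum| ≤ c)
    (c₀ : ℕ) (H2 : ∀ z : J, ∃ A : Multiset X, A.card ≤ c₀ ∧ (A.map j).sum = z)
    (NS : Set J) (s : J → ℝ) (hs : ∀ w, 0 ≤ s w) (Df : Multiset X) (c₁ : ℕ) (c₃ : ℝ)
    (H3 : ∀ w ∈ NS, ∃ D : Multiset X, D.card ≤ c₁ ∧ (D.map j).sum = w ∧
      2 * s w ≤ GG Gh D D + GG Gh Df D + c₃)
    (𝒜 : Set J) (h𝒜 : 𝒜.Finite) (H4 : ∀ w, ∃ a ∈ 𝒜, w + a ∈ NS ∧ w - a ∈ NS)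
    (Γ : Set J) (H5 : ∀ a ∈ 𝒜, ∀ b : ℝ, {x | x ∈ Γ ∧ s (x + a) ≤ b}.Finite) :
    ∃ q : J → ℝ, (∀ x, 0 ≤ q x) ∧
      (∃ C : ℝ, ∀ x y, |q (x + y) + q (x - y) - 2 * (q x + q y)| ≤ C) ∧
      ∀ b : ℝ, {x | x ∈ Γ ∧ q x ≤ b}.Finite := by
  obtain ⟨B, hBs, ⟨c, hBc⟩, hBG⟩ := AT1 j Gh hsymm H1 c₀ H2
  obtain ⟨c', hc'⟩ := hBG (max c₁ Df.card)
  refine AT2 B hBs c hBc NS s hs (Df.map j).sum (c₃ + 2 * c') ?_ 𝒜 h𝒜 H4 Γ H5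
  intro w hw
  obtain ⟨D, hD, hjD, hle⟩ := H3 w hw
  have h1 := hc' D D (hD.trans (le_max_left _ _)) (hD.trans (le_max_left _ _))
  have h2 := hc' Df D (le_max_right _ _) (hD.trans (le_max_left _ _))
  rw [hjD] at h1 h2
  have h1' := (abs_le.1 h1).2
  have h2' := (abs_le.1 h2).2
  linarith

end Fermat.Agent.S17.El
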