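import Mathlib

/-!
# S17/El/Glob: abstract part 1 -- a quasi-bilinear form on the group of classes  (WP EL-G-AT1)

Mathlib only.  `X` = points, `J` = group of classes, `j : X → J`, `Gh : X → X → ℝ` symmetric.
`GG Gh D E = ∑_{P ∈ D} ∑_{R ∈ E} Gh P R` for multisets (= effective divisors) `D`, `E`.
* (H1) `|GG Z {R}| ≤ c_m` for every `Z` with `|Z| ≤ m`, `j(Z) = 0` and every point `R`;
* (H2) every class is `j(A)` with `|A| ≤ c₀`.

Lemma A: if `|D|,|D'| ≤ M` and `j D = j D'` then `|GG D {R} - GG D' {R}| ≤ 2 c_{M+c₀}`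
(choose `A`, `|A| ≤ c₀`, `j A = - j D`; `j(D+A) = j(D'+A) = 0`); hence `|GG D E - GG D' E| ≤ 2 |E| c_{M+c₀}`.
Choose `D_z` (H2) and put `B x y = GG D_x D_y`.  The last claim follows from Lemma A applied twice (and the symmetry),
quasi-additivity from the last claim for `D = D_x + D_y`, `E = D_z`.
-/

set_option autoImplicit false

namespace Fermat.Agent.S17.El

/-- bilinear extension of `Gh` to multisets. -/
noncomputable def GG {X : Type*} (Gh : X → X → ℝ) (D E : Multiset X) : ℝ :=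
  (D.map fun P => (E.map fun R => Gh P R).sum).sum

theorem GG_add_left {X : Type*} (Gh : X → X → ℝ) (D D' E : Multiset X) :
    GG Gh (D + D') E = GG Gh D E + GG Gh D' E := by
  simp [GG]

theorem GG_add_right {X : Type*} (Gh : X → X → ℝ) (D E E' : Multiset X) :
    GG Gh D (E + E') = GG Gh D E + GG Gh D E' := by
  simp [GG, Multiset.sum_map_add]

theorem GG_comm {X : Type*} (Gh : X → X → ℝ) (hsymm : ∀ P R, Gh P R = Gh R P)
    (D E : Multiset X) : GG Gh D E = GG Gh E D := by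
  unfold GG
  rw [Multiset.sum_map_sum_map]
  simp only [hsymm]

theorem GG_zero_right {X : Type*} (Gh : X → X → ℝ) (D : Multiset X) : GG Gh D 0 = 0 := by
  simp [GG]

theorem GG_singleton_right {X : Type*} (Gh : X → X → ℝ) (D : Multiset X) (R : X) :
    GG Gh D {R} = (D.map fun P => Gh P R).sum := by
  simp [GG]

theorem AT1 {X J : Type*} [AddCommGroup J] (j : X → J) (Gh : X → X → ℝ)
    (hsymm : ∀ P R, Gh P R = Gh R P)
    (H1 : ∀ m : ℕ, ∃ c : ℝ, ∀ Z : Multiset X, Z.card ≤ m → (Z.map j).sum = 0 →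
      ∀ R, |(Z.map fun P => Gh P R).sum| ≤ c)
    (c₀ : ℕ) (H2 : ∀ z : J, ∃ A : Multiset X, A.card ≤ c₀ ∧ (A.map j).sum = z) :
    ∃ B : J → J → ℝ, (∀ x y, B x y = B y x) ∧
      (∃ c : ℝ, ∀ x y z, |B (x + y) z - B x z - B y z| ≤ c) ∧
      ∀ m : ℕ, ∃ c : ℝ, ∀ D E : Multiset X, D.card ≤ m → E.card ≤ m →
        |GG Gh D E - B (D.map j).sum (E.map j).sum| ≤ c := by
  -- Lemma A
  have lemA : ∀ M : ℕ, ∃ c : ℝ, 0 ≤ c ∧ ∀ D D' : Multiset X, D.card ≤ M → D'.card ≤ M →
      (D.map j).sum = (D'.map j).sum → ∀ R, |GG Gh D {R} - GG Gh D' {R}| ≤ c := by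
    intro M
    obtain ⟨c₁, hc₁⟩ := H1 (M + c₀)
    obtain ⟨c, hc0, hc⟩ : ∃ c : ℝ, 0 ≤ c ∧ ∀ Z : Multiset X, Z.card ≤ M + c₀ →
        (Z.map j).sum = 0 → ∀ R, |(Z.map fun P => Gh P R).sum| ≤ c :=
      ⟨max c₁ 0, le_max_right _ _, fun Z h1 h2 R => (hc₁ Z h1 h2 R).trans (le_max_left _ _)⟩
    refine ⟨2 * c, by linarith, fun D D' hD hD' hDD R => ?_⟩
    obtain ⟨A, hA, hAj⟩ := H2 (-(D.map j).sum)
    have e1 := hc (D + A) (by rw [Multiset.card_add]; omega)
      (by rw [Multiset.map_add, Multiset.sum_add, hAj, add_neg_cancel]) R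
    have e2 := hc (D' + A) (by rw [Multiset.card_add]; omega)
      (by rw [Multiset.map_add, Multiset.sum_add, hAj, hDD, add_neg_cancel]) R
    rw [← GG_singleton_right, GG_add_left] at e1 e2
    rw [abs_le] at e1 e2 ⊢
    constructor <;> linarith [e1.1, e1.2, e2.1, e2.2]
  have lemA' : ∀ n : ℕ, ∃ c : ℝ, ∀ D D' E : Multiset X, D.card ≤ n → D'.card ≤ n → E.card ≤ n →
      (D.map j).sum = (D'.map j).sum → |GG Gh D E - GG Gh D' E| ≤ c := by
    intro n
    obtain ⟨c, hc0, hc⟩ := lemA n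
    refine ⟨n * c, fun D D' E hD hD' hE hDD => ?_⟩
    have key : ∀ E : Multiset X, |GG Gh D E - GG Gh D' E| ≤ E.card * c := by
      intro E
      induction E using Multiset.induction_on with
      | empty => simp [GG_zero_right]
      | cons R E ih =>
        rw [← Multiset.singleton_add, GG_add_right, GG_add_right, Multiset.card_add,
          Multiset.card_singleton]
        have e1 := hc D D' hD hD' hDD R
        push_cast
        rw [abs_le] at e1 ih ⊢
        constructor <;> linarith [e1.1, e1.2, ih.1, ih.2]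
    refine (key E).trans ?_
    have : (E.card : ℝ) ≤ n := by exact_mod_cast hE
    exact mul_le_mul_of_nonneg_right this hc0
  choose Dz hDzc hDzj using H2
  refine ⟨fun x y => GG Gh (Dz x) (Dz y), fun x y => GG_comm Gh hsymm _ _, ?_, ?_⟩
  · obtain ⟨c, hc⟩ := lemA' (2 * c₀)
    refine ⟨c, fun x y z => ?_⟩
    have hx := hDzc x
    have hy := hDzc y
    have e1 := hc (Dz (x + y)) (Dz x + Dz y) (Dz z) ((hDzc _).trans (by omega))
      (by rw [Multiset.card_add]; omega) ((hDzc _).trans (by omega))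
      (by rw [Multiset.map_add, Multiset.sum_add, hDzj, hDzj, hDzj])
    rw [GG_add_left] at e1
    rw [sub_sub]
    exact e1
  · intro m
    obtain ⟨c, hc⟩ := lemA' (max m c₀)
    refine ⟨2 * c, fun D E hD hE => ?_⟩
    have e1 := hc D (Dz (D.map j).sum) E (hD.trans (le_max_left _ _))
      ((hDzc _).trans (le_max_right _ _)) (hE.trans (le_max_left _ _)) (hDzj _).symm
    have e2 := hc E (Dz (E.map j).sum) (Dz (D.map j).sum) (hE.trans (le_max_left _ _))
      ((hDzc _).trans (le_max_right _ _)) ((hDzc _).trans (le_max_right _ _)) (hDzj _).symm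
    rw [GG_comm Gh hsymm E, GG_comm Gh hsymm (Dz (E.map j).sum)] at e2
    rw [abs_le] at e1 e2 ⊢
    constructor <;> linarith [e1.1, e1.2, e2.1, e2.2]

end Fermat.Agent.S17.El
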