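import Fermat.Agent.S17.AH.Basic
import Fermat.Agent.S17.El.Ram
import Fermat.Agent.S27.MinRep

/-!
# S17/El/Glob: definitions of the GLOBAL theory.   FROZEN FILE (owner helper44): do not edit.

`C : Cv ℚ̄ F`.  Everything is scaled by `n = C.n` (as in the local theory, which is written in `n`-th powers).
* `hX P = h(1 : x(P)) = ∑_v log X_v(P)`   (`= n ×` the height of `P` relative to `oo`);
* `hD P R = h(Plücker coordinates of the secant) = ∑_v log D_v(P,R)`  (`P ≠ R`);
* `G P R = n hD P R - (κ-1)(hX P + hX R) = ∑_v log dn_v(P,R)`  (`P ≠ R`); morally `n ⟨P - oo, R - oo⟩_{Néron-Tate}`;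
* `tau P` = the value of `G` on the diagonal, defined by `G(Z(y), P) = 0` for a function `y = ys P` with a simple zero at `P`
  (`y = x - x(P)` if `P` is not a ramification point of `x`);
* `Gh` = `G` off the diagonal, `tau` on the diagonal;
* `zsum oo f φ = ∑_{P ∈ Z(f)} φ P` (affine zeros with multiplicities; additive version of `zprod`);
* `jm P = [P - oo]`, `NS` = the set of classes `w` with `l(g·oo - w) = 1`;
* `red w` = the `oo`-reduced effective divisor `E` with `[E - deg E·oo] = w` (`S27.exists_isRed`, `S27.IsRed.eq_of_bcl_eq`);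
* `sz w = hX(red (-w))`.
-/

set_option autoImplicit false

open AlgebraicCurve

namespace Fermat.Agent.S17.El

open AH

section general

variable {K F : Type*} [Field K] [Field F] [Algebra K F]

section zsum

variable [HasPrincipalDivisors K F]

open Classical in
/-- `∑_{P ∈ Z(f)} φ P` (affine zeros of `f`, with multiplicities). -/
noncomputable def zsum (oo : Place K F) (f : F) (φ : Place K F → ℝ) : ℝ :=
  ∑ P ∈ (RR.divOf K f).support.erase oo, ((P.ord f).toNat : ℝ) * φ P

open Classical in
/-- `∑_{Q ∈ Z(f), Q ≠ P} φ Q`. -/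
noncomputable def zsumE (oo : Place K F) (f : F) (P : Place K F) (φ : Place K F → ℝ) : ℝ :=
  ∑ Q ∈ ((RR.divOf K f).support.erase oo).erase P, ((Q.ord f).toNat : ℝ) * φ Q

end zsum

/-- signed maximal minors of the `r × (r+1)` matrix `φ_j(P_i)`. -/
noncomputable def sminor {r : ℕ} (φ : Fin (r + 1) → F) (P : Fin r → Place K F) (j : Fin (r + 1)) :
    K :=
  (-1) ^ (j : ℕ) *
    Matrix.det (Matrix.of fun (i : Fin r) (j' : Fin r) => S27.val (P i) (φ (j.succAbove j')))

namespace Cv

variable (C : Cv K F)

/-- the affine points. -/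
abbrev Aff : Type _ := {P : Place K F // P ≠ C.oo}

/-- `[P - oo]`. -/
noncomputable def jm (P : C.Aff) : Pic0 K F := S27.pd P.1 C.oo

/-- the classes `w` with `l(g·oo - w) = 1`. -/
def NS : Set (Pic0 K F) :=
  {w | ∃ W : Divisor K F, Divisor.degree W = 0 ∧ S27.dcl W = w ∧
    Module.finrank K (riemannRochSpace (Finsupp.single C.oo (genusFF K F : ℤ) - W)) = 1}

/-- the `oo`-reduced representative of a class. -/
noncomputable def red (w : Pic0 K F) : Divisor K F :=
  Classical.epsilon fun E => S27.IsRed C.oo E ∧ S27.bcl C.oo E = w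

open Classical in
/-- a function with a simple zero at `P`. -/
noncomputable def ys (P : Place K F) : F :=
  if P ∈ C.RamSet then
    Classical.epsilon fun y : F => y ∈ V C.oo (2 * genusFF K F + 1) ∧ P.ord y = 1
  else C.x - algebraMap K F (S27.val P C.x)

end Cv

end general

namespace Cv

variable {F : Type*} [Field F] [Algebra Qb F] (C : Cv Qb F)

/-- `h(1 : x(P))`. -/
noncomputable def hX (P : Place Qb F) : ℝ := absLogHeight ![1, S27.val P C.x]

/-- the height of the Plücker coordinates of the secant through `P`, `R`. -/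
noncomputable def hD (P R : Place Qb F) : ℝ :=
  absLogHeight (fun ab : Fin C.r × Fin C.r => C.pl P R ab.1 ab.2)

/-- `∑_v log dn_v(P,R)`. -/
noncomputable def G (P R : Place Qb F) : ℝ :=
  C.n * C.hD P R - ((C.κ - 1 : ℕ) : ℝ) * (C.hX P + C.hX R)

variable [HasPrincipalDivisors Qb F]

/-- the diagonal value. -/
noncomputable def tau (P : Place Qb F) : ℝ := - zsumE C.oo (C.ys P) P (fun Q => C.G Q P)

open Classical in
/-- `G` completed on the diagonal. -/
noncomputable def Gh (P R : Place Qb F) : ℝ := if P = R then C.tau P else C.G P R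

/-- the size of a class. -/
noncomputable def sz (w : Pic0 Qb F) : ℝ := (C.red (-w)).sum fun P m => (m : ℝ) * C.hX P

/-- `Gh` on the affine points. -/
noncomputable def GhA (P R : C.Aff) : ℝ := C.Gh P.1 R.1

end Cv

namespace Cv

variable {K F : Type*} [Field K] [Field F] [Algebra K F] [IsAlgClosed K] [CharZero K]
  [S27.IsFF K F] (C : Cv K F)

/-- the (affine) different of `x`: `∑_Q ram(Q) Q`. -/
noncomputable def Df : Multiset C.Aff :=
  ∑ Q ∈ C.finite_ramSet.toFinset.attach,
    C.ram Q.1 • ({(⟨Q.1, ((C.finite_ramSet.mem_toFinset).1 Q.2).1⟩ : C.Aff)} : Multiset C.Aff)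

end Cv

end Fermat.Agent.S17.El
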