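import Fermat.Agent.S17.El.ZP
import Fermat.Agent.S27.NonSpecial

/-!
# S17/El/Glob: the data `Cv K F` exist   (WP EL-G-CV)

`oo` any place (`S27.infinite_places`), `t` a uniformiser (`S27.exists_unif_zpow` / `Place.exists_uniformizer…`),
`x` from `S27.NS.exists_single_pole oo` (`n = dg oo x > 0`), `κ = 2g+2`, `e` = a basis of the finite dimensional space `V oo κ`
(`Module.finBasis`, coerced to `F`).
-/

set_option autoImplicit false

open AlgebraicCurve

namespace Fermat.Agent.S17.El

variable (K F : Type*) [Field K] [Field F] [Algebra K F] [IsAlgClosed K] [CharZero K]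
  [S27.IsFF K F]

theorem exists_Cv : Nonempty (Cv K F) := by
  classical
  have hinf : Infinite (Place K F) := S27.infinite_places K F
  obtain ⟨oo⟩ : Nonempty (Place K F) := inferInstance
  obtain ⟨t, -, -, ht⟩ := S24.Place.exists_uniformizer oo
  obtain ⟨x, hx1, hx2⟩ := S27.exists_single_pole oo
  have hneg : oo.ord x < 0 := (oo.not_adicValuation_le_one_iff).1 hx1
  let b := Module.finBasis K (V oo (2 * genusFF K F + 2))
  refine ⟨{
    oo := oo
    t := t
    ht := ht
    x := x
    hx := fun P hP => (S27.adic_le_one_iff_mem P).1 (hx2 P hP)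
    n := (-(oo.ord x)).toNat
    hn := by omega
    hxn := by omega
    κ := 2 * genusFF K F + 2
    hκ := le_rfl
    r := Module.finrank K (V oo (2 * genusFF K F + 2))
    e := fun i => (b i : F)
    he := ?_
    hspan := ?_ }⟩
  · exact b.linearIndependent.map' (V oo (2 * genusFF K F + 2)).subtype
      (Submodule.ker_subtype _)
  · have h1 : Set.range (fun i => (b i : F))
        = (V oo (2 * genusFF K F + 2)).subtype '' Set.range b := by
      rw [← Set.range_comp]; rfl
    rw [h1, Submodule.span_image, b.span_eq, Submodule.map_top, Submodule.range_subtype]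

end Fermat.Agent.S17.El
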