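import Fermat.Agent.S17.AH.Basic

/-!
# S17/El/Glob: every place of a number field `L ⊆ ℚ̄` extends to an absolute value of `ℚ̄`
(WP EL-G-EXT)

* infinite place `w` of `L`: `w z = ‖φ z‖` for an embedding `φ : L →+* ℂ`
  (`NumberField.InfinitePlace.embedding`, `InfinitePlace.norm_embedding_eq`); extend `φ` to `ℚ̄ → ℂ`
  (`IsAlgClosed.lift`, `ℚ̄` is algebraic over `L`) and take `z ↦ ‖φ' z‖`
  (`NumberField.place` / `AbsoluteValue.comp`).
* finite place `w` of `L`: `w z = ‖embedding v z‖` in the complete non archimedean normed field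
  `L_v = v.adicCompletion L` (`NumberField.FinitePlace`, `FinitePlace.norm_def`, …).
  Let `E = AlgebraicClosure L_v`; `spectralNorm L_v E` is a multiplicative, non archimedean norm extending the norm
  of `L_v` (`spectralMulAlgNorm`, `spectralNorm_extends`, `isNonarchimedean_spectralNorm`,
  `Mathlib/Analysis/Normed/Unbundled/SpectralNorm.lean`).  Choose an `L`-embedding `ℚ̄ → E` (`IsAlgClosed.lift`).
-/

set_option autoImplicit false

open NumberField

namespace Fermat.Agent.S17.El

open AH

theorem exists_extension_infinitePlace (L : IntermediateField ℚ Qb) [NumberField L]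
    (w : InfinitePlace L) : ∃ v : AbsoluteValue Qb ℝ, ∀ z : L, v (z : Qb) = w z := by
  let : Algebra L ℂ := w.embedding.toAlgebra
  have : Algebra.IsAlgebraic ℚ Qb := AlgebraicClosure.isAlgebraic ℚ
  have : Algebra.IsAlgebraic L Qb := Algebra.IsAlgebraic.tower_top (K := ℚ) L
  let φ : Qb →ₐ[L] ℂ := IsAlgClosed.lift
  refine ⟨NumberField.place φ.toRingHom, fun z => ?_⟩
  rw [NumberField.place_apply]
  have h : φ.toRingHom (z : Qb) = w.embedding z := φ.commutes z
  rw [h, InfinitePlace.norm_embedding_eq]

theorem exists_extension_finitePlace (L : IntermediateField ℚ Qb) [NumberField L]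
    (w : FinitePlace L) :
    ∃ v : AbsoluteValue Qb ℝ, IsNonarchimedean v ∧ ∀ z : L, v (z : Qb) = w z := by
  let : NontriviallyNormedField (w.maximalIdeal.adicCompletion L) :=
    Valued.toNontriviallyNormedField _ _
  let : Algebra L (AlgebraicClosure (w.maximalIdeal.adicCompletion L)) :=
    ((algebraMap (w.maximalIdeal.adicCompletion L)
      (AlgebraicClosure (w.maximalIdeal.adicCompletion L))).comp
        (FinitePlace.embedding w.maximalIdeal)).toAlgebra
  have : Algebra.IsAlgebraic ℚ Qb := AlgebraicClosure.isAlgebraic ℚ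
  have : Algebra.IsAlgebraic L Qb := Algebra.IsAlgebraic.tower_top (K := ℚ) L
  let φ : Qb →ₐ[L] AlgebraicClosure (w.maximalIdeal.adicCompletion L) := IsAlgClosed.lift
  let N := spectralMulAlgNorm (w.maximalIdeal.adicCompletion L)
    (AlgebraicClosure (w.maximalIdeal.adicCompletion L))
  refine ⟨(MulRingNorm.mulRingNormEquivAbsoluteValue N.toMulRingNorm).comp
    (f := φ.toRingHom) φ.toRingHom.injective, ?_, fun z => ?_⟩
  · intro x y
    change spectralNorm _ _ (φ (x + y)) ≤ max (spectralNorm _ _ (φ x)) (spectralNorm _ _ (φ y))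
    rw [map_add]
    exact isNonarchimedean_spectralNorm _ _
  · change spectralNorm _ _ (φ (z : Qb)) = _
    have h : φ (z : Qb) = algebraMap (w.maximalIdeal.adicCompletion L) _
        (FinitePlace.embedding w.maximalIdeal z) := φ.commutes z
    rw [h, spectralNorm_extends, FinitePlace.norm_embedding_eq]

end Fermat.Agent.S17.El
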