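import Fermat.Agent.S17.El.Ram

/-!
# S17/El/Glob: a non constant function has finitely many ramification points  (WP EL-G-FRAM)

Same proof as `Cv.finite_ramSet` in `S17/El/Ram.lean`: for `P` not a pole of `φ`,
`ord_P(dφ) = ord_P(φ - φ(P)) - 1` (`RR.ordDifferential_D_eq`, char. 0), `dφ ≠ 0`, `RR.finite_ordDifferential_ne_zero`.
-/

set_option autoImplicit false

open AlgebraicCurve

namespace Fermat.Agent.S17.El

variable {K F : Type*} [Field K] [Field F] [Algebra K F] [IsAlgClosed K] [CharZero K]
  [S27.IsFF K F]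

theorem finite_ram (φ : F) (hφ : φ ∉ Set.range (algebraMap K F)) :
    {P : Place K F | φ ∈ P.toValuationSubring ∧
      2 ≤ P.ord (φ - algebraMap K F (S27.val P φ))}.Finite := by
  have h1 := finrank_kaehler_FF K F
  have hD : KaehlerDifferential.D K F φ ≠ 0 := by
    intro h
    obtain ⟨v, hv⟩ : ∃ v : Place K F, ¬ v.adicValuation φ ≤ 1 := by
      by_contra hcon
      push Not at hcon
      obtain ⟨c, hc⟩ := S27.const_of_no_pole hcon
      exact hφ ⟨c, hc.symm⟩
    have hneg : v.ord φ < 0 := v.not_adicValuation_le_one_iff.1 hv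
    have h2 := RR.ordDifferential_D_eq h1 v (g := φ) (by
      rw [Ne, Int.cast_eq_zero]; omega)
    rw [h] at h2
    have h3 : v.ordDifferential (0 : Ω[F⁄K]) = 0 := by
      have := RR.dCoordGenerates h1 v
      have := RR.nontrivial_kaehler h1
      rw [Place.ordDifferential, Place.differentialCoeff_zero, Place.ord_zero]
    omega
  refine (RR.finite_ordDifferential_ne_zero h1 hD).subset ?_
  rintro P ⟨-, hP2⟩
  show P.ordDifferential _ ≠ 0
  have h2 := RR.ordDifferential_D_eq h1 P (g := φ - algebraMap K F (S27.val P φ)) (by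
    rw [Ne, Int.cast_eq_zero]; omega)
  rw [map_sub, Derivation.map_algebraMap, sub_zero] at h2
  rw [h2]
  omega

end Fermat.Agent.S17.El
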