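import Fermat.Agent.S17.El.Glob.QB
import Fermat.Agent.S17.El.Diff

/-!
# S17/El/Glob: global form of the different inequality   (WP EL-G-DIFF)

`tau P ≥ 2g hX P - ∑_Q ram(Q) G(Q,P) - c` for `P` affine, not a ramification point of `x`.
`Cv.diff_bound`: `zprodE oo (x - x(P)) P (dn v · P) * X v P^(2g) ≤ γ_v ∏_Q dn v Q P ^ ram Q`.  LHS is `LG` with sum
`zsumE oo (x - x(P)) P (G · P) + 2g hX P = - tau P + 2g hX P` (`ys_of_not_mem`, `LG_zprodE`, `LG_dn`), RHS is `LG` with sum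
`∑_Q ram Q * G Q P` (`Q ∈ RamSet`, `P ∉ RamSet` so `Q ≠ P`).  `LG.le`.
-/

set_option autoImplicit false

open AlgebraicCurve

namespace Fermat.Agent.S17.El

open AH

variable {F : Type*} [Field F] [Algebra Qb F] [S27.IsFF Qb F]

theorem Cv.gDiff (C : Cv Qb F) :
    ∃ c : ℝ, ∀ P : Place Qb F, P ≠ C.oo → P ∉ C.RamSet →
      2 * (genusFF Qb F : ℝ) * C.hX P -
        ∑ Q ∈ C.finite_ramSet.toFinset, (C.ram Q : ℝ) * C.G Q P - c ≤ C.tau P := by
  obtain ⟨γ, hγ⟩ := C.diff_bound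
  refine ⟨γ.ht, fun P hP hPR => ?_⟩
  have h1 : LG (fun v => zprodE C.oo (C.x - algebraMap Qb F (S27.val P C.x)) P
      (fun P' => C.dn v P' P)) (zsumE C.oo (C.x - algebraMap Qb F (S27.val P C.x)) P
        (fun Q => C.G Q P)) :=
    LG_zprodE (ψ := fun v P' => C.dn v P' P) (fun Q hQ hQP _ => C.LG_dn hQ hP hQP)
  have h2 := h1.mul ((C.LG_X P).pow (2 * genusFF Qb F))
  have h3 : LG (fun v => ∏ Q ∈ C.finite_ramSet.toFinset, C.dn v Q P ^ C.ram Q)
      (∑ Q ∈ C.finite_ramSet.toFinset, (C.ram Q : ℝ) * C.G Q P) := by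
    refine LG.prod _ (Φ := fun Q v => C.dn v Q P ^ C.ram Q) fun Q hQ => ?_
    have hQ' : Q ∈ C.RamSet := (C.finite_ramSet.mem_toFinset).1 hQ
    have hne : Q ≠ P := fun h => hPR (h ▸ hQ')
    exact (C.LG_dn hQ'.1 hP hne).pow _
  have h4 := LG.le γ h2 h3 (fun v => hγ v P hP hPR)
  have h5 : C.tau P = - zsumE C.oo (C.x - algebraMap Qb F (S27.val P C.x)) P
      (fun Q => C.G Q P) := by
    unfold Cv.tau
    rw [C.ys_of_not_mem hPR]
  rw [h5]
  push_cast at h4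
  linarith

end Fermat.Agent.S17.El
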