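import Fermat.Agent.S17.El.Glob.LGc
import Fermat.Agent.S17.El.K1

/-!
# S17/El/Glob: global form of (K1a)   (WP EL-G-K1)

`∑_{P ∈ Z(f)} hX P ≤ n h(a) + c` for `f = ∑ a_i φ_i ≠ 0`.
`Cv.K1a φ`: `mun v f ≤ γ_v |a|_v^n`; `LG_mun`, `LG.of_nrm` (`a ≠ 0` because `f ≠ 0`), `LG.pow`, `LG.le`.
-/

set_option autoImplicit false

open AlgebraicCurve

namespace Fermat.Agent.S17.El

open AH

variable {F : Type*} [Field F] [Algebra Qb F] [S27.IsFF Qb F]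

theorem Cv.gK1 (C : Cv Qb F) {ι : Type*} [Fintype ι] (φ : ι → F) (hφ : ∀ i, φ i ∈ Reg C.oo) :
    ∃ c : ℝ, ∀ a : ι → Qb, (∑ i, a i • φ i) ≠ 0 →
      zsum C.oo (∑ i, a i • φ i) C.hX ≤ C.n * absLogHeight a + c := by
  obtain ⟨γ, hγ⟩ := C.K1a φ hφ
  refine ⟨γ.ht, fun a ha => ?_⟩
  have ha0 : a ≠ 0 := by
    rintro rfl
    apply ha
    simp
  have hmem : (∑ i, a i • φ i) ∈ Reg C.oo :=
    Subalgebra.sum_mem _ fun i _ => Subalgebra.smul_mem _ (hφ i) _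
  exact LG.le γ (C.LG_mun hmem ha) ((LG.of_nrm ha0).pow C.n) (fun v => hγ v a)

end Fermat.Agent.S17.El
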