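import Fermat.Agent.S17.El.Glob.LGc
import Fermat.Agent.S17.El.Vdm

/-!
# S17/El/Glob: global form of the Vandermonde inequality   (WP EL-G-V)

For every `j : Fin (r+1)` apply `Cv.vandermonde C k r (φ ∘ j.succAbove)`; dominate the `r+1` M-constants by one (`MC.exists_sup`).
Then `|sminor φ P|_v^n ≤ γ_v (∏ X_v(P_i))^(k+1-r) ∏_{i<i'} dn_v(P_i,P_i')` (`nrm_le`, `v(±1) = 1`; `pow_le_pow_left₀` or
`exists_eq_nrm`).  Both sides are `LG` (`LG.of_nrm`, `LG_X`, `LG_dn`, `LG.prod`, `LG.pow`, `LG.mul`); conclude with `LG.le`.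
-/

set_option autoImplicit false

open AlgebraicCurve

namespace Fermat.Agent.S17.El

open AH

variable {F : Type*} [Field F] [Algebra Qb F] [S27.IsFF Qb F]

theorem Cv.gV (C : Cv Qb F) (k r : ℕ) (φ : Fin (r + 1) → F) (hφ : ∀ j, φ j ∈ V C.oo k) :
    ∃ c : ℝ, ∀ P : Fin r → Place Qb F, (∀ i, P i ≠ C.oo) → Function.Injective P →
      sminor φ P ≠ 0 →
        C.n * absLogHeight (sminor φ P) ≤ ((k + 1 - r : ℕ) : ℝ) * ∑ i, C.hX (P i) +
          ∑ i, ∑ i' ∈ Finset.univ.filter (fun i' => i < i'), C.G (P i) (P i') + c := by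
  classical
  choose γs hγs using fun j : Fin (r + 1) =>
    C.vandermonde k r (fun j' => φ (j.succAbove j')) (fun j' => hφ _)
  obtain ⟨γ, hγ⟩ := MC.exists_sup γs
  refine ⟨γ.ht, fun P hP hinj h0 => ?_⟩
  have H1 : LG (fun v => nrm v (sminor φ P) ^ C.n) (C.n * absLogHeight (sminor φ P)) :=
    (LG.of_nrm h0).pow C.n
  have H2 : LG (fun v => (∏ i, C.X v (P i)) ^ (k + 1 - r))
      (((k + 1 - r : ℕ) : ℝ) * ∑ i, C.hX (P i)) :=
    (LG.prod Finset.univ (fun i _ => C.LG_X (P i))).pow _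
  have H3 : LG (fun v => ∏ i, ∏ i' ∈ Finset.univ.filter (fun i' => i < i'), C.dn v (P i) (P i'))
      (∑ i, ∑ i' ∈ Finset.univ.filter (fun i' => i < i'), C.G (P i) (P i')) := by
    refine LG.prod Finset.univ (fun i _ => LG.prod _ (fun i' hi' => ?_))
    refine C.LG_dn (hP i) (hP i') (fun h => ?_)
    have := hinj h
    rw [Finset.mem_filter] at hi'
    exact hi'.2.ne this
  refine LG.le γ H1 (H2.mul H3) (fun v => ?_)
  obtain ⟨j, hj⟩ := exists_eq_nrm v (sminor φ P)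
  rw [hj]
  have hs : v (sminor φ P j) =
      v (Matrix.det (Matrix.of fun (i : Fin r) (j' : Fin r) =>
        S27.val (P i) (φ (j.succAbove j')))) := by
    unfold sminor
    rw [map_mul, map_pow, AbsoluteValue.map_neg, map_one, one_pow, one_mul]
  rw [hs]
  refine le_trans (hγs j v P hP hinj) ?_
  refine mul_le_mul_of_nonneg_right (hγ j v) ?_
  exact mul_nonneg (H2.pos v).le (H3.pos v).le

end Fermat.Agent.S17.El
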