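import Fermat.Agent.S17.El.Glob.Defs
import Fermat.Agent.S17.AH.Northcott
import Fermat.Agent.S17.North.Gal
import Fermat.Prelude.Def_AlgebraicCurve_BaseChangeGalois

/-!
# S17/El/Glob: Galois orbits; Northcott for places with bounded orbit   (WP EL-G-GAL)

`ρ : G_ℚ → SemilinearAut ℚ̄ F` with `baseAut (ρ σ) = σ`, fixing a non constant function `j`.
* `val_smul` (any semilinear automorphism `g`): `(g f)(g P) = g (f(P))`.  If `f` is regular at `P`, `c = val P f` is characterised by
  `ord_P(f - c) > 0` (`S27.val_spec`, uniqueness: `S27.val_eq…`), and `ord_{gP}(g f - g c) = ord_P(f - c)` (`SemilinearAut.ord_smul`, `smul_algebraMap`).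
  If `f` has a pole at `P` then `g f` has a pole at `g P` and both sides are the junk value `0`.
* `finite_orbit_Qb`: the conjugates of `z : ℚ̄` are roots of `minpoly ℚ z`.
* `finite_orbit_place`: if `j` is regular at `P`, `c = j(P)`: `j(σP) = (σ j)(σ P) = σ c`, so `σ P` is a zero of `j - c'` for one of the finitely many conjugates `c'`
  of `c` (`S27.finite_ord_ne_zero`); if `j` has a pole at `P`, `σ P` is a pole of `σ j = j`.
* `finite_orbit_fun`: `F` is algebraic over `ℚ̄(j)` (`S27.IsFF`: `F` is finite over `ℚ̄(x₀)` for some `x₀`, so of transcendence degree one; `j` is transcendental because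
  `ℚ̄` is algebraically closed in `F`), so there is `Φ ∈ ℚ̄[X][Y]`, with `Φ(j, Y) ≠ 0`, `Φ(j, f) = 0`.  `σ f` is a root of `(σ Φ)(j, Y) ≠ 0`, and `σ Φ` takes finitely many values.
* `finite_setOf_hX_le`: let `N₁ = #orbit of C.x`.  If the orbit of `P` has `≤ d` elements then `z = x(P)` has `≤ d N₁` conjugates:
  `σ z = (σ x)(σ P)`.  So `deg z ≤ d N₁` (the roots of `minpoly ℚ z` in `ℚ̄` are the conjugates of `z`: `AH.normal_Qb`, `minpoly.exists_algEquiv_of_root'`-like,
  cf. `AH.exists_conj_tuple`; separable: `natDegree = card roots`).  `AH.finite_setOf_height_le` (`![z,1]` vs `![1,z]`: `AH.absLogHeight_comp_equiv`); finally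
  `P ↦ x(P)` has finite fibres on the affine places (`P` is a zero of `x - z`), and `oo` is one more place.
-/

set_option autoImplicit false

open AlgebraicCurve

namespace Fermat.Agent.S17.El

open AH

/-- the absolute Galois group of `ℚ`. -/
local notation "GQ" => (AlgebraicClosure ℚ ≃ₐ[ℚ] AlgebraicClosure ℚ)

theorem val_smul {K F : Type*} [Field K] [Field F] [Algebra K F] [IsAlgClosed K] [CharZero K]
    [S27.IsFF K F] (g : SemilinearAut K F) (P : Place K F) (f : F) :
    S27.val (g • P) (g • f) = SemilinearAut.baseAut g (S27.val P f) :=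
  MW.GalAux.val_smul_gen g P f

theorem finite_orbit_Qb (z : Qb) : (Set.range fun σ : GQ => σ z).Finite :=
  MW.GalAux.finite_conj z

/-- the degree is the number of conjugates. -/
theorem natDegree_minpoly_le (z : Qb) {d : ℕ} (h : (Set.range fun σ : GQ => σ z).ncard ≤ d) :
    (minpoly ℚ z).natDegree ≤ d :=
  (MW.GalAux.natDegree_minpoly_eq z).le.trans h

variable {F : Type*} [Field F] [Algebra Qb F] [S27.IsFF Qb F]
  (ρ : GQ →* SemilinearAut Qb F) (hρ : ∀ σ, SemilinearAut.baseAut (ρ σ) = σ.toRingEquiv)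
  {j : F} (hj : j ∉ Set.range (algebraMap Qb F)) (hjρ : ∀ σ, ρ σ • j = j)

namespace GalAux

/-- `x` has a finite Galois orbit. -/
def FinOrb (ρ : GQ →* SemilinearAut Qb F) (x : F) : Prop := (Set.range fun σ : GQ => ρ σ • x).Finite

omit [S27.IsFF Qb F] in
include hρ in
theorem finOrb_algebraMap (c : Qb) : FinOrb ρ (algebraMap Qb F c) := by
  refine ((finite_orbit_Qb c).image (algebraMap Qb F)).subset ?_
  rintro _ ⟨σ, rfl⟩
  refine ⟨σ c, ⟨σ, rfl⟩, ?_⟩
  show _ = ρ σ • algebraMap Qb F c
  rw [SemilinearAut.smul_algebraMap, hρ]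
  rfl

omit [S27.IsFF Qb F] in
theorem FinOrb.add {x y : F} (hx : FinOrb ρ x) (hy : FinOrb ρ y) : FinOrb ρ (x + y) := by
  refine (Set.Finite.image2 (fun a b => a + b) hx hy).subset ?_
  rintro _ ⟨σ, rfl⟩
  exact ⟨_, ⟨σ, rfl⟩, _, ⟨σ, rfl⟩, (smul_add _ _ _).symm⟩

omit [S27.IsFF Qb F] in
theorem FinOrb.mul {x y : F} (hx : FinOrb ρ x) (hy : FinOrb ρ y) : FinOrb ρ (x * y) := by
  refine (Set.Finite.image2 (fun a b => a * b) hx hy).subset ?_
  rintro _ ⟨σ, rfl⟩
  exact ⟨_, ⟨σ, rfl⟩, _, ⟨σ, rfl⟩, (smul_mul' _ _ _).symm⟩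

omit [S27.IsFF Qb F] in
theorem FinOrb.inv {x : F} (hx : FinOrb ρ x) : FinOrb ρ x⁻¹ := by
  refine (hx.image (fun a => a⁻¹)).subset ?_
  rintro _ ⟨σ, rfl⟩
  exact ⟨_, ⟨σ, rfl⟩, (smul_inv'' _ _).symm⟩

omit [S27.IsFF Qb F] in
/-- a root of a non zero polynomial whose coefficients have finite orbits has a finite orbit. -/
theorem FinOrb.of_root {p : Polynomial F} (hp : p ≠ 0) (hc : ∀ i, FinOrb ρ (p.coeff i)) {f : F}
    (hf : p.eval f = 0) : FinOrb ρ f := by
  classical
  have hU : (⋃ i ∈ Finset.range (p.natDegree + 1), Set.range fun σ : GQ => ρ σ • p.coeff i).Finite :=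
    Set.Finite.biUnion (Finset.finite_toSet _) fun i _ => hc i
  refine (Polynomial.bUnion_roots_finite (RingHom.id F) p.natDegree
    (hU.union (Set.finite_singleton (0 : F)))).subset ?_
  rintro _ ⟨σ, rfl⟩
  set φ : F →+* F := (SemilinearAut.toRingAut (ρ σ) : F ≃+* F).toRingHom with hφ
  have hφi : Function.Injective φ := (SemilinearAut.toRingAut (ρ σ)).injective
  simp only [Set.mem_iUnion]
  refine ⟨p.map φ, ⟨(Polynomial.natDegree_map_le).trans le_rfl, fun i => ?_⟩, ?_⟩
  · rw [Polynomial.coeff_map]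
    by_cases hi : i ≤ p.natDegree
    · left
      simp only [Set.mem_iUnion]
      exact ⟨i, Finset.mem_range.2 (Nat.lt_succ_of_le hi), σ, rfl⟩
    · right
      rw [Polynomial.coeff_eq_zero_of_natDegree_lt (not_le.1 hi), map_zero]
      rfl
  · rw [Polynomial.map_id, Finset.mem_coe, Multiset.mem_toFinset, Polynomial.mem_roots
      ((Polynomial.map_ne_zero_iff hφi).2 hp), Polynomial.IsRoot.def]
    show (p.map φ).eval (φ f) = 0
    rw [Polynomial.eval_map_apply, hf, map_zero]

end GalAux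

include hρ hj hjρ

theorem finite_orbit_place (P : Place Qb F) : (Set.range fun σ : GQ => ρ σ • P).Finite :=
  MW.finite_orbit ρ hρ hj hjρ P

theorem finite_orbit_fun (f : F) : (Set.range fun σ : GQ => ρ σ • f).Finite := by
  obtain ⟨x, hx⟩ := S27.IsFF.exists_param (K := Qb) (F := F)
  have hp := hx.of_not_mem_range hj
  have hfd := hp.finite
  have hmem : ∀ y ∈ IntermediateField.adjoin Qb {j}, GalAux.FinOrb ρ y := by
    intro y hy
    induction hy using IntermediateField.adjoin_induction with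
    | mem y hy =>
      rw [Set.mem_singleton_iff.1 hy]
      refine (Set.finite_singleton j).subset ?_
      rintro _ ⟨σ, rfl⟩
      exact hjρ σ
    | algebraMap c => exact GalAux.finOrb_algebraMap ρ hρ c
    | add y z _ _ hy hz => exact hy.add ρ hz
    | inv y _ hy => exact hy.inv ρ
    | mul y z _ _ hy hz => exact hy.mul ρ hz
  have hint : IsIntegral (IntermediateField.adjoin Qb {j}) f := Algebra.IsIntegral.isIntegral f
  refine GalAux.FinOrb.of_root ρ
    (p := (minpoly (IntermediateField.adjoin Qb {j}) f).map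
      (algebraMap (IntermediateField.adjoin Qb {j}) F))
    ((Polynomial.map_ne_zero_iff (algebraMap (IntermediateField.adjoin Qb {j}) F).injective).2
      (minpoly.ne_zero hint)) (fun i => ?_) ?_
  · rw [Polynomial.coeff_map]
    exact hmem _ (SetLike.coe_mem _)
  · rw [Polynomial.eval_map_algebraMap, minpoly.aeval]

theorem Cv.finite_setOf_hX_le (C : Cv Qb F) (d : ℕ) (B : ℝ) :
    {P : Place Qb F | (Set.range fun σ : GQ => ρ σ • P).ncard ≤ d ∧ C.hX P ≤ B}.Finite := by
  classical
  have hxfin := finite_orbit_fun ρ hρ hj hjρ C.x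
  have hxc : C.x ∉ Set.range (algebraMap Qb F) := by
    rintro ⟨c, hc⟩
    have h1 := C.hxn
    rw [← hc, S24.Place.ord_algebraMap] at h1
    have := C.hn
    omega
  refine ((AH.finite_setOf_height_le (d * (Set.range fun σ : GQ => ρ σ • C.x).ncard) B).preimage'
    (f := fun Q : Place Qb F => S27.val Q C.x)
    (fun c _ => MW.GalAux.finite_fibre_gen hxc c)).subset ?_
  rintro P ⟨hd, hB⟩
  have hPfin := finite_orbit_place ρ hρ hj hjρ P
  refine ⟨natDegree_minpoly_le _ ?_, ?_⟩
  · have hsub : (Set.range fun σ : GQ => σ (S27.val P C.x)) ⊆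
        Set.image2 (fun Q y => S27.val Q y) (Set.range fun σ : GQ => ρ σ • P)
          (Set.range fun σ : GQ => ρ σ • C.x) := by
      rintro _ ⟨σ, rfl⟩
      exact ⟨_, ⟨σ, rfl⟩, _, ⟨σ, rfl⟩, MW.val_smul ρ hρ σ P C.x⟩
    refine (Set.ncard_le_ncard hsub (hPfin.image2 _ hxfin)).trans ?_
    rw [← Set.image_uncurry_prod]
    refine (Set.ncard_image_le (hPfin.prod hxfin)).trans ?_
    rw [Set.ncard_prod]
    exact Nat.mul_le_mul_right _ hd
  · refine le_of_eq_of_le ?_ hB
    show absLogHeight ![S27.val P C.x, 1] = absLogHeight ![1, S27.val P C.x]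
    rw [← absLogHeight_comp_equiv (Equiv.swap (0 : Fin 2) 1) ![1, S27.val P C.x]]
    congr 1
    funext i
    fin_cases i <;> simp

end Fermat.Agent.S17.El
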