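import Fermat.Agent.S17.El.Glob.Rep
import Fermat.Agent.S17.AH.Northcott
import Fermat.Agent.S17.Quad.Main
import Fermat.Agent.S17.WMW.Cont

/-!
# S17/El/Glob: Northcott and (H5), with the finiteness of the Galois orbits as hypotheses   (owner helper83)

* `natDegree_minpoly_le_ncard`: the degree of an algebraic number is at most the number of its conjugates;
* `Cv.finite_fibre`: `x` has finite fibres;
* `Cv.finite_hX_le_of_orbits`: finitely many places with bounded orbit and bounded `hX`;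
* `Cv.smul_red_eq`, `Cv.H5_of_orbits`: finitely many invariant classes `z` with `sz (z + a) ≤ b`.
-/

set_option autoImplicit false
set_option linter.unusedSectionVars false

open AlgebraicCurve

namespace Fermat.Agent.S17.El

open AH

/-- the absolute Galois group of `ℚ`. -/
local notation "GQ" => (AlgebraicClosure ℚ ≃ₐ[ℚ] AlgebraicClosure ℚ)

/-- an element fixed by an open subgroup has a finite orbit. -/
theorem finite_range_of_level {A X : Type*} [Group A] [MulAction A X] (ρ : GQ →* A) (x : X)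
    (h : ∃ L : IntermediateField ℚ Qb, FiniteDimensional ℚ L ∧
      ∀ σ : GQ, (∀ y ∈ L, σ y = y) → ρ σ • x = x) :
    (Set.range fun σ : GQ => ρ σ • x).Finite := by
  obtain ⟨L, hL, h⟩ := h
  let r : GQ → (L →ₐ[ℚ] Qb) := fun σ => (σ : Qb →ₐ[ℚ] Qb).comp L.val
  have key : ∀ σ τ : GQ, r σ = r τ → ρ σ • x = ρ τ • x := by
    intro σ τ hr
    have h1 : ρ (τ⁻¹ * σ) • x = x := h _ (fun y hy => by
      have h2 : σ y = τ y := DFunLike.congr_fun hr ⟨y, hy⟩
      show τ⁻¹ (σ y) = y
      rw [h2]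
      exact τ.symm_apply_apply y)
    rw [map_mul, mul_smul, map_inv, inv_smul_eq_iff] at h1
    exact h1
  refine Set.Finite.subset
    (Set.finite_range (fun f : Set.range r => ρ (Classical.choose f.2) • x)) ?_
  rintro _ ⟨σ, rfl⟩
  exact ⟨⟨r σ, σ, rfl⟩, key _ _ (Classical.choose_spec (⟨σ, rfl⟩ : ∃ τ, r τ = r σ))⟩

/-- the degree of an algebraic number is bounded by the number of its conjugates. -/
theorem natDegree_minpoly_le_ncard (ξ : Qb) {T : Set Qb} (hT : T.Finite) (h : ∀ σ : GQ, σ ξ ∈ T) :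
    (minpoly ℚ ξ).natDegree ≤ T.ncard := by
  classical
  have hint : IsIntegral ℚ ξ := isIntegral_Qb ξ
  have hsep : (minpoly ℚ ξ).Separable := (minpoly.irreducible hint).separable
  have hsplit : ((minpoly ℚ ξ).map (algebraMap ℚ Qb)).Splits := IsAlgClosed.splits _
  rw [← Polynomial.card_rootSet_eq_natDegree hsep hsplit, ← Nat.card_eq_fintype_card,
    Nat.card_coe_set_eq]
  refine Set.ncard_le_ncard ?_ hT
  intro η hη
  rw [Polynomial.mem_rootSet] at hη
  have h1 : Algebra.IsAlgebraic ℚ Qb := AlgebraicClosure.isAlgebraic ℚ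
  have h2 : IsAlgClosure ℚ Qb := ⟨inferInstance, inferInstance⟩
  have h3 : Normal ℚ Qb := IsAlgClosure.normal ℚ Qb
  obtain ⟨σ, hσ⟩ := minpoly.exists_algEquiv_of_root' hint.isAlgebraic hη.2
  rw [← hσ]
  exact h σ

variable {F : Type*} [Field F] [Algebra Qb F] [S27.IsFF Qb F]
  (ρ : GQ →* SemilinearAut Qb F) (hρ : ∀ σ, SemilinearAut.baseAut (ρ σ) = σ.toRingEquiv)

namespace Cv

variable (C : Cv Qb F)

/-- `x` has finite fibres. -/
theorem finite_fibre (ξ : Qb) : {P : Place Qb F | P ≠ C.oo ∧ S27.val P C.x = ξ}.Finite := by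
  have hne : C.x - algebraMap Qb F ξ ≠ 0 := by
    intro h0
    have h1 : C.x = algebraMap Qb F ξ := sub_eq_zero.1 h0
    have h2 := C.hxn
    rw [h1] at h2
    have h3 : C.oo.ord (algebraMap Qb F ξ) = 0 := S24.Place.ord_algebraMap _ _
    have := C.hn
    omega
  refine (S27.divOf (K := Qb) (C.x - algebraMap Qb F ξ)).support.finite_toSet.subset ?_
  rintro P ⟨hP, hval⟩
  rw [Finset.mem_coe, Finsupp.mem_support_iff, S27.divOf_apply]
  have h1 := S27.val_spec P ((S27.adic_le_one_iff_mem P).2 (C.hx P hP))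
  rw [hval, S27.adic_lt_one_iff_ord] at h1
  have := h1.resolve_left hne
  omega

include hρ in
/-- Northcott for places with bounded Galois orbit. -/
theorem finite_hX_le_of_orbits (hxo : (Set.range fun σ : GQ => ρ σ • C.x).Finite)
    (hPo : ∀ P : Place Qb F, (Set.range fun σ : GQ => ρ σ • P).Finite) (d : ℕ) (B : ℝ) :
    {P : Place Qb F | (Set.range fun σ : GQ => ρ σ • P).ncard ≤ d ∧ C.hX P ≤ B}.Finite := by
  classical
  set k := (Set.range fun σ : GQ => ρ σ • C.x).ncard with hk
  have hN := finite_setOf_height_le (k * d) B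
  have hU : (⋃ ξ ∈ {a : Qb | (minpoly ℚ a).natDegree ≤ k * d ∧ absLogHeight ![a, 1] ≤ B},
      {P : Place Qb F | P ≠ C.oo ∧ S27.val P C.x = ξ}).Finite :=
    hN.biUnion fun ξ _ => C.finite_fibre ξ
  refine (hU.union (Set.finite_singleton C.oo)).subset ?_
  rintro P ⟨hPd, hPB⟩
  by_cases hP : P = C.oo
  · right; exact hP
  left
  rw [Set.mem_iUnion₂]
  refine ⟨S27.val P C.x, ⟨?_, ?_⟩, hP, rfl⟩
  · have hPo := hPo P
    set T : Set Qb := Set.image2 (fun (f : F) (Q : Place Qb F) => S27.val Q f)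
      (Set.range fun σ : GQ => ρ σ • C.x) (Set.range fun σ : GQ => ρ σ • P) with hT
    have hTfin : T.Finite := hxo.image2 _ hPo
    have hmem : ∀ σ : GQ, σ (S27.val P C.x) ∈ T := by
      intro σ
      refine ⟨ρ σ • C.x, ⟨σ, rfl⟩, ρ σ • P, ⟨σ, rfl⟩, ?_⟩
      show S27.val (ρ σ • P) (ρ σ • C.x) = _
      rw [S19.val_smul, hρ]
      rfl
    refine (natDegree_minpoly_le_ncard _ hTfin hmem).trans ?_
    rw [hT, ← Set.image_uncurry_prod]
    refine (Set.ncard_image_le (hxo.prod hPo)).trans ?_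
    rw [Set.ncard_prod]
    exact Nat.mul_le_mul_left _ hPd
  · have : absLogHeight ![S27.val P C.x, 1] = C.hX P := by
      have h := absLogHeight_comp_equiv (Equiv.swap (0 : Fin 2) 1) ![1, S27.val P C.x]
      rw [Cv.hX, ← h]
      congr 1
      funext i
      fin_cases i <;> simp
    rw [this]
    exact hPB

/-- an automorphism fixing `oo` and the class of a reduced divisor fixes the divisor. -/
theorem smul_red_eq (g : SemilinearAut Qb F) (hoo : g • C.oo = C.oo) {w : Pic0 Qb F}
    (hw : g • w = w) : g • C.red w = C.red w := by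
  obtain ⟨hred, hbcl⟩ := C.red_spec w
  set E := C.red w with hE
  have hdeg : Divisor.degree (g • E) = Divisor.degree E := SemilinearAut.degree_smul g E
  have h1 : S27.bcl C.oo (g • E) = S27.bcl C.oo E := by
    have h2 : g • S27.bcl C.oo E = S27.bcl C.oo (g • E) := by
      unfold S27.bcl
      rw [Quad.smul_dcl, smul_sub, hdeg, smul_comm g (Divisor.degree E),
        SemilinearAut.smul_single, hoo]
    rw [← h2, hbcl, hw]
  rw [S27.bcl_eq_iff, hdeg] at h1
  have h3 : S27.LinEq (g • E) E := by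
    have := h1.add (S27.LinEq.refl (Divisor.degree E • Finsupp.single C.oo (1 : ℤ)))
    rwa [sub_add_cancel, sub_add_cancel] at this
  exact S27.eq_of_linEq_of_finrank hred.1 hred.finrank_L (Quad.smul_nonneg_divisor g hred.1) h3

include hρ in
/-- **(H5)**: finitely many Galois invariant classes `z` with `sz (z + a) ≤ b`. -/
theorem H5_of_orbits (hxo : (Set.range fun σ : GQ => ρ σ • C.x).Finite)
    (hPo : ∀ P : Place Qb F, (Set.range fun σ : GQ => ρ σ • P).Finite) (a : Pic0 Qb F) (b : ℝ) :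
    {z : Pic0 Qb F | (∀ σ, ρ σ • z = z) ∧ C.sz (z + a) ≤ b}.Finite := by
  classical
  set g := genusFF Qb F with hg
  obtain ⟨Da, hDa, rfl⟩ := S27.dcl_surjective a
  let R : Option Da.support → Place Qb F := fun o => o.elim C.oo (fun P => P.1)
  obtain ⟨m, hm⟩ := Quad.exists_orbit_bound ρ R (fun j => hPo _)
  have hS := C.finite_hX_le_of_orbits ρ hρ hxo hPo (m * g) b
  set S := {P : Place Qb F | (Set.range fun σ : GQ => ρ σ • P).ncard ≤ m * g ∧ C.hX P ≤ b}
    with hSdef
  have hE : {E : Divisor Qb F | 0 ≤ E ∧ Divisor.degree E ≤ g ∧ ∀ P ∈ E.support, P ∈ S}.Finite := by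
    have hU : (⋃ n ∈ Finset.range (g + 1),
        {D : Divisor Qb F | 0 ≤ D ∧ Divisor.degree D = n ∧ ∀ P ∈ D.support, P ∈ S}).Finite :=
      Set.Finite.biUnion (Finset.finite_toSet _) fun n _ => Quad.finite_effective_of_support hS n
    refine hU.subset ?_
    rintro E ⟨h0, hd, hs⟩
    rw [Set.mem_iUnion₂]
    have h1 := Quad.nrm_of_nonneg h0
    refine ⟨Quad.nrm E, ?_, h0, h1.symm, hs⟩
    rw [Finset.mem_range]
    omega
  refine (hE.image (fun E => - S27.bcl C.oo E - S27.dcl Da)).subset ?_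
  rintro z ⟨hz, hsz⟩
  set E := C.red (-(z + S27.dcl Da)) with hEdef
  have hE0 : 0 ≤ E := C.red_nonneg _
  have hEd : Divisor.degree E ≤ g := C.degree_red_le _
  have hcard : E.support.card ≤ g := by
    have h1 := Quad.nrm_of_nonneg hE0
    have h2 := Quad.card_support_le_of_nonneg hE0 h1.symm
    omega
  refine ⟨E, ⟨hE0, hEd, ?_⟩, ?_⟩
  · intro P hP
    constructor
    · refine (hm E.support ?_ P hP).trans (Nat.mul_le_mul_left _ hcard)
      intro σ hσ Q hQ
      have hoo : ρ σ • C.oo = C.oo := hσ none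
      have hDa' : ρ σ • Da = Da :=
        WMW.smul_divisor_eq_of_fixes _ _ fun P hP => hσ (some ⟨P, hP⟩)
      have hw : ρ σ • (-(z + S27.dcl Da)) = -(z + S27.dcl Da) := by
        rw [smul_neg, smul_add, hz, Quad.smul_dcl, hDa']
      have hfix : ρ σ • E = E := C.smul_red_eq _ hoo hw
      rw [Finsupp.mem_support_iff] at hQ ⊢
      rw [← hfix, SemilinearAut.divisor_smul_apply_smul]
      exact hQ
    · refine le_trans ?_ hsz
      rw [Cv.sz, ← hEdef, Finsupp.sum]
      have h1 : (1 : ℝ) ≤ (E P : ℝ) := by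
        have h2 : 0 ≤ E P := hE0 P
        have h3 : E P ≠ 0 := Finsupp.mem_support_iff.1 hP
        exact_mod_cast (by omega : (1 : ℤ) ≤ E P)
      calc C.hX P ≤ (E P : ℝ) * C.hX P := le_mul_of_one_le_left (absLogHeight_nonneg _) h1
        _ ≤ ∑ Q ∈ E.support, (E Q : ℝ) * C.hX Q :=
          Finset.single_le_sum (f := fun Q => (E Q : ℝ) * C.hX Q)
            (fun Q _ => mul_nonneg (by exact_mod_cast hE0 Q) (absLogHeight_nonneg _)) hP
  · show - S27.bcl C.oo E - S27.dcl Da = z
    rw [(C.red_spec _).2]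
    abel

end Cv

end Fermat.Agent.S17.El
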