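import Fermat.Agent.S17.El.Glob.ZS

/-!
# S17/El/Glob: representatives of classes   (WP EL-G-REP)

`K` algebraically closed of characteristic `0`.
* `red_spec`: `Classical.epsilon_spec (S27.exists_isRed C.oo w)`.
* `red_oo`: `E = red w ≥ 0`, `l(E - oo) = 0`; if `E oo ≥ 1` then `E - oo ≥ 0` and `1 ∈ L(E - oo)` (`S27.finrank_L_pos`).
* `degree_red_le`: `S27.IsRed.degree_le` against an effective divisor of degree `g` in the class (`S27.exists_effective`, as in the
  proof of `S27.exists_isRed`).
* `sum_jm`: `∑_{P ∈ A} [P - oo] = dcl (∑_{P∈A} P - |A|·oo)` (induction on `A`, `S27.dcl_add`).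
* `exists_rep` (H2): `A` = the points of `red z` with multiplicities.
* `exists_fun_of_sum_jm`: `∑_{P∈Z} P - |Z|·oo` is principal (`S27.dcl_eq_zero_iff`, `S27.mem_principal_iff`), `= div f`; use `zsum_eq_finsupp_sum`.
-/

set_option autoImplicit false

open AlgebraicCurve

namespace Fermat.Agent.S17.El

variable {K F : Type*} [Field K] [Field F] [Algebra K F] [IsAlgClosed K] [CharZero K]
  [S27.IsFF K F]

namespace Cv

variable (C : Cv K F)

theorem red_spec (w : Pic0 K F) : S27.IsRed C.oo (C.red w) ∧ S27.bcl C.oo (C.red w) = w :=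
  Classical.epsilon_spec (S27.exists_isRed C.oo w)

theorem red_nonneg (w : Pic0 K F) : 0 ≤ C.red w := (C.red_spec w).1.1

theorem red_oo (w : Pic0 K F) : C.red w C.oo = 0 := by
  classical
  by_contra h
  have h0 : 0 ≤ C.red w C.oo := C.red_nonneg w C.oo
  have h1 : 0 ≤ C.red w - Finsupp.single C.oo 1 := by
    intro P
    rw [Finsupp.sub_apply, Finsupp.single_apply]
    split_ifs with hP
    · subst hP
      simp only [Finsupp.coe_zero, Pi.zero_apply]
      omega
    · simpa using C.red_nonneg w P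
  have h2 := S27.finrank_L_pos h1
  rw [(C.red_spec w).1.2] at h2
  exact lt_irrefl _ h2

theorem degree_red_le (w : Pic0 K F) : Divisor.degree (C.red w) ≤ genusFF K F := by
  obtain ⟨D, hD, rfl⟩ := S27.dcl_surjective w
  obtain ⟨R, hR⟩ := S27.exists_effective (g := genusFF K F) rfl
    (D + (genusFF K F : ℤ) • Finsupp.single C.oo 1)
    (by rw [map_add, map_zsmul, S27.degree_single_one, hD]; simp)
  have hdeg : Divisor.degree (S27.sumDiv R) = (genusFF K F : ℤ) := by
    rw [S27.degree_sumDiv]; simp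
  have hb : S27.bcl C.oo (S27.sumDiv R) = S27.dcl D := by
    unfold S27.bcl
    rw [hdeg, ← sub_eq_zero, ← S27.dcl_sub (by rw [← hdeg]; exact S27.degree_sub_smul C.oo _) hD,
      S27.dcl_sub_eq_zero_iff (by rw [← hdeg, S27.degree_sub_smul, hD])]
    have := hR.symm.add (S27.LinEq.refl (-((genusFF K F : ℤ) • Finsupp.single C.oo (1 : ℤ))))
    rwa [← sub_eq_add_neg, ← sub_eq_add_neg, add_sub_cancel_right] at this
  have := S27.IsRed.degree_le (S27.NS.sumDiv_nonneg R) (C.red_spec (S27.dcl D)).1
    (hb.trans (C.red_spec (S27.dcl D)).2.symm)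
  rwa [hdeg] at this

theorem eq_red {w : Pic0 K F} {E : Divisor K F} (hE : S27.IsRed C.oo E)
    (hw : S27.bcl C.oo E = w) : E = C.red w :=
  hE.eq_of_bcl_eq (C.red_spec w).1 (hw.trans (C.red_spec w).2.symm)

/-- the divisor of a multiset of affine points. -/
noncomputable def toDiv (A : Multiset C.Aff) : Divisor K F :=
  (A.map fun P => Finsupp.single P.1 (1 : ℤ)).sum

omit [IsAlgClosed K] [CharZero K] [S27.IsFF K F] in
theorem toDiv_zero : C.toDiv 0 = 0 := by
  simp [toDiv]

omit [IsAlgClosed K] [CharZero K] [S27.IsFF K F] in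
theorem toDiv_cons (P : C.Aff) (A : Multiset C.Aff) :
    C.toDiv (P ::ₘ A) = Finsupp.single P.1 1 + C.toDiv A := by
  simp [toDiv]

omit [IsAlgClosed K] [CharZero K] [S27.IsFF K F] in
theorem toDiv_add (A B : Multiset C.Aff) : C.toDiv (A + B) = C.toDiv A + C.toDiv B := by
  simp [toDiv]

omit [IsAlgClosed K] [CharZero K] [S27.IsFF K F] in
theorem toDiv_nsmul (n : ℕ) (A : Multiset C.Aff) : C.toDiv (n • A) = n • C.toDiv A := by
  induction n with
  | zero => simp [toDiv_zero]
  | succ n ih => rw [succ_nsmul, succ_nsmul, toDiv_add, ih]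

omit [IsAlgClosed K] [CharZero K] [S27.IsFF K F] in
theorem toDiv_finsetSum {ι : Type*} (s : Finset ι) (A : ι → Multiset C.Aff) :
    C.toDiv (∑ i ∈ s, A i) = ∑ i ∈ s, C.toDiv (A i) := by
  classical
  induction s using Finset.induction_on with
  | empty => simp [toDiv_zero]
  | insert a s ha ih => rw [Finset.sum_insert ha, Finset.sum_insert ha, toDiv_add, ih]

omit [IsAlgClosed K] [CharZero K] [S27.IsFF K F] in
theorem toDiv_nonneg (A : Multiset C.Aff) : 0 ≤ C.toDiv A := by
  classical
  induction A using Multiset.induction_on with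
  | empty => rw [toDiv_zero]
  | cons P A ih =>
    rw [toDiv_cons]
    refine add_nonneg (fun Q => ?_) ih
    rw [Finsupp.single_apply]
    split_ifs <;> simp

omit [IsAlgClosed K] [CharZero K] [S27.IsFF K F] in
theorem toDiv_oo (A : Multiset C.Aff) : C.toDiv A C.oo = 0 := by
  induction A using Multiset.induction_on with
  | empty => rw [toDiv_zero]; rfl
  | cons P A ih =>
    rw [toDiv_cons, Finsupp.add_apply, ih, Finsupp.single_eq_of_ne P.2.symm, add_zero]

theorem degree_toDiv (A : Multiset C.Aff) : Divisor.degree (C.toDiv A) = A.card := by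
  induction A using Multiset.induction_on with
  | empty => rw [toDiv_zero]; simp
  | cons P A ih =>
    rw [toDiv_cons, map_add, ih, S27.degree_single_one, Multiset.card_cons]
    push_cast
    ring

omit [IsAlgClosed K] [CharZero K] [S27.IsFF K F] in
theorem sum_toDiv (A : Multiset C.Aff) (ψ : Place K F → ℝ) :
    ((C.toDiv A).sum fun P m => (m : ℝ) * ψ P) = (A.map fun P => ψ P.1).sum := by
  induction A using Multiset.induction_on with
  | empty => rw [toDiv_zero]; simp
  | cons P A ih =>
    rw [toDiv_cons, Finsupp.sum_add_index' (by simp) (by intro a b c; push_cast; ring), ih,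
      Finsupp.sum_single_index (by simp), Multiset.map_cons, Multiset.sum_cons]
    simp

theorem bcl_add (E E' : Divisor K F) :
    S27.bcl C.oo (E + E') = S27.bcl C.oo E + S27.bcl C.oo E' := by
  unfold S27.bcl
  rw [← S27.dcl_add (S27.degree_sub_smul _ _) (S27.degree_sub_smul _ _)]
  congr 1
  rw [map_add, add_smul]
  abel

theorem sum_jm (A : Multiset C.Aff) : (A.map C.jm).sum = S27.bcl C.oo (C.toDiv A) := by
  induction A using Multiset.induction_on with
  | empty =>
    rw [toDiv_zero]
    unfold S27.bcl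
    simp [S27.dcl_zero]
  | cons P A ih =>
    rw [toDiv_cons, bcl_add, ← ih, Multiset.map_cons, Multiset.sum_cons]
    congr 1
    unfold jm S27.pd S27.bcl
    rw [S27.degree_single_one, one_smul]

omit [IsAlgClosed K] [CharZero K] [S27.IsFF K F] in
/-- an effective divisor not containing `oo` is the divisor of a multiset. -/
theorem exists_toDiv_eq {E : Divisor K F} (hE : 0 ≤ E) (hoo : E C.oo = 0) :
    ∃ A : Multiset C.Aff, C.toDiv A = E := by
  classical
  have hne : ∀ P : E.support, P.1 ≠ C.oo := by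
    rintro ⟨P, hP⟩ rfl
    exact (Finsupp.mem_support_iff.1 hP) hoo
  refine ⟨∑ P ∈ E.support.attach, (E P.1).toNat • ({⟨P.1, hne P⟩} : Multiset C.Aff), ?_⟩
  rw [toDiv_finsetSum]
  have h1 : ∀ P ∈ E.support.attach,
      C.toDiv ((E P.1).toNat • ({⟨P.1, hne P⟩} : Multiset C.Aff)) = Finsupp.single P.1 (E P.1) := by
    intro P _
    rw [toDiv_nsmul, ← Multiset.cons_zero, toDiv_cons, toDiv_zero, add_zero, Finsupp.smul_single]
    congr 1
    have : ((E P.1).toNat : ℤ) = E P.1 := Int.toNat_of_nonneg (hE P.1)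
    rw [nsmul_eq_mul, mul_one, this]
  rw [Finset.sum_congr rfl h1, Finset.sum_attach E.support (fun P => Finsupp.single P (E P))]
  exact Finsupp.sum_single E

/-- (H2) -/
theorem exists_rep (z : Pic0 K F) :
    ∃ A : Multiset C.Aff, A.card ≤ genusFF K F ∧ (A.map C.jm).sum = z := by
  obtain ⟨A, hA⟩ := C.exists_toDiv_eq (C.red_nonneg z) (C.red_oo z)
  refine ⟨A, ?_, ?_⟩
  · have h1 := C.degree_toDiv A
    have h2 := C.degree_red_le z
    rw [hA] at h1
    rw [h1] at h2
    exact_mod_cast h2
  · rw [sum_jm, hA, (C.red_spec z).2]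

theorem exists_fun_of_sum_jm (Z : Multiset C.Aff) (h : (Z.map C.jm).sum = 0) :
    ∃ f ∈ V C.oo Z.card, f ≠ 0 ∧
      ∀ ψ : Place K F → ℝ, zsum C.oo f ψ = (Z.map fun P => ψ P.1).sum := by
  rw [sum_jm] at h
  unfold S27.bcl at h
  rw [S27.dcl_eq_zero_iff (S27.degree_sub_smul _ _), S27.mem_principal_iff] at h
  obtain ⟨f, hf0, hf⟩ := h
  have hord : ∀ P : Place K F, P.ord f =
      C.toDiv Z P - (Z.card : ℤ) * (Finsupp.single C.oo (1 : ℤ) : Divisor K F) P := by
    intro P
    rw [← S27.divOf_apply (K := K), ← hf, degree_toDiv, Finsupp.sub_apply, Finsupp.smul_apply,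
      smul_eq_mul]
  have hordP : ∀ P : Place K F, P ≠ C.oo → C.toDiv Z P = P.ord f := by
    intro P hP
    rw [hord, Finsupp.single_eq_of_ne hP, mul_zero, sub_zero]
  refine ⟨f, ?_, hf0, fun ψ => ?_⟩
  · rw [mem_V_iff]
    refine ⟨fun P hP => ?_, Or.inr ?_⟩
    · rw [mem_place_iff_zp]
      right
      rw [← hordP P hP]
      exact C.toDiv_nonneg Z P
    · rw [hord, toDiv_oo, Finsupp.single_eq_same]
      omega
  · rw [zsum_eq_finsupp_sum (C.toDiv Z) (C.toDiv_oo Z) hordP (C.toDiv_nonneg Z), sum_toDiv]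

end Cv

end Fermat.Agent.S17.El
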