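import Fermat.Agent.S17.El.Glob.Gal
import Fermat.Agent.S17.El.Glob.Rep
import Fermat.Agent.S17.Quad.Main

/-!
# S17/El/Glob: (H5) finiteness   (WP EL-G-H5)

For `a : Pic0` and `B : ℝ` the set of Galois invariant `x` with `sz (x + a) ≤ B` is finite.

Let `a = dcl A₀` (`S27.dcl_surjective`), `R` = the family of places `{oo} ∪ supp A₀` (finite), `m` from `Quad.exists_orbit_bound ρ R` (`finite_orbit_place`).
For `x` invariant put `E = red (-(x + a))`: `E ≥ 0`, `E oo = 0`, `deg E ≤ g`, `l(E) = 1` (`S27.IsRed.finrank_L`), `bcl oo E = -(x+a)`.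
If `σ` fixes all `R j` then `σ a = a` (`Quad.smul_dcl`, `WMW.smul_divisor_eq_of_fixes` or directly `Finsupp`), `σ oo = oo`, so
`σ • dcl (E - deg E·oo) = dcl (E - deg E·oo)` and `σ E = E` by `Quad.smul_eq_self_of_invariant`; hence `supp E` is stable under such `σ`.
So every `P ∈ supp E` has an orbit with `≤ m * |supp E| ≤ m g` elements, and `hX P ≤ E P * hX P ≤ sz (x+a) ≤ B` (all terms are `≥ 0`).
`S_B = {P | orbit ≤ m g, hX P ≤ B}` is finite (`Cv.finite_setOf_hX_le`); finitely many `E ≥ 0` of degree `≤ g` supported in `S_B`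
(`Quad.finite_effective_of_support`, union over the degrees `n ≤ g`); `x = - bcl oo E - a` is determined by `E`.
-/

set_option autoImplicit false

open AlgebraicCurve

namespace Fermat.Agent.S17.El

open AH

/-- the absolute Galois group of `ℚ`. -/
local notation "GQ" => (AlgebraicClosure ℚ ≃ₐ[ℚ] AlgebraicClosure ℚ)

variable {F : Type} [Field F] [Algebra Qb F] [S27.IsFF Qb F]

theorem Cv.sz_nonneg (C : Cv Qb F) (w : Pic0 Qb F) : 0 ≤ C.sz w := by
  unfold Cv.sz
  refine Finset.sum_nonneg fun P _ => mul_nonneg ?_ (absLogHeight_nonneg _)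
  exact_mod_cast C.red_nonneg (-w) P

theorem Cv.hX_le_sz (C : Cv Qb F) (w : Pic0 Qb F) {P : Place Qb F}
    (hP : P ∈ (C.red (-w)).support) : C.hX P ≤ C.sz w := by
  unfold Cv.sz
  have h0 : ∀ Q ∈ (C.red (-w)).support, 0 ≤ ((C.red (-w) Q : ℤ) : ℝ) * C.hX Q := by
    intro Q _
    refine mul_nonneg ?_ (absLogHeight_nonneg _)
    exact_mod_cast C.red_nonneg (-w) Q
  have h1 := Finset.single_le_sum h0 hP
  refine le_trans ?_ h1
  have h2 : (1 : ℤ) ≤ C.red (-w) P := by
    have := C.red_nonneg (-w) P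
    have h3 := Finsupp.mem_support_iff.1 hP
    change (0 : ℤ) ≤ C.red (-w) P at this
    omega
  have h3 : (1 : ℝ) ≤ ((C.red (-w) P : ℤ) : ℝ) := by exact_mod_cast h2
  have h4 : 0 ≤ C.hX P := absLogHeight_nonneg _
  nlinarith

theorem Cv.H5 (C : Cv Qb F) (ρ : GQ →* SemilinearAut Qb F)
    (hρ : ∀ σ, SemilinearAut.baseAut (ρ σ) = σ.toRingEquiv)
    {j : F} (hj : j ∉ Set.range (algebraMap Qb F)) (hjρ : ∀ σ, ρ σ • j = j)
    (a : Pic0 Qb F) (B : ℝ) :
    {x : Pic0 Qb F | x ∈ {x : Pic0 Qb F | ∀ σ, ρ σ • x = x} ∧ C.sz (x + a) ≤ B}.Finite := by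
  classical
  obtain ⟨A₀, hA₀, rfl⟩ := S27.dcl_surjective a
  set g := genusFF Qb F with hg
  -- the family of places to be fixed
  let R : Option A₀.support → Place Qb F := fun o => o.elim C.oo (fun P => P.1)
  obtain ⟨m, hm⟩ := Quad.exists_orbit_bound ρ R (fun o => finite_orbit_place ρ hρ hj hjρ (R o))
  have hSB := C.finite_setOf_hX_le ρ hρ hj hjρ (m * g) B
  set SB := {P : Place Qb F | (Set.range fun σ : GQ => ρ σ • P).ncard ≤ m * g ∧ C.hX P ≤ B}
    with hSBdef
  -- finitely many divisors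
  have hfinE : {E : Divisor Qb F | 0 ≤ E ∧ Divisor.degree E ≤ g ∧ ∀ P ∈ E.support, P ∈ SB}.Finite := by
    have : {E : Divisor Qb F | 0 ≤ E ∧ Divisor.degree E ≤ g ∧ ∀ P ∈ E.support, P ∈ SB} ⊆
        ⋃ n ∈ Finset.range (g + 1),
          {D : Divisor Qb F | 0 ≤ D ∧ Divisor.degree D = n ∧ ∀ P ∈ D.support, P ∈ SB} := by
      rintro E ⟨hE, hdeg, hsupp⟩
      have h0 : 0 ≤ Divisor.degree E := RR.degree_nonneg hE
      rw [Set.mem_iUnion₂]
      refine ⟨(Divisor.degree E).toNat, ?_, hE, ?_, hsupp⟩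
      · rw [Finset.mem_range]; omega
      · rw [Int.toNat_of_nonneg h0]
    refine Set.Finite.subset ?_ this
    exact Set.Finite.biUnion (Finset.finite_toSet _) fun n _ =>
      Quad.finite_effective_of_support hSB n
  -- the map `x ↦ red (-(x + a))` is injective
  refine Set.Finite.of_finite_image (f := fun x => C.red (-(x + S27.dcl A₀)))
    (hfinE.subset ?_) ?_
  · rintro _ ⟨x, ⟨hx, hsz⟩, rfl⟩
    set E := C.red (-(x + S27.dcl A₀)) with hE
    have hspec := C.red_spec (-(x + S27.dcl A₀))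
    have hdegle := C.degree_red_le (-(x + S27.dcl A₀))
    have hE0 : 0 ≤ E := hspec.1.1
    refine ⟨hE0, hdegle, ?_⟩
    -- stability of the support
    have hstab : ∀ σ : GQ, (∀ o, ρ σ • R o = R o) → ρ σ • E = E := by
      intro σ hσ
      have hoo : ρ σ • C.oo = C.oo := hσ none
      have hA : ρ σ • A₀ = A₀ := by
        ext w
        rw [SemilinearAut.divisor_smul_apply]
        by_cases hw : w ∈ A₀.support
        · have h1 : (ρ σ)⁻¹ • w = w := by rw [inv_smul_eq_iff]; exact (hσ (some ⟨w, hw⟩)).symm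
          rw [h1]
        · by_cases hw' : (ρ σ)⁻¹ • w ∈ A₀.support
          · have h1 := hσ (some ⟨_, hw'⟩)
            change ρ σ • ((ρ σ)⁻¹ • w) = (ρ σ)⁻¹ • w at h1
            rw [smul_inv_smul] at h1
            rw [← h1] at hw'
            exact absurd hw' hw
          · rw [Finsupp.notMem_support_iff.mp hw, Finsupp.notMem_support_iff.mp hw']
      have hcl : ρ σ • (-(x + S27.dcl A₀)) = -(x + S27.dcl A₀) := by
        rw [smul_neg, smul_add, hx σ, Quad.smul_dcl, hA]
      have hb : S27.dcl (E - Divisor.degree E • Finsupp.single C.oo 1) = -(x + S27.dcl A₀) :=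
        hspec.2
      refine Quad.smul_eq_self_of_invariant (ρ σ) (E := Divisor.degree E • Finsupp.single C.oo 1)
        hE0 ?_ ?_ ?_ ?_
      · rw [map_zsmul, S27.degree_single_one]; simp
      · exact hspec.1.finrank_L
      · rw [smul_comm, SemilinearAut.smul_single, hoo]
      · rw [hb, hcl]
    have hcard : E.support.card ≤ g := by
      have h0 : 0 ≤ Divisor.degree E := RR.degree_nonneg hE0
      have := Quad.card_support_le_of_nonneg hE0 (n := (Divisor.degree E).toNat)
        (by rw [Int.toNat_of_nonneg h0])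
      have h3 : Divisor.degree E ≤ g := hdegle
      omega
    intro P hP
    refine ⟨?_, (C.hX_le_sz _ hP).trans hsz⟩
    have h1 := hm E.support (fun σ hσ Q hQ => by
      have h2 := hstab σ hσ
      rw [Finsupp.mem_support_iff] at hQ ⊢
      rw [← h2, SemilinearAut.divisor_smul_apply_smul]
      exact hQ) P hP
    exact h1.trans (Nat.mul_le_mul_left m hcard)
  · intro x _ y _ hxy
    have h1 := (C.red_spec (-(x + S27.dcl A₀))).2
    have h2 := (C.red_spec (-(y + S27.dcl A₀))).2
    simp only at hxy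
    rw [hxy, h2] at h1
    have := neg_injective h1
    exact (add_right_cancel this).symm

end Fermat.Agent.S17.El
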