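import Mathlib

/-!
# S17/El/Glob: signed maximal minors of an `r × (r+1)` matrix   (WP EL-G-LA)   Mathlib only.

`sm A j = (-1)^j det (A without column j)`.
* `sum_sm_mul`: `∑_j sm A j * A i j = 0`: Laplace expansion along the first row (`Matrix.det_succ_row_zero`) of the `(r+1) × (r+1)` matrix
  `Fin.cons (A i) A`, which has two equal rows (`Matrix.det_zero_of_row_eq`).
* `sm_ne_zero`: if the solution space `{c | ∀ i, ∑_j c j * A i j = 0}` has dimension `≤ 1` then `sm A ≠ 0`: the rows of `A` are linearly
  independent (rank-nullity); complete them by a row `w` to a basis of `K^(r+1)`; the determinant `∑_j sm A j * w j` is non zero.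
-/

set_option autoImplicit false

namespace Fermat.Agent.S17.El

variable {K : Type*} [Field K]

/-- signed maximal minors. -/
noncomputable def sm {r : ℕ} (A : Fin r → Fin (r + 1) → K) (j : Fin (r + 1)) : K :=
  (-1) ^ (j : ℕ) * Matrix.det (Matrix.of fun (i : Fin r) (j' : Fin r) => A i (j.succAbove j'))

/-- Laplace expansion along an additional first row. -/
theorem det_cons_eq_sum_sm {r : ℕ} (A : Fin r → Fin (r + 1) → K) (w : Fin (r + 1) → K) :
    Matrix.det (Matrix.of (Fin.cons w A : Fin (r + 1) → Fin (r + 1) → K)) = ∑ j, sm A j * w j := by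
  rw [Matrix.det_succ_row_zero]
  refine Finset.sum_congr rfl fun j _ => ?_
  have : (Matrix.of (Fin.cons w A : Fin (r + 1) → Fin (r + 1) → K)).submatrix Fin.succ j.succAbove =
      Matrix.of fun (i : Fin r) (j' : Fin r) => A i (j.succAbove j') := by
    ext i j'
    simp
  rw [this]
  simp only [sm, Matrix.of_apply, Fin.cons_zero]
  ring

theorem sum_sm_mul {r : ℕ} (A : Fin r → Fin (r + 1) → K) (i : Fin r) :
    ∑ j, sm A j * A i j = 0 := by
  rw [← det_cons_eq_sum_sm]
  refine Matrix.det_zero_of_row_eq (i := 0) (j := i.succ) (Fin.succ_ne_zero i).symm ?_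
  ext j
  simp

theorem sm_ne_zero {r : ℕ} (A : Fin r → Fin (r + 1) → K)
    (h : ∀ c c' : Fin (r + 1) → K, (∀ i, ∑ j, c j * A i j = 0) → (∀ i, ∑ j, c' j * A i j = 0) →
      c ≠ 0 → ∃ a : K, c' = a • c) : sm A ≠ 0 := by
  classical
  set M : Matrix (Fin r) (Fin (r + 1)) K := Matrix.of A with hM
  have hmem : ∀ c : Fin (r + 1) → K, c ∈ LinearMap.ker M.mulVecLin → ∀ i, ∑ j, c j * A i j = 0 := by
    intro c hc i
    have := congrFun (LinearMap.mem_ker.1 hc) i
    simp only [Matrix.mulVecLin_apply, Matrix.mulVec, dotProduct, hM, Matrix.of_apply,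
      Pi.zero_apply] at this
    rw [← this]
    exact Finset.sum_congr rfl fun j _ => mul_comm _ _
  have hker : Module.finrank K (LinearMap.ker M.mulVecLin) ≤ 1 := by
    by_cases hex : ∃ c : LinearMap.ker M.mulVecLin, c ≠ 0
    · obtain ⟨c, hc⟩ := hex
      refine finrank_le_one c fun c' => ?_
      obtain ⟨a, ha⟩ := h c.1 c'.1 (hmem _ c.2) (hmem _ c'.2) (fun h0 => hc (Subtype.ext h0))
      exact ⟨a, Subtype.ext ha.symm⟩
    · push Not at hex
      have : Subsingleton (LinearMap.ker M.mulVecLin) := ⟨fun a b => by rw [hex a, hex b]⟩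
      rw [Module.finrank_zero_of_subsingleton]
      exact Nat.zero_le 1
  have hrn := LinearMap.finrank_range_add_finrank_ker M.mulVecLin
  rw [Module.finrank_fintype_fun_eq_card, Fintype.card_fin] at hrn
  have hrank : r ≤ M.rank := by
    unfold Matrix.rank
    omega
  have hrows : LinearIndependent K M.row := by
    rw [linearIndependent_iff_card_le_finrank_span, Fintype.card_fin, Set.finrank,
      ← Matrix.rank_eq_finrank_span_row]
    exact hrank
  have hlt : Submodule.span K (Set.range M.row) ≠ ⊤ := by
    intro htop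
    have h1 : Module.finrank K (Submodule.span K (Set.range M.row)) = r + 1 := by
      rw [htop, finrank_top, Module.finrank_fintype_fun_eq_card, Fintype.card_fin]
    have h2 : Module.finrank K (Submodule.span K (Set.range M.row)) ≤ r := by
      have := finrank_range_le_card (R := K) M.row
      rwa [Fintype.card_fin] at this
    omega
  obtain ⟨w, hw⟩ : ∃ w, w ∉ Submodule.span K (Set.range M.row) := by
    by_contra hcon
    push Not at hcon
    exact hlt (eq_top_iff.2 fun x _ => hcon x)
  have hli : LinearIndependent K (Fin.cons w M.row : Fin (r + 1) → Fin (r + 1) → K) :=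
    linearIndependent_finCons.2 ⟨hrows, hw⟩
  have hunit : IsUnit (Matrix.of (Fin.cons w A : Fin (r + 1) → Fin (r + 1) → K)) :=
    Matrix.linearIndependent_rows_iff_isUnit.1 hli
  have hdet := ((Matrix.isUnit_iff_isUnit_det _).1 hunit).ne_zero
  intro h0
  apply hdet
  rw [det_cons_eq_sum_sm, h0]
  simp

end Fermat.Agent.S17.El
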