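import Fermat.Agent.S17.El.Glob.Rep
import Fermat.Agent.S17.El.Glob.LinAlg
import Fermat.Agent.S17.Quad.RR

/-!
# S17/El/Glob: the geometry of the key inequality   (WP EL-G-KG)

`g` = genus, `r = 2g+1`, `k = 3g+1`, `φ_0..φ_r` a basis of `L(k·oo)` (`dim = k + 1 - g = r + 1`: `RR.ell_eq_of_lt`).
`w ∈ NS`, `P_1..P_r` distinct affine places with `∑ [P_i - oo] = w`.

1. `c ↦ f_c = ∑ c_j φ_j` identifies the solutions of `∑_j c_j φ_j(P_i) = 0 (∀ i)` with `L(k·oo - ∑ P_i)`
   (`S27.val` is additive/`K`-linear on functions regular at `P_i`, and `f(P_i) = 0 ⇔ ord_{P_i} f ≥ 1`; the `P_i` are distinct).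
   `k·oo - ∑ P_i = g·oo - W'` with `W' = ∑ P_i - r·oo`, `dcl W' = w`, so `l = 1` by `w ∈ NS` (`S27.finrank_L_of_linEq`, `S27.dcl_sub_eq_zero_iff`).
   Hence `sminor φ P = sm (φ_j(P_i)) ≠ 0` (`sm_ne_zero`).
2. `f = ∑ sminor_j φ_j ≠ 0` (`hli`), `f(P_i) = 0` (`sum_sm_mul`).  `D° = div f + k·oo - ∑ P_i ≥ 0`, `deg D° = g`, `l(D°) = 1`.
   `D* = D° - D°(oo)·oo`.  `D*` is `oo`-reduced: `L(D* - oo) ⊆ L(D°) = K` and a non zero constant is not in `L(D* - oo)` because `D*(oo) = 0`.
   `bcl oo D* = bcl oo D° = dcl (D° - g·oo) = dcl (div f - W') = - w`.  So `D* = red (-w)` (`Cv.eq_red`).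
3. For `Q` affine `ord_Q f = #{i | P_i = Q} + D*(Q)`; apply `zsum_eq_finsupp_sum` with `E = ∑ P_i + D*`.
-/

set_option autoImplicit false

open AlgebraicCurve

namespace Fermat.Agent.S17.El

variable {K F : Type*} [Field K] [Field F] [Algebra K F] [IsAlgClosed K] [CharZero K]
  [S27.IsFF K F]

theorem exists_basis_V (oo : Place K F) :
    ∃ φ : Fin (2 * genusFF K F + 1 + 1) → F, LinearIndependent K φ ∧
      Submodule.span K (Set.range φ) = V oo (3 * genusFF K F + 1) := by
  have h1 : Module.finrank K (V oo (3 * genusFF K F + 1)) = 2 * genusFF K F + 1 + 1 := by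
    have h := RR.ell_eq_of_lt (K := K) (F := F)
      (D := Finsupp.single oo ((3 * genusFF K F + 1 : ℕ) : ℤ)) (by
        rw [RR.degree_single]; push_cast; omega)
    rw [RR.degree_single] at h
    unfold RR.ell at h
    change ((Module.finrank K (V oo (3 * genusFF K F + 1)) : ℕ) : ℤ) = _ at h
    generalize Module.finrank K (V oo (3 * genusFF K F + 1)) = m at h ⊢
    push_cast at h
    omega
  let b := Module.finBasisOfFinrankEq K (V oo (3 * genusFF K F + 1)) h1
  refine ⟨fun i => (b i : F), ?_, ?_⟩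
  · exact b.linearIndependent.map' (V oo (3 * genusFF K F + 1)).subtype
      (Submodule.ker_subtype _)
  · have h2 : Set.range (fun i => (b i : F))
        = (V oo (3 * genusFF K F + 1)).subtype '' Set.range b := by
      rw [← Set.range_comp]; rfl
    rw [h2, Submodule.span_image, b.span_eq, Submodule.map_top, Submodule.range_subtype]


omit [IsAlgClosed K] [CharZero K] [S27.IsFF K F] in
theorem sminor_eq_sm {r : ℕ} (φ : Fin (r + 1) → F) (P : Fin r → Place K F) :
    sminor φ P = sm (fun i j => S27.val (P i) (φ j)) := rfl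

/-- `S27.val` of a linear combination of functions regular at `Q`. -/
theorem val_sum_smul_kg {ι : Type*} (s : Finset ι) (Q : Place K F) (c : ι → K) (φ : ι → F)
    (hφ : ∀ j ∈ s, Q.adicValuation (φ j) ≤ 1) :
    Q.adicValuation (∑ j ∈ s, c j • φ j) ≤ 1 ∧
      S27.val Q (∑ j ∈ s, c j • φ j) = ∑ j ∈ s, c j * S27.val Q (φ j) := by
  classical
  induction s using Finset.induction_on with
  | empty =>
    simp only [Finset.sum_empty, map_zero, zero_le, true_and]
    have := S27.val_algebraMap Q (0 : K)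
    rwa [map_zero] at this
  | insert a s ha ih =>
    obtain ⟨h1, h2⟩ := ih fun j hj => hφ j (Finset.mem_insert_of_mem hj)
    have hc : Q.adicValuation (algebraMap K F (c a)) ≤ 1 :=
      (S27.adic_le_one_iff_mem Q).2 (Q.algebraMap_mem' (c a))
    have ha1 : Q.adicValuation (φ a) ≤ 1 := hφ a (Finset.mem_insert_self a s)
    have h3 : Q.adicValuation (c a • φ a) ≤ 1 := by
      rw [Algebra.smul_def, map_mul]
      exact mul_le_one' hc ha1
    rw [Finset.sum_insert ha, Finset.sum_insert ha]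
    refine ⟨(Valuation.map_add _ _ _).trans (max_le h3 h1), ?_⟩
    rw [S27.val_add Q h3 h1, h2, Algebra.smul_def, S27.val_mul Q hc ha1, S27.val_algebraMap]

omit [IsAlgClosed K] [CharZero K] [S27.IsFF K F] in
theorem sumDiv_apply_inj_kg {ι : Type*} [Fintype ι] (P : ι → Place K F)
    (hinj : Function.Injective P) (i : ι) : S27.sumDiv P (P i) = 1 := by
  classical
  rw [S27.NS.sumDiv_apply, Finset.sum_eq_single i]
  · exact Finsupp.single_eq_same
  · intro j _ hj
    exact Finsupp.single_eq_of_ne (fun h => hj (hinj h.symm))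
  · intro h
    exact absurd (Finset.mem_univ i) h

theorem mem_L_of_val_eq_zero_kg {oo : Place K F} {k : ℕ} {ι : Type*} [Fintype ι]
    (P : ι → Place K F) (hP : ∀ i, P i ≠ oo) (hinj : Function.Injective P) {f : F}
    (hf : f ∈ V oo k) (h0 : ∀ i, S27.val (P i) f = 0) :
    f ∈ riemannRochSpace (Finsupp.single oo (k : ℤ) - S27.sumDiv P) := by
  classical
  rw [mem_riemannRochSpace_iff]
  intro Q
  rw [mem_V_iff] at hf
  rcases eq_or_ne f 0 with rfl | hf0
  · left; rfl
  right
  rw [Finsupp.sub_apply]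
  by_cases hQ : Q = oo
  · subst hQ
    rw [Finsupp.single_eq_same, S27.NS.sumDiv_apply_of_ne P hP]
    have := hf.2.resolve_left hf0
    omega
  · rw [Finsupp.single_eq_of_ne hQ]
    by_cases hex : ∃ i, P i = Q
    · obtain ⟨i, rfl⟩ := hex
      rw [sumDiv_apply_inj_kg P hinj]
      have h1 : (P i).adicValuation f ≤ 1 := (S27.adic_le_one_iff_mem _).2 (hf.1 _ (hP i))
      have h2 := (S27.val_eq_zero_iff _ h1).1 (h0 i)
      rw [S27.adic_lt_one_iff_ord] at h2
      have := h2.resolve_left hf0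
      omega
    · push Not at hex
      rw [S27.NS.sumDiv_apply_of_ne P hex]
      have := ord_nonneg_of_mem_Reg hf.1 hQ
      omega

omit [IsAlgClosed K] [CharZero K] [S27.IsFF K F] in
theorem sum_sumDiv_kg {ι : Type*} [Fintype ι] (P : ι → Place K F) (ψ : Place K F → ℝ) :
    ((S27.sumDiv P).sum fun Q m => (m : ℝ) * ψ Q) = ∑ i, ψ (P i) := by
  classical
  unfold S27.sumDiv
  rw [← Finsupp.sum_finsetSum_index (by simp) (by intro a b c; push_cast; ring)]
  refine Finset.sum_congr rfl fun i _ => ?_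
  rw [Finsupp.sum_single_index (by simp)]
  simp

theorem Cv.KG_core (C : Cv K F) {r k : ℕ} (hk : k = genusFF K F + r) (φ : Fin (r + 1) → F)
    (hli : LinearIndependent K φ) (hspan : Submodule.span K (Set.range φ) = V C.oo k)
    {w : Pic0 K F} (hw : w ∈ C.NS) (P : Fin r → Place K F)
    (hP : ∀ i, P i ≠ C.oo) (hinj : Function.Injective P)
    (hsum : ∑ i, S27.pd (P i) C.oo = w) :
    sminor φ P ≠ 0 ∧ ∀ ψ : Place K F → ℝ,
      zsum C.oo (∑ j, sminor φ P j • φ j) ψ =
        ∑ i, ψ (P i) + (C.red (-w)).sum fun Q m => (m : ℝ) * ψ Q := by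
  classical
  set S := S27.sumDiv P with hS
  set D₁ : Divisor K F := Finsupp.single C.oo (k : ℤ) - S with hD₁
  have hφV : ∀ j, φ j ∈ V C.oo k := fun j => hspan ▸ Submodule.subset_span ⟨j, rfl⟩
  have hφreg : ∀ i j, (P i).adicValuation (φ j) ≤ 1 := fun i j =>
    (S27.adic_le_one_iff_mem _).2 ((mem_V_iff.1 (hφV j)).1 _ (hP i))
  have hfV : ∀ c : Fin (r + 1) → K, ∑ j, c j • φ j ∈ V C.oo k := fun c =>
    Submodule.sum_mem _ fun j _ => Submodule.smul_mem _ _ (hφV j)
  have hval : ∀ (c : Fin (r + 1) → K) i,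
      S27.val (P i) (∑ j, c j • φ j) = ∑ j, c j * S27.val (P i) (φ j) := fun c i =>
    (val_sum_smul_kg Finset.univ (P i) c φ fun j _ => hφreg i j).2
  have hdegS : Divisor.degree S = (r : ℤ) := by
    rw [hS, S27.degree_sumDiv]; simp
  set W' : Divisor K F := S - (r : ℤ) • Finsupp.single C.oo 1 with hW'
  have hdegW' : Divisor.degree W' = 0 := by
    rw [hW', map_sub, map_zsmul, S27.degree_single_one, hdegS]; simp
  have hclW' : S27.dcl W' = w := by
    rw [← hsum]
    have : W' = S27.sumDiv P - S27.sumDiv (fun _ : Fin r => C.oo) := by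
      rw [hW']
      congr 1
      unfold S27.sumDiv
      simp
    rw [this, S27.dcl_sumDiv_sub]
  have hD₁eq : D₁ = Finsupp.single C.oo (genusFF K F : ℤ) - W' := by
    rw [hD₁, hW', Finsupp.smul_single, smul_eq_mul, mul_one, sub_sub_eq_add_sub,
      ← Finsupp.single_add, hk]
    push_cast
    rfl
  have hell : Module.finrank K (riemannRochSpace D₁) = 1 := by
    obtain ⟨W, hW0, hWw, hW1⟩ := hw
    rw [← hW1, hD₁eq]
    apply S27.finrank_L_of_linEq
    have h1 : S27.LinEq W W' := by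
      rw [← S27.dcl_sub_eq_zero_iff (by rw [hW0, hdegW']), S27.dcl_sub hW0 hdegW', hWw, hclW',
        sub_self]
    unfold S27.LinEq at h1 ⊢
    have : (Finsupp.single C.oo (genusFF K F : ℤ) - W')
        - (Finsupp.single C.oo (genusFF K F : ℤ) - W) = W - W' := by abel
    rw [this]
    exact h1
  have hm : ∀ c : Fin (r + 1) → K, (∀ i, ∑ j, c j * S27.val (P i) (φ j) = 0) →
      ∑ j, c j • φ j ∈ riemannRochSpace D₁ := fun c hc =>
    mem_L_of_val_eq_zero_kg P hP hinj (hfV c) fun i => by rw [hval, hc]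
  have hsm : sminor φ P ≠ 0 := by
    rw [sminor_eq_sm]
    apply sm_ne_zero
    intro c c' hc hc' hc0
    have hne : (⟨_, hm c hc⟩ : riemannRochSpace D₁) ≠ 0 := by
      intro h
      have h' : ∑ j, c j • φ j = 0 := congrArg Subtype.val h
      exact hc0 (funext fun j => (Fintype.linearIndependent_iff.1 hli c h' j))
    obtain ⟨a, ha⟩ := (finrank_eq_one_iff_of_nonzero' _ hne).mp hell ⟨_, hm c' hc'⟩
    refine ⟨a, ?_⟩
    have ha' : a • ∑ j, c j • φ j = ∑ j, c' j • φ j := congrArg Subtype.val ha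
    have h0 : ∑ j, (c' j - a * c j) • φ j = 0 := by
      simp only [sub_smul, mul_smul, Finset.sum_sub_distrib, ← Finset.smul_sum]
      rw [ha', sub_self]
    funext j
    have := Fintype.linearIndependent_iff.1 hli _ h0 j
    simp only [Pi.smul_apply, smul_eq_mul]
    linear_combination this
  refine ⟨hsm, fun ψ => ?_⟩
  set f := ∑ j, sminor φ P j • φ j with hf
  have hf0 : f ≠ 0 := by
    intro h
    exact hsm (funext fun j => Fintype.linearIndependent_iff.1 hli _ h j)
  have hfL : f ∈ riemannRochSpace D₁ :=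
    hm _ fun i => sum_sm_mul (fun i j => S27.val (P i) (φ j)) i
  have hD0 : 0 ≤ RR.divOf K f + D₁ := (RR.mem_riemannRochSpace_iff_divOf hf0).1 hfL
  set D0 := RR.divOf K f + D₁ with hD0def
  have hdegD₁ : Divisor.degree D₁ = (genusFF K F : ℤ) := by
    rw [hD₁, map_sub, RR.degree_single, hdegS, hk]; push_cast; ring
  have hdegD0 : Divisor.degree D0 = (genusFF K F : ℤ) := by
    rw [hD0def, map_add, RR.degree_divOf, zero_add, hdegD₁]
  have hellD0 : Module.finrank K (riemannRochSpace D0) = 1 := by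
    have := RR.ell_add_divOf D₁ hf0
    unfold RR.ell at this
    rw [hD0def, add_comm, this, hell]
  obtain ⟨m, hmdef⟩ : ∃ m, m = D0 C.oo := ⟨_, rfl⟩
  have hm0 : 0 ≤ m := hmdef ▸ hD0 C.oo
  set Ds : Divisor K F := D0 - m • Finsupp.single C.oo 1 with hDs
  have hDsoo : Ds C.oo = 0 := by
    rw [hDs, Finsupp.sub_apply, Finsupp.smul_apply, Finsupp.single_eq_same, ← hmdef]; simp
  have hDsne : ∀ Q, Q ≠ C.oo → Ds Q = D0 Q := by
    intro Q hQ
    rw [hDs, Finsupp.sub_apply, Finsupp.smul_apply, Finsupp.single_eq_of_ne hQ]; simp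
  have hDs0 : 0 ≤ Ds := by
    intro Q
    by_cases hQ : Q = C.oo
    · rw [hQ, hDsoo]; rfl
    · rw [hDsne Q hQ]; exact hD0 Q
  have hred : S27.IsRed C.oo Ds := by
    refine ⟨hDs0, ?_⟩
    have hbot : riemannRochSpace (Ds - Finsupp.single C.oo 1) = ⊥ := by
      rw [eq_bot_iff]
      intro h hh
      rw [Submodule.mem_bot]
      by_contra hne
      have hh' : h ∈ riemannRochSpace D0 := by
        rw [mem_riemannRochSpace_iff] at hh ⊢
        intro Q
        right
        have h1 := (hh Q).resolve_left hne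
        rw [Finsupp.sub_apply] at h1
        by_cases hQ : Q = C.oo
        · rw [hQ] at h1 ⊢
          rw [hDsoo, Finsupp.single_eq_same] at h1
          omega
        · rw [hDsne Q hQ, Finsupp.single_eq_of_ne hQ] at h1
          omega
      obtain ⟨c, hc⟩ := (finrank_eq_one_iff_of_nonzero'
        (⟨1, S27.one_mem_L hD0⟩ : riemannRochSpace D0)
        (fun h => one_ne_zero (congrArg Subtype.val h))).mp hellD0 ⟨h, hh'⟩
      have hch : h = algebraMap K F c := by
        have := congrArg Subtype.val hc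
        simp only [Submodule.coe_smul] at this
        rw [← this, Algebra.smul_def, mul_one]
      have h1 := ((mem_riemannRochSpace_iff.1 hh) C.oo).resolve_left hne
      rw [Finsupp.sub_apply, hDsoo, Finsupp.single_eq_same, hch, S24.Place.ord_algebraMap] at h1
      omega
    rw [hbot, finrank_bot]
  have hbcl : S27.bcl C.oo Ds = -w := by
    unfold S27.bcl
    have hdegDs : Divisor.degree Ds = (genusFF K F : ℤ) - m := by
      rw [hDs, map_sub, map_zsmul, S27.degree_single_one, hdegD0]; simp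
    have h1 : Ds - Divisor.degree Ds • Finsupp.single C.oo 1 = RR.divOf K f - W' := by
      rw [hdegDs, hDs, hD0def, hD₁eq, sub_smul]
      have : (genusFF K F : ℤ) • (Finsupp.single C.oo 1 : Divisor K F)
          = Finsupp.single C.oo (genusFF K F : ℤ) := by
        rw [Finsupp.smul_single, smul_eq_mul, mul_one]
      rw [this]
      abel
    have h2 : S27.dcl (RR.divOf K f) = 0 := by
      rw [S27.dcl_eq_zero_iff (RR.degree_divOf K f), Divisor.mem_principal]
      exact ⟨f, hf0, fun v => RR.divOf_apply K f v⟩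
    rw [h1, S27.dcl_sub (RR.degree_divOf K f) hdegW', hclW', h2, zero_sub]
  have hDsred : Ds = C.red (-w) := C.eq_red hred hbcl
  rw [← hDsred]
  have hSoo : S C.oo = 0 := S27.NS.sumDiv_apply_of_ne P hP
  rw [zsum_eq_finsupp_sum (S + Ds) (by rw [Finsupp.add_apply, hSoo, hDsoo, add_zero]) ?_
    (add_nonneg (S27.NS.sumDiv_nonneg P) hDs0) ψ,
    Finsupp.sum_add_index' (by simp) (by intro a b c; push_cast; ring), hS, sum_sumDiv_kg]
  intro Q hQ
  rw [Finsupp.add_apply, hDsne Q hQ, hD0def, hD₁, Finsupp.add_apply, Finsupp.sub_apply,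
    Finsupp.single_eq_of_ne hQ, RR.divOf_apply]
  ring

theorem Cv.KG (C : Cv K F) (φ : Fin (2 * genusFF K F + 1 + 1) → F) (hli : LinearIndependent K φ)
    (hspan : Submodule.span K (Set.range φ) = V C.oo (3 * genusFF K F + 1))
    {w : Pic0 K F} (hw : w ∈ C.NS) (P : Fin (2 * genusFF K F + 1) → Place K F)
    (hP : ∀ i, P i ≠ C.oo) (hinj : Function.Injective P)
    (hsum : ∑ i, S27.pd (P i) C.oo = w) :
    sminor φ P ≠ 0 ∧ ∀ ψ : Place K F → ℝ,
      zsum C.oo (∑ j, sminor φ P j • φ j) ψ =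
        ∑ i, ψ (P i) + (C.red (-w)).sum fun Q m => (m : ℝ) * ψ Q :=
  C.KG_core (by ring) φ hli hspan hw P hP hinj hsum

end Fermat.Agent.S17.El
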