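import Fermat.Agent.S17.El.Glob.FRam
import Fermat.Agent.S17.El.Sec
import Fermat.Agent.S27.MinRep

/-!
# S17/El/Glob: reduced representatives avoiding a finite set (Bertini for pencils)  (WP EL-G-RED)

Every class `w` is `∑_{i < 2g+1} [P_i - oo]` with DISTINCT places `P_i` outside a given finite set `T`.

Proof.  WLOG `oo ∈ T`.  `W` of degree `0` with `dcl W = w` (`S27.dcl_surjective`), `E = W + (2g+1)·oo`, `d = deg E = 2g+1 ≥ 2g`.
`exists_section E _ T`: `s₀ ∈ L(E)`, `E₀ = div s₀ + E ≥ 0` with support disjoint from `T`.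
`exists_section E _ (T ∪ supp E₀)`: `s₁ ∈ L(E)`, `E₁ = div s₁ + E ≥ 0` with support disjoint from `T ∪ supp E₀`.
`φ = s₁/s₀`, `div φ = E₁ - E₀`: the poles of `φ` are the points of `E₀` (`d ≥ 1`, so `φ` is not constant).
For `c : K`: `s₁ - c s₀ ∈ L(E)`, `E_c = div(s₁ - c s₀) + E = div(φ - c) + E₀ ≥ 0`, of degree `d`, and for `P ∉ supp E₀`,
`E_c P = ord_P(φ - c)`, while `E_c P = 0` for `P ∈ supp E₀` (`ord_P(φ - c) = ord_P φ = - E₀ P`).
Exclude the finitely many `c = φ(P)`, `P ∈ T ∪ {ramification points of φ}` (`finite_ram`; `K` is infinite).  Then `E_c P ≤ 1` for all `P`,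
`E_c P = 0` on `T`; so `E_c = ∑_{i<d} P_i` with distinct `P_i` (`S27.exists_eq_sumDiv`), and
`∑ [P_i - oo] = dcl (E_c - d·oo) = dcl (W + div(..)) = w`  (`S27.dcl_sumDiv_sub`-like, `S27.dcl_sub_eq_zero_iff`).
-/

set_option autoImplicit false

open AlgebraicCurve

namespace Fermat.Agent.S17.El

variable {K F : Type*} [Field K] [Field F] [Algebra K F] [IsAlgClosed K] [CharZero K]
  [S27.IsFF K F]

namespace RedAux

omit [IsAlgClosed K] [CharZero K] [S27.IsFF K F] in
theorem ord_sub_const_of_pole (P : Place K F) {f : F} (h : P.ord f < 0) (c : K) :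
    P.ord (f - algebraMap K F c) = P.ord f := by
  have : P.adicValuation (f - algebraMap K F c) = P.adicValuation f := by
    apply Valuation.map_sub_eq_of_lt_left
    refine lt_of_le_of_lt (P.adicValuation_algebraMap_le_one c) ?_
    rw [← not_le, P.not_adicValuation_le_one_iff]
    exact h
  unfold Place.ord
  rw [this]

theorem ord_sub_const_of_val_ne (P : Place K F) {f : F} (hf : P.adicValuation f ≤ 1) {c : K}
    (h : S27.val P f ≠ c) : P.ord (f - algebraMap K F c) = 0 := by
  have h1 : P.adicValuation (f - algebraMap K F c) ≤ 1 :=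
    (Valuation.map_sub _ _ _).trans (max_le hf (P.adicValuation_algebraMap_le_one c))
  have h2 : S27.val P (f - algebraMap K F c) ≠ 0 := by
    rw [S27.val_sub P hf (P.adicValuation_algebraMap_le_one c), S27.val_algebraMap]
    exact sub_ne_zero.2 h
  rw [Ne, S27.val_eq_zero_iff P h1, not_lt] at h2
  have h3 : P.adicValuation (f - algebraMap K F c) = 1 := le_antisymm h1 h2
  unfold Place.ord
  rw [h3]
  simp

omit [IsAlgClosed K] [CharZero K] [S27.IsFF K F] in
theorem injective_of_sumDiv_le {n : ℕ} (R : Fin n → Place K F)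
    (h : ∀ P, S27.sumDiv R P ≤ 1) : Function.Injective R := by
  classical
  intro i j hij
  by_contra hne
  have h1 := h (R i)
  rw [S27.NS.sumDiv_apply] at h1
  have h2 : (∑ k ∈ ({i, j} : Finset (Fin n)), (Finsupp.single (R k) (1 : ℤ)) (R i))
      ≤ ∑ k, (Finsupp.single (R k) (1 : ℤ)) (R i) := by
    apply Finset.sum_le_sum_of_subset_of_nonneg (Finset.subset_univ _)
    intro k _ _
    exact (Finsupp.single_nonneg.2 zero_le_one :
      (0 : Place K F →₀ ℤ) ≤ Finsupp.single (R k) (1 : ℤ)) (R i)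
  rw [Finset.sum_pair hne, Finsupp.single_eq_same, ← hij, Finsupp.single_eq_same] at h2
  omega

end RedAux

open RedAux

theorem exists_reduced_rep (oo : Place K F) (w : Pic0 K F) (T : Set (Place K F)) (hT : T.Finite) :
    ∃ P : Fin (2 * genusFF K F + 1) → Place K F, Function.Injective P ∧ (∀ i, P i ∉ T) ∧
      ∑ i, S27.pd (P i) oo = w := by
  classical
  set d : ℕ := 2 * genusFF K F + 1 with hd
  obtain ⟨W, hW, rfl⟩ := S27.dcl_surjective w
  set E : Divisor K F := W + Finsupp.single oo (d : ℤ) with hE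
  have hdegE : Divisor.degree E = d := by
    rw [hE, map_add, hW, Divisor.degree_single, S27.deg_eq_one]
    simp
  have hdeg2 : 2 * (genusFF K F : ℤ) ≤ Divisor.degree E := by
    rw [hdegE, hd]
    push_cast
    omega
  obtain ⟨s₀, hs₀, hs₀0, hs₀T⟩ := exists_section E hdeg2 hT.toFinset
  set E₀ : Divisor K F := S27.divOf s₀ + E with hE₀
  have hE₀a : ∀ P, E₀ P = P.ord s₀ + E P := fun P => by
    rw [hE₀, Finsupp.add_apply, S27.divOf_apply]
  have hE₀nn : ∀ P, 0 ≤ E₀ P := fun P => by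
    have := (mem_riemannRochSpace_iff.1 hs₀ P).resolve_left hs₀0
    rw [hE₀a]
    omega
  have hE₀T : ∀ P ∈ T, E₀ P = 0 := fun P hP => by
    rw [hE₀a, hs₀T P (hT.mem_toFinset.2 hP)]
    omega
  obtain ⟨s₁, hs₁, hs₁0, hs₁T⟩ := exists_section E hdeg2 (hT.toFinset ∪ E₀.support)
  set φ : F := s₁ / s₀ with hφ
  have hφ0 : φ ≠ 0 := div_ne_zero hs₁0 hs₀0
  have hordφ : ∀ P : Place K F, P.ord φ = P.ord s₁ - P.ord s₀ := fun P => by
    rw [hφ, div_eq_mul_inv, P.ord_mul hs₁0 (inv_ne_zero hs₀0), P.ord_inv]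
    ring
  have hpole : ∀ P, E₀ P ≠ 0 → P.ord φ = - E₀ P := fun P hP => by
    rw [hordφ, hs₁T P (Finset.mem_union_right _ (Finsupp.mem_support_iff.2 hP)), hE₀a]
    ring
  have hreg : ∀ P, E₀ P = 0 → P.adicValuation φ ≤ 1 := fun P hP => by
    rw [P.adicValuation_le_one_iff]
    right
    have := (mem_riemannRochSpace_iff.1 hs₁ P).resolve_left hs₁0
    rw [hE₀a] at hP
    rw [hordφ]
    omega
  -- `φ` is not constant
  have hdegE₀ : Divisor.degree E₀ = d := by
    rw [hE₀, map_add, S27.degree_divOf hs₀0, zero_add, hdegE]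
  have hnc : φ ∉ Set.range (algebraMap K F) := by
    rintro ⟨c, hc⟩
    have hex : ∃ P, E₀ P ≠ 0 := by
      by_contra hcon
      push Not at hcon
      have : E₀ = 0 := Finsupp.ext hcon
      rw [this, map_zero] at hdegE₀
      have : (d : ℤ) = 0 := hdegE₀.symm
      omega
    obtain ⟨P, hP⟩ := hex
    have h1 := hpole P hP
    have h2 : P.adicValuation φ ≤ 1 := hc ▸ P.adicValuation_algebraMap_le_one c
    rw [P.adicValuation_le_one_iff] at h2
    have h3 := h2.resolve_left hφ0
    have h4 := hE₀nn P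
    omega
  -- choice of `c`
  have hfin : ((fun P : Place K F => S27.val P φ) '' (T ∪ {P : Place K F |
      φ ∈ P.toValuationSubring ∧ 2 ≤ P.ord (φ - algebraMap K F (S27.val P φ))})).Finite :=
    (hT.union (finite_ram φ hnc)).image _
  obtain ⟨c, hc⟩ := hfin.exists_notMem (α := K)
  have hcT : ∀ P ∈ T, S27.val P φ ≠ c := fun P hP h => hc ⟨P, Or.inl hP, h⟩
  have hcR : ∀ P : Place K F, P.adicValuation φ ≤ 1 → S27.val P φ = c →
      P.ord (φ - algebraMap K F c) ≤ 1 := by
    intro P hP h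
    by_contra hcon
    push Not at hcon
    refine hc ⟨P, Or.inr ⟨(S27.adic_le_one_iff_mem P).1 hP, ?_⟩, h⟩
    rw [h]
    omega
  have hφc : φ - algebraMap K F c ≠ 0 := fun h => hnc ⟨c, (sub_eq_zero.1 h).symm⟩
  set sc : F := s₀ * (φ - algebraMap K F c) with hsc
  have hsc0 : sc ≠ 0 := mul_ne_zero hs₀0 hφc
  set Ec : Divisor K F := S27.divOf sc + E with hEc
  have hEca : ∀ P, Ec P = E₀ P + P.ord (φ - algebraMap K F c) := fun P => by
    rw [hEc, Finsupp.add_apply, S27.divOf_apply, hsc, P.ord_mul hs₀0 hφc, hE₀a]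
    ring
  have hEc1 : ∀ P, 0 ≤ Ec P ∧ Ec P ≤ 1 ∧ (P ∈ T → Ec P = 0) := by
    intro P
    by_cases hP : E₀ P = 0
    · have hr := hreg P hP
      by_cases hv : S27.val P φ = c
      · have h1 := hcR P hr hv
        have h2 : P.adicValuation (φ - algebraMap K F c) ≤ 1 :=
          (Valuation.map_sub _ _ _).trans (max_le hr (P.adicValuation_algebraMap_le_one c))
        rw [P.adicValuation_le_one_iff] at h2
        have h3 := h2.resolve_left hφc
        rw [hEca, hP]
        exact ⟨by omega, by omega, fun hPT => absurd hv (hcT P hPT)⟩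
      · rw [hEca, hP, ord_sub_const_of_val_ne P hr hv]
        simp
    · have h1 := hpole P hP
      have h2 := hE₀nn P
      rw [hEca, ord_sub_const_of_pole P (by omega), h1]
      simp
  have hEcdeg : Divisor.degree Ec = d := by
    rw [hEc, map_add, S27.degree_divOf hsc0, zero_add, hdegE]
  obtain ⟨R, hR⟩ := S27.NS.exists_eq_sumDiv d Ec (fun P => (hEc1 P).1) hEcdeg
  refine ⟨R, injective_of_sumDiv_le R (fun P => hR ▸ (hEc1 P).2.1), fun i hi => ?_, ?_⟩
  · have h1 := S27.NS.one_le_sumDiv_apply R i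
    rw [← hR, (hEc1 (R i)).2.2 hi] at h1
    omega
  · rw [← S27.dcl_sumDiv_sub R (fun _ => oo), ← hR]
    have h1 : S27.sumDiv (fun _ : Fin d => oo) = Finsupp.single oo (d : ℤ) := by
      unfold S27.sumDiv
      rw [Finset.sum_const, Finset.card_univ, Fintype.card_fin, Finsupp.smul_single]
      simp
    have h2 : Ec - S27.sumDiv (fun _ : Fin d => oo) = S27.divOf sc + W := by
      rw [h1, hEc, hE]
      abel
    rw [h2, S27.dcl_add (S27.degree_divOf hsc0) hW,
      (S27.dcl_eq_zero_iff (S27.degree_divOf hsc0)).2 (S27.mem_principal_iff.2 ⟨sc, hsc0, rfl⟩),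
      zero_add]

end Fermat.Agent.S17.El
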