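import Fermat.Agent.S17.El.Glob.KG
import Fermat.Agent.S17.El.Glob.GK1
import Fermat.Agent.S17.El.Glob.GV
import Fermat.Agent.S17.El.Glob.GDiff
import Fermat.Agent.S17.El.Glob.Red
import Fermat.Agent.S17.El.Glob.AT1

/-!
# S17/El/Glob: **the key inequality** (H3)   (WP EL-G-KI)

`KIcore`.  `g` = genus, `r = 2g+1`, `k = 3g+1`, `k + 1 - r = g + 1`; `φ` from `exists_basis_V C.oo` (`φ j ∈ V oo k ⊆ Reg oo`: `mem_V_iff`).
`M = sminor φ P ≠ 0`, `f = ∑ M_j φ_j ≠ 0` (`hli`).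
* `KG` with `ψ = hX`:  `zsum f hX = ∑ hX(P_i) + sz w`;
* `gK1 φ`:   `zsum f hX ≤ n h(M) + c₁`;
* `gV k r φ`:  `n h(M) ≤ (g+1) ∑ hX(P_i) + ∑_{i<i'} G(P_i,P_i') + c₂`;
  so  `sz w ≤ g ∑ hX(P_i) + ∑_{i<i'} G(P_i,P_i') + c₁ + c₂`;
* `gDiff`:  `tau(P_i) ≥ 2g hX(P_i) - ∑_Q ram Q G(Q,P_i) - c₃`;
* `∑_{i,i'} Gh(P_i,P_i') = 2 ∑_{i<i'} G(P_i,P_i') + ∑_i tau(P_i)` (`G_comm`, `Gh_self`, `Gh_of_ne`, injectivity).
Hence `2 sz w ≤ ∑_{i,i'} Gh(P_i,P_i') + ∑_i ∑_Q ram Q G(Q,P_i) + 2(c₁+c₂) + r c₃`: the terms `2g ∑ hX(P_i)` cancel (adjunction formula!).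

`KI`: `exists_reduced_rep C.oo w ({oo} ∪ RamSet)` gives the `P_i`; `D = (Finset.univ.val.map fun i => ⟨P i, _⟩)`.
`GG GhA D D = ∑_{i,i'} Gh(P_i,P_i')`, `GG GhA Df D = ∑_Q ∑_i ram Q * Gh(Q,P_i)` and `Gh(Q,P_i) = G(Q,P_i)` because `P_i ∉ RamSet ∋ Q`.
-/

set_option autoImplicit false

open AlgebraicCurve

namespace Fermat.Agent.S17.El

open AH

/-- a symmetric double sum: diagonal + twice the upper triangle. -/
theorem sum_sum_eq_diag_add_two_mul {r : ℕ} (a : Fin r → Fin r → ℝ) (hs : ∀ i i', a i i' = a i' i) :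
    ∑ i, ∑ i', a i i' =
      ∑ i, a i i + 2 * ∑ i, ∑ i' ∈ Finset.univ.filter (fun i' => i < i'), a i i' := by
  classical
  have h1 : ∀ i : Fin r, ∑ i', a i i' = a i i +
      ∑ i' ∈ Finset.univ.filter (fun i' => i < i'), a i i' +
      ∑ i' ∈ Finset.univ.filter (fun i' => i' < i), a i i' := by
    intro i
    have e1 : ∑ i', a i i' = ∑ i' ∈ Finset.univ.filter (fun i' => i < i'), a i i' +
        ∑ i' ∈ Finset.univ.filter (fun i' => ¬ i < i'), a i i' :=
      (Finset.sum_filter_add_sum_filter_not _ _ _).symm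
    have e2 : ∑ i' ∈ Finset.univ.filter (fun i' => ¬ i < i'), a i i' =
        ∑ i' ∈ (Finset.univ.filter (fun i' => ¬ i < i')).filter (fun i' => i' < i), a i i' +
        ∑ i' ∈ (Finset.univ.filter (fun i' => ¬ i < i')).filter (fun i' => ¬ i' < i), a i i' :=
      (Finset.sum_filter_add_sum_filter_not _ _ _).symm
    have e3 : (Finset.univ.filter (fun i' => ¬ i < i')).filter (fun i' => i' < i) =
        Finset.univ.filter (fun i' => i' < i) := by
      ext i'
      simp only [Finset.mem_filter, Finset.mem_univ, true_and]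
      exact ⟨fun h => h.2, fun h => ⟨not_lt.2 h.le, h⟩⟩
    have e4 : (Finset.univ.filter (fun i' => ¬ i < i')).filter (fun i' => ¬ i' < i) = {i} := by
      ext i'
      simp only [Finset.mem_filter, Finset.mem_univ, true_and, Finset.mem_singleton]
      exact ⟨fun h => le_antisymm (not_lt.1 h.1) (not_lt.1 h.2), fun h => by subst h; simp⟩
    rw [e1, e2, e3, e4, Finset.sum_singleton]
    ring
  have h2 : ∑ i, ∑ i' ∈ Finset.univ.filter (fun i' => i' < i), a i i' =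
      ∑ i, ∑ i' ∈ Finset.univ.filter (fun i' => i < i'), a i i' := by
    simp only [Finset.sum_filter]
    rw [Finset.sum_comm]
    refine Finset.sum_congr rfl fun i _ => Finset.sum_congr rfl fun i' _ => ?_
    rw [hs]
  rw [Finset.sum_congr rfl fun i _ => h1 i, Finset.sum_add_distrib, Finset.sum_add_distrib, h2]
  ring

variable {F : Type*} [Field F] [Algebra Qb F] [S27.IsFF Qb F]

theorem Cv.KIcore (C : Cv Qb F) :
    ∃ c : ℝ, ∀ w ∈ C.NS, ∀ P : Fin (2 * genusFF Qb F + 1) → Place Qb F, (∀ i, P i ≠ C.oo) →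
      (∀ i, P i ∉ C.RamSet) → Function.Injective P → ∑ i, S27.pd (P i) C.oo = w →
        2 * C.sz w ≤ ∑ i, ∑ i', C.Gh (P i) (P i') +
          ∑ i, ∑ Q ∈ C.finite_ramSet.toFinset, (C.ram Q : ℝ) * C.G Q (P i) + c := by
  classical
  set g := genusFF Qb F with hg
  obtain ⟨φ, hli, hspan⟩ := exists_basis_V C.oo
  have hφV : ∀ j, φ j ∈ V C.oo (3 * g + 1) := fun j => by
    rw [← hspan]; exact Submodule.subset_span ⟨j, rfl⟩
  have hφR : ∀ j, φ j ∈ Reg C.oo := fun j => (mem_V_iff.1 (hφV j)).1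
  obtain ⟨c₁, hc₁⟩ := C.gK1 φ hφR
  obtain ⟨c₂, hc₂⟩ := C.gV (3 * g + 1) (2 * g + 1) φ hφV
  obtain ⟨c₃, hc₃⟩ := C.gDiff
  refine ⟨2 * (c₁ + c₂) + (2 * g + 1 : ℕ) * c₃, fun w hw P hP hPr hinj hsum => ?_⟩
  obtain ⟨hM, hz⟩ := C.KG φ hli hspan hw P hP hinj hsum
  have hf0 : (∑ j, sminor φ P j • φ j) ≠ 0 := by
    intro h0
    apply hM
    funext j
    exact (Fintype.linearIndependent_iff.1 hli) _ h0 j
  have e1 := hc₁ (sminor φ P) hf0
  rw [hz C.hX] at e1
  have e2 := hc₂ P hP hinj hM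
  have hk : ((3 * g + 1 + 1 - (2 * g + 1) : ℕ) : ℝ) = (g : ℝ) + 1 := by
    have : 3 * g + 1 + 1 - (2 * g + 1) = g + 1 := by omega
    rw [this]; push_cast; ring
  rw [hk] at e2
  have hsz : (C.red (-w)).sum (fun Q m => (m : ℝ) * C.hX Q) = C.sz w := rfl
  rw [hsz] at e1
  -- the diagonal
  have e3 : ∀ i, 2 * (g : ℝ) * C.hX (P i) -
      ∑ Q ∈ C.finite_ramSet.toFinset, (C.ram Q : ℝ) * C.G Q (P i) - c₃ ≤ C.tau (P i) :=
    fun i => hc₃ (P i) (hP i) (hPr i)
  have e4 := Finset.sum_le_sum fun i (_ : i ∈ Finset.univ) => e3 i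
  rw [Finset.sum_sub_distrib, Finset.sum_sub_distrib, Finset.sum_const, Finset.card_univ,
    Fintype.card_fin, nsmul_eq_mul, ← Finset.mul_sum] at e4
  have e5 := sum_sum_eq_diag_add_two_mul (fun i i' => C.Gh (P i) (P i'))
    (fun i i' => C.Gh_comm _ _)
  have e6 : ∑ i, ∑ i' ∈ Finset.univ.filter (fun i' => i < i'), C.Gh (P i) (P i') =
      ∑ i, ∑ i' ∈ Finset.univ.filter (fun i' => i < i'), C.G (P i) (P i') := by
    refine Finset.sum_congr rfl fun i _ => Finset.sum_congr rfl fun i' hi' => ?_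
    rw [Finset.mem_filter] at hi'
    exact C.Gh_of_ne fun h => (ne_of_lt hi'.2) (hinj h)
  have e7 : ∑ i, C.Gh (P i) (P i) = ∑ i, C.tau (P i) :=
    Finset.sum_congr rfl fun i _ => C.Gh_self _
  rw [e5, e6, e7]
  linarith

/-- (H3) -/
theorem Cv.KI (C : Cv Qb F) :
    ∃ c : ℝ, ∀ w ∈ C.NS, ∃ D : Multiset C.Aff, D.card ≤ 2 * genusFF Qb F + 1 ∧
      (D.map C.jm).sum = w ∧ 2 * C.sz w ≤ GG C.GhA D D + GG C.GhA C.Df D + c := by
  classical
  obtain ⟨c, hc⟩ := C.KIcore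
  refine ⟨c, fun w hw => ?_⟩
  obtain ⟨P, hinj, hPT, hsum⟩ := exists_reduced_rep C.oo w ({C.oo} ∪ C.RamSet)
    ((Set.finite_singleton _).union C.finite_ramSet)
  have hP : ∀ i, P i ≠ C.oo := fun i h => hPT i (Or.inl h)
  have hPr : ∀ i, P i ∉ C.RamSet := fun i h => hPT i (Or.inr h)
  refine ⟨Finset.univ.val.map fun i => (⟨P i, hP i⟩ : C.Aff), ?_, ?_, ?_⟩
  · simp
  · rw [Multiset.map_map]
    exact hsum
  · have h := hc w hw P hP hPr hinj hsum
    have e1 : GG C.GhA (Finset.univ.val.map fun i => (⟨P i, hP i⟩ : C.Aff))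
        (Finset.univ.val.map fun i => (⟨P i, hP i⟩ : C.Aff)) =
        ∑ i, ∑ i', C.Gh (P i) (P i') := by
      unfold GG
      simp only [Multiset.map_map, Function.comp_def]
      rfl
    have e2 : GG C.GhA C.Df (Finset.univ.val.map fun i => (⟨P i, hP i⟩ : C.Aff)) =
        ∑ i, ∑ Q ∈ C.finite_ramSet.toFinset, (C.ram Q : ℝ) * C.G Q (P i) := by
      have key : ∀ (s : Finset {x // x ∈ C.finite_ramSet.toFinset}) (E : Multiset C.Aff),
          GG C.GhA (∑ Q ∈ s, C.ram Q.1 •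
            ({(⟨Q.1, ((C.finite_ramSet.mem_toFinset).1 Q.2).1⟩ : C.Aff)} : Multiset C.Aff)) E =
          ∑ Q ∈ s, (C.ram Q.1 : ℝ) * (E.map fun R => C.Gh Q.1 R.1).sum := by
        intro s E
        induction s using Finset.induction_on with
        | empty => simp [GG]
        | insert a s ha ih =>
          rw [Finset.sum_insert ha, Finset.sum_insert ha, GG_add_left, ih]
          congr 1
          have : ∀ n : ℕ, GG C.GhA (n •
              ({(⟨a.1, ((C.finite_ramSet.mem_toFinset).1 a.2).1⟩ : C.Aff)} : Multiset C.Aff)) E =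
              (n : ℝ) * (E.map fun R => C.Gh a.1 R.1).sum := by
            intro n
            induction n with
            | zero => simp [GG]
            | succ n ihn =>
              rw [succ_nsmul, GG_add_left, ihn]
              have : GG C.GhA
                  ({(⟨a.1, ((C.finite_ramSet.mem_toFinset).1 a.2).1⟩ : C.Aff)} : Multiset C.Aff) E =
                  (E.map fun R => C.Gh a.1 R.1).sum := by
                simp [GG, Cv.GhA]
              rw [this]
              push_cast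
              ring
          exact this _
      unfold Cv.Df
      rw [key, Finset.sum_attach C.finite_ramSet.toFinset
        (fun Q => (C.ram Q : ℝ) * ((Finset.univ.val.map fun i => (⟨P i, hP i⟩ : C.Aff)).map
          fun R => C.Gh Q R.1).sum)]
      simp only [Multiset.map_map, Function.comp_def]
      rw [Finset.sum_comm]
      refine Finset.sum_congr rfl fun Q hQ => ?_
      have : (Multiset.map (fun i => C.Gh Q (P i)) Finset.univ.val).sum = ∑ i, C.Gh Q (P i) := rfl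
      rw [this, Finset.mul_sum]
      refine Finset.sum_congr rfl fun i _ => ?_
      rw [C.Gh_of_ne]
      rintro rfl
      exact hPr i ((C.finite_ramSet.mem_toFinset).1 hQ)
    rw [e1, e2]
    exact h

end Fermat.Agent.S17.El
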