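import Fermat.Agent.S17.El.Glob.LGc
import Fermat.Agent.S17.El.L
import Fermat.Agent.S17.El.K2

/-!
# S17/El/Glob: (LE) `G` is compatible with linear equivalence, off the diagonal   (WP EL-G-LE)

For `f ∈ L(m·oo)`, `f(R) ≠ 0`:  `|∑_{P ∈ Z(f)} G(P,R)| ≤ c_m`.

`φ v = v(lc f)^n * zprod oo f (dn v · R)` is `LG` with sum `zsum oo f (G · R)` (`LG.abv`, `Cv.lc_ne_zero`, `LG_zprod`,
`LG_dn`: a zero `P` of `f` is `≠ R`), `ψ v = v(f(R))^n` is `LG` with sum `0`.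
`Cv.L m`: `φ ≤ γ ψ`; `Cv.K2 m`: `ψ ≤ γ' φ`.  Conclude with `LG.le`: `c = max γ.ht γ'.ht`.
-/

set_option autoImplicit false

open AlgebraicCurve

namespace Fermat.Agent.S17.El

open AH

variable {F : Type*} [Field F] [Algebra Qb F] [S27.IsFF Qb F]

theorem Cv.LE (C : Cv Qb F) (m : ℕ) :
    ∃ c : ℝ, ∀ f : F, f ∈ V C.oo m → f ≠ 0 → ∀ R : Place Qb F, R ≠ C.oo → S27.val R f ≠ 0 →
      |zsum C.oo f (fun P => C.G P R)| ≤ c := by
  obtain ⟨γ, hγ⟩ := C.L m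
  obtain ⟨γ', hγ'⟩ := C.K2 m
  refine ⟨max γ.ht γ'.ht, fun f hf hf0 R hR hfR => ?_⟩
  have hfReg : f ∈ Reg C.oo := (mem_V_iff.1 hf).1
  have hφ : LG (fun v => v (C.lc f) ^ C.n * zprod C.oo f (fun P => C.dn v P R))
      (zsum C.oo f (fun P => C.G P R)) := by
    have h1 := (LG.abv (C.lc_ne_zero hfReg hf0)).pow C.n
    have h2 : LG (fun v => zprod C.oo f (fun P => C.dn v P R))
        (zsum C.oo f (fun P => C.G P R)) :=
      LG_zprod (fun P hP hpos => C.LG_dn hP hR (by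
        rintro rfl
        exact hfR ((LAux.val_eq_zero_iff_ord hfReg hf0 hR).2 hpos)))
    exact (h1.mul h2).congr (fun _ => rfl) (by simp)
  have hψ : LG (fun v => v (S27.val R f) ^ C.n) 0 :=
    ((LG.abv hfR).pow C.n).congr (fun _ => rfl) (by simp)
  have a1 := LG.le γ hφ hψ (fun v => hγ v f hf hf0 R hR)
  have a2 := LG.le γ' hψ hφ (fun v => hγ' v f hf R hR hfR)
  rw [abs_le]
  constructor
  · have := le_max_right γ.ht γ'.ht
    linarith
  · have := le_max_left γ.ht γ'.ht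
    linarith

end Fermat.Agent.S17.El
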