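import Fermat.Agent.S17.El.Glob.GP

/-!
# S17/El/Glob: the calculus of "local families with a global sum"   (WP EL-G-LG)

`LG φ h` : the family of positive reals `φ v` (`v` running through all absolute values of `ℚ̄`) is a
quotient `|A|_v / |B|_v` of sup norms of non zero tuples, and `h = h(A) - h(B)`.  (Morally
`h = ∑_v log φ v`.)  The class is stable under products/quotients/powers (Segre:
`AH.absLogHeight_tmul`, `nrm_tmul`), contains `v ↦ v c` with `h = 0` (product formula:
`AH.absLogHeight_of_subsingleton`), and `LG.le` (= `GP1` for `A ⊗ B'` and `A' ⊗ B`) turns an inequality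
`φ v ≤ γ_v ψ v` for all `v` into `h ≤ k + ht γ`.   Everything except `LG.le` is formal.
-/

set_option autoImplicit false

namespace Fermat.Agent.S17.El

open AH

theorem nrm_tmul {K : Type*} [Field K] {ι κ : Type*} [Finite ι] [Finite κ]
    (v : AbsoluteValue K ℝ) (A : ι → K) (B : κ → K) :
    nrm v (fun p : ι × κ => A p.1 * B p.2) = nrm v A * nrm v B := by
  apply le_antisymm
  · refine nrm_le v (mul_nonneg (nrm_nonneg v A) (nrm_nonneg v B)) fun p => ?_
    rw [map_mul]
    exact mul_le_mul (le_nrm v A p.1) (le_nrm v B p.2) (v.nonneg _) (nrm_nonneg v A)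
  · rcases isEmpty_or_nonempty ι with h | h
    · have : nrm v A = 0 := Real.iSup_of_isEmpty _
      rw [this, zero_mul]
      exact nrm_nonneg v _
    rcases isEmpty_or_nonempty κ with h' | h'
    · have : nrm v B = 0 := Real.iSup_of_isEmpty _
      rw [this, mul_zero]
      exact nrm_nonneg v _
    obtain ⟨i, hi⟩ := exists_eq_nrm v A
    obtain ⟨j, hj⟩ := exists_eq_nrm v B
    rw [hi, hj, ← map_mul]
    exact le_nrm v (fun p : ι × κ => A p.1 * B p.2) (i, j)

theorem nrm_comp_equiv' {K : Type*} [Field K] {ι κ : Type*} (v : AbsoluteValue K ℝ) (e : ι ≃ κ)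
    (A : κ → K) : nrm v (A ∘ e) = nrm v A :=
  e.iSup_comp (g := fun i => v (A i))

/-- `φ` is a local family with global sum `h`. -/
def LG (φ : AbsoluteValue Qb ℝ → ℝ) (h : ℝ) : Prop :=
  ∃ (m k : ℕ) (A : Fin m → Qb) (B : Fin k → Qb), A ≠ 0 ∧ B ≠ 0 ∧
    (∀ v, φ v = nrm v A / nrm v B) ∧ h = absLogHeight A - absLogHeight B

namespace LG

variable {φ ψ : AbsoluteValue Qb ℝ → ℝ} {h k : ℝ}

theorem comp_equiv_ne_zero {α β : Type*} (e : α ≃ β) {X : β → Qb} (hX : X ≠ 0) : X ∘ e ≠ 0 := by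
  intro h0
  apply hX
  funext b
  have := congrFun h0 (e.symm b)
  simpa using this

/-- constructor with arbitrary finite index types. -/
theorem mk' {ι κ : Type*} [Finite ι] [Finite κ] {A : ι → Qb} {B : κ → Qb} (hA : A ≠ 0)
    (hB : B ≠ 0) (hφ : ∀ v, φ v = nrm v A / nrm v B)
    (hh : h = absLogHeight A - absLogHeight B) : LG φ h := by
  refine ⟨Nat.card ι, Nat.card κ, A ∘ (Finite.equivFin ι).symm, B ∘ (Finite.equivFin κ).symm,
    comp_equiv_ne_zero _ hA, comp_equiv_ne_zero _ hB, fun v => ?_, ?_⟩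
  · rw [nrm_comp_equiv', nrm_comp_equiv', hφ]
  · rw [absLogHeight_comp_equiv, absLogHeight_comp_equiv, hh]

theorem pos (H : LG φ h) (v : AbsoluteValue Qb ℝ) : 0 < φ v := by
  obtain ⟨m, k, A, B, hA, hB, hφ, -⟩ := H
  rw [hφ]
  exact div_pos (nrm_pos v hA) (nrm_pos v hB)

theorem congr (H : LG φ h) (hφ : ∀ v, ψ v = φ v) (hk : k = h) : LG ψ k := by
  obtain ⟨m, k', A, B, hA, hB, hφ', hh⟩ := H
  exact ⟨m, k', A, B, hA, hB, fun v => by rw [hφ, hφ'], by rw [hk, hh]⟩

theorem nrm_const_one (v : AbsoluteValue Qb ℝ) (c : Qb) : nrm v (fun _ : Fin 1 => c) = v c := by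
  unfold nrm
  exact ciSup_const

theorem const_ne_zero {c : Qb} (hc : c ≠ 0) : (fun _ : Fin 1 => c) ≠ 0 := fun h =>
  hc (congrFun h 0)

theorem of_nrm {ι : Type*} [Finite ι] {A : ι → Qb} (hA : A ≠ 0) :
    LG (fun v => nrm v A) (absLogHeight A) :=
  mk' hA (const_ne_zero one_ne_zero) (fun v => by rw [nrm_const_one, map_one, div_one])
    (by rw [absLogHeight_of_subsingleton (fun _ : Fin 1 => (1 : Qb)), sub_zero])

/-- product formula. -/
theorem abv {c : Qb} (hc : c ≠ 0) : LG (fun v => v c) 0 :=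
  (of_nrm (const_ne_zero hc)).congr (fun v => (nrm_const_one v c).symm)
    (absLogHeight_of_subsingleton _).symm

theorem one : LG (fun _ => 1) 0 :=
  (abv one_ne_zero).congr (fun v => (map_one v).symm) rfl

theorem max_one (z : Qb) : LG (fun v => max 1 (v z)) (absLogHeight ![1, z]) := by
  have h0 : (![1, z] : Fin 2 → Qb) ≠ 0 := fun h => one_ne_zero (congrFun h 0)
  refine (of_nrm h0).congr (fun v => ?_) rfl
  apply le_antisymm
  · refine max_le ?_ ?_
    · have := le_nrm v ![1, z] 0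
      simpa using this
    · have := le_nrm v ![1, z] 1
      simpa using this
  · refine nrm_le v (le_max_of_le_left zero_le_one) fun i => ?_
    fin_cases i
    · simp
    · simp

theorem mul (H : LG φ h) (H' : LG ψ k) : LG (fun v => φ v * ψ v) (h + k) := by
  obtain ⟨m, n, A, B, hA, hB, hφ, hh⟩ := H
  obtain ⟨m', n', A', B', hA', hB', hψ, hk⟩ := H'
  have ne : ∀ {a b : ℕ} {X : Fin a → Qb} {Y : Fin b → Qb}, X ≠ 0 → Y ≠ 0 →
      (fun p : Fin a × Fin b => X p.1 * Y p.2) ≠ 0 := by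
    intro a b X Y hX hY h0
    obtain ⟨i, hi⟩ := Function.ne_iff.1 hX
    obtain ⟨j, hj⟩ := Function.ne_iff.1 hY
    exact mul_ne_zero hi hj (congrFun h0 (i, j))
  refine mk' (ne hA hA') (ne hB hB') (fun v => ?_) ?_
  · rw [nrm_tmul, nrm_tmul, hφ, hψ, div_mul_div_comm]
  · rw [absLogHeight_tmul hA hA', absLogHeight_tmul hB hB', hh, hk]
    ring

theorem inv (H : LG φ h) : LG (fun v => (φ v)⁻¹) (-h) := by
  obtain ⟨m, n, A, B, hA, hB, hφ, hh⟩ := H
  exact ⟨n, m, B, A, hB, hA, fun v => by simp only [hφ, inv_div], by rw [hh]; ring⟩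

theorem div (H : LG φ h) (H' : LG ψ k) : LG (fun v => φ v / ψ v) (h - k) :=
  (H.mul H'.inv).congr (fun _ => div_eq_mul_inv _ _) (sub_eq_add_neg _ _)

theorem pow (H : LG φ h) (n : ℕ) : LG (fun v => φ v ^ n) (n * h) := by
  induction n with
  | zero => exact one.congr (fun v => pow_zero _) (by simp)
  | succ n ih => exact (ih.mul H).congr (fun v => pow_succ _ _) (by push_cast; ring)

theorem prod {α : Type*} (s : Finset α) {Φ : α → AbsoluteValue Qb ℝ → ℝ} {H : α → ℝ}
    (hΦ : ∀ a ∈ s, LG (Φ a) (H a)) : LG (fun v => ∏ a ∈ s, Φ a v) (∑ a ∈ s, H a) := by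
  classical
  induction s using Finset.induction_on with
  | empty => exact one.congr (fun v => Finset.prod_empty) Finset.sum_empty
  | insert a s ha ih =>
    exact ((hΦ a (Finset.mem_insert_self a s)).mul
      (ih fun b hb => hΦ b (Finset.mem_insert_of_mem hb))).congr
      (fun v => Finset.prod_insert ha) (Finset.sum_insert ha)

/-- **the local-global principle.** -/
theorem le (γ : MC Qb) (H : LG φ h) (H' : LG ψ k) (hle : ∀ v, φ v ≤ γ.val v * ψ v) :
    h ≤ k + γ.ht := by
  obtain ⟨m, n, A, B, hA, hB, hφ, hh⟩ := H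
  obtain ⟨m', n', A', B', hA', hB', hψ, hk⟩ := H'
  have ne : ∀ {a b : ℕ} {X : Fin a → Qb} {Y : Fin b → Qb}, X ≠ 0 → Y ≠ 0 →
      (fun p : Fin a × Fin b => X p.1 * Y p.2) ≠ 0 := by
    intro a b X Y hX hY h0
    obtain ⟨i, hi⟩ := Function.ne_iff.1 hX
    obtain ⟨j, hj⟩ := Function.ne_iff.1 hY
    exact mul_ne_zero hi hj (congrFun h0 (i, j))
  have key := GP1 γ (ne hA hB') (ne hA' hB) (fun v => by
    rw [nrm_tmul, nrm_tmul]
    have h1 := hle v
    rw [hφ, hψ] at h1
    have hBp := nrm_pos v hB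
    have hBp' := nrm_pos v hB'
    rw [div_le_iff₀ hBp] at h1
    calc nrm v A * nrm v B' ≤ (γ.val v * (nrm v A' / nrm v B') * nrm v B) * nrm v B' :=
          mul_le_mul_of_nonneg_right h1 hBp'.le
      _ = γ.val v * (nrm v A' * nrm v B) := by
          field_simp)
  rw [absLogHeight_tmul hA hB', absLogHeight_tmul hA' hB] at key
  rw [hh, hk]
  linarith

theorem le_of_le (H : LG φ h) (H' : LG ψ k) (hle : ∀ v, φ v ≤ ψ v) : h ≤ k := by
  have := le MC.triv H H' (fun v => by rw [MC.val_triv, one_mul]; exact hle v)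
  rwa [MC.ht_triv, add_zero] at this

/-- the global sum is determined by the family. -/
theorem unique (H : LG φ h) (H' : LG φ k) : h = k :=
  le_antisymm (le_of_le H H' fun _ => le_rfl) (le_of_le H' H fun _ => le_rfl)

end LG

end Fermat.Agent.S17.El
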