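import Fermat.Agent.S17.El.Glob.Defs

/-!
# S17/El/Glob: API of `zsum`, `zsumE` (additive versions of `zprod`, `zprodE`)   (WP EL-G-ZS)

Same proofs as for `zprod` in `S17/El/ZP.lean` (`zprod_mul`, `zprod_eq_mul_zprodE`, `zprod_eq_prod`, …):
`zsum oo f φ = toAdd (zprod oo f (ofAdd ∘ φ))` in `Multiplicative ℝ`.
-/

set_option autoImplicit false

open AlgebraicCurve

namespace Fermat.Agent.S17.El

variable {K F : Type*} [Field K] [Field F] [Algebra K F] [IsAlgClosed K] [CharZero K]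
  [S27.IsFF K F]

theorem zsum_eq_toAdd_zprod (oo : Place K F) (f : F) (φ : Place K F → ℝ) :
    zsum oo f φ = Multiplicative.toAdd (zprod oo f (fun P => Multiplicative.ofAdd (φ P))) := by
  unfold zsum zprod
  rw [toAdd_prod]
  refine Finset.sum_congr rfl fun P _ => ?_
  rw [toAdd_pow, toAdd_ofAdd, nsmul_eq_mul]

theorem zsumE_eq_toAdd_zprodE (oo : Place K F) (f : F) (P : Place K F) (φ : Place K F → ℝ) :
    zsumE oo f P φ =
      Multiplicative.toAdd (zprodE oo f P (fun P => Multiplicative.ofAdd (φ P))) := by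
  unfold zsumE zprodE
  rw [toAdd_prod]
  refine Finset.sum_congr rfl fun P _ => ?_
  rw [toAdd_pow, toAdd_ofAdd, nsmul_eq_mul]

theorem zsum_mul {oo : Place K F} {f g : F} (hf : f ∈ Reg oo) (hg : g ∈ Reg oo) (hf0 : f ≠ 0)
    (hg0 : g ≠ 0) (φ : Place K F → ℝ) : zsum oo (f * g) φ = zsum oo f φ + zsum oo g φ := by
  rw [zsum_eq_toAdd_zprod, zsum_eq_toAdd_zprod, zsum_eq_toAdd_zprod, zprod_mul hf hg hf0 hg0,
    toAdd_mul]

theorem zsum_pow {oo : Place K F} {f : F} (hf : f ∈ Reg oo) (hf0 : f ≠ 0) (k : ℕ)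
    (φ : Place K F → ℝ) : zsum oo (f ^ k) φ = k * zsum oo f φ := by
  induction k with
  | zero =>
    have h := zprod_const oo (1 : K) (fun P => Multiplicative.ofAdd (φ P))
    rw [map_one] at h
    rw [pow_zero, zsum_eq_toAdd_zprod, h]
    simp
  | succ k ih =>
    rw [pow_succ, zsum_mul (pow_mem hf k) hf (pow_ne_zero k hf0) hf0, ih]
    push_cast
    ring

theorem zsum_smul (oo : Place K F) {c : K} (hc : c ≠ 0) (f : F) (φ : Place K F → ℝ) :
    zsum oo (c • f) φ = zsum oo f φ := by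
  rcases eq_or_ne f 0 with rfl | hf
  · rw [smul_zero]
  have hc' : algebraMap K F c ≠ 0 := by simpa using hc
  have hdiv : RR.divOf K (c • f) = RR.divOf K f := by
    rw [Algebra.smul_def, RR.divOf_mul K hc' hf, RR.divOf_algebraMap, zero_add]
  have hord : ∀ P : Place K F, P.ord (c • f) = P.ord f := by
    intro P
    rw [← RR.divOf_apply, hdiv, RR.divOf_apply]
  unfold zsum
  rw [hdiv]
  exact Finset.sum_congr rfl fun P _ => by rw [hord]

theorem zsum_eq_add_zsumE {oo P : Place K F} (f : F) (hP : P ≠ oo) (φ : Place K F → ℝ) :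
    zsum oo f φ = ((P.ord f).toNat : ℝ) * φ P + zsumE oo f P φ := by
  rw [zsum_eq_toAdd_zprod, zsumE_eq_toAdd_zprodE, zprod_eq_mul_zprodE hP, toAdd_mul, toAdd_pow,
    toAdd_ofAdd, nsmul_eq_mul]

theorem zsum_congr {oo : Place K F} {f : F} {φ ψ : Place K F → ℝ}
    (h : ∀ P, P ≠ oo → 0 < P.ord f → φ P = ψ P) : zsum oo f φ = zsum oo f ψ := by
  classical
  unfold zsum
  refine Finset.sum_congr rfl fun P hP => ?_
  by_cases hpos : 0 < P.ord f
  · rw [h P (Finset.mem_erase.1 hP).1 hpos]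
  · rw [Int.toNat_of_nonpos (not_lt.1 hpos)]
    simp

theorem zsumE_congr {oo P : Place K F} {f : F} {φ ψ : Place K F → ℝ}
    (h : ∀ Q, Q ≠ oo → Q ≠ P → 0 < Q.ord f → φ Q = ψ Q) : zsumE oo f P φ = zsumE oo f P ψ := by
  classical
  unfold zsumE
  refine Finset.sum_congr rfl fun Q hQ => ?_
  by_cases hpos : 0 < Q.ord f
  · rw [h Q (Finset.mem_erase.1 (Finset.mem_erase.1 hQ).2).1 (Finset.mem_erase.1 hQ).1 hpos]
  · rw [Int.toNat_of_nonpos (not_lt.1 hpos)]
    simp

theorem zsum_nonneg {oo : Place K F} {f : F} {φ : Place K F → ℝ}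
    (h : ∀ P, P ≠ oo → 0 < P.ord f → 0 ≤ φ P) : 0 ≤ zsum oo f φ := by
  classical
  unfold zsum
  refine Finset.sum_nonneg fun P hP => ?_
  by_cases hpos : 0 < P.ord f
  · exact mul_nonneg (Nat.cast_nonneg _) (h P (Finset.mem_erase.1 hP).1 hpos)
  · rw [Int.toNat_of_nonpos (not_lt.1 hpos)]
    simp

theorem zsum_add (oo : Place K F) (f : F) (φ ψ : Place K F → ℝ) :
    zsum oo f (fun P => φ P + ψ P) = zsum oo f φ + zsum oo f ψ := by
  unfold zsum
  rw [← Finset.sum_add_distrib]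
  exact Finset.sum_congr rfl fun P _ => by ring

theorem zsum_mul_left (oo : Place K F) (f : F) (a : ℝ) (φ : Place K F → ℝ) :
    zsum oo f (fun P => a * φ P) = a * zsum oo f φ := by
  unfold zsum
  rw [Finset.mul_sum]
  exact Finset.sum_congr rfl fun P _ => by ring

/-- `zsum` as a sum over a list of the zeros. -/
theorem zsum_eq_sum {oo : Place K F} {f : F} (hf : f ∈ Reg oo) (h0 : f ≠ 0) {m : ℕ}
    (Z : Fin m → Place K F) (hZ : ∀ i, Z i ≠ oo)
    (hcard : ∀ P : Place K F, P ≠ oo → (P.ord f).toNat = Nat.card {i // Z i = P})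
    (φ : Place K F → ℝ) : zsum oo f φ = ∑ i, φ (Z i) := by
  rw [zsum_eq_toAdd_zprod, zprod_eq_prod hf h0 Z hZ hcard, toAdd_prod]
  rfl

/-- `zsum` in terms of an effective divisor `E` with `E = div f` outside `oo`. -/
theorem zsum_eq_finsupp_sum {oo : Place K F} {f : F} (E : Divisor K F) (hoo : E oo = 0)
    (hE : ∀ P : Place K F, P ≠ oo → E P = P.ord f) (hpos : 0 ≤ E) (φ : Place K F → ℝ) :
    zsum oo f φ = E.sum fun P m => (m : ℝ) * φ P := by
  classical
  unfold zsum Finsupp.sum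
  have hsupp : (RR.divOf K f).support.erase oo = E.support := by
    ext P
    rw [Finset.mem_erase, Finsupp.mem_support_iff, Finsupp.mem_support_iff, RR.divOf_apply]
    constructor
    · rintro ⟨h1, h2⟩
      rwa [hE P h1]
    · intro h
      have h1 : P ≠ oo := by
        rintro rfl
        exact h hoo
      exact ⟨h1, by rwa [← hE P h1]⟩
  have hsupp' : ∀ P, P ∈ (RR.divOf K f).support.erase oo ↔ P ∈ E.support := fun P => by
    rw [hsupp]
  refine Finset.sum_congr (by convert hsupp) fun P hP => ?_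
  have h1 : P ≠ oo := by
    rintro rfl
    exact (Finsupp.mem_support_iff.1 hP) hoo
  have h2 : 0 ≤ E P := hpos P
  rw [← hE P h1]
  congr 1
  have : ((E P).toNat : ℤ) = E P := Int.toNat_of_nonneg h2
  exact_mod_cast this

end Fermat.Agent.S17.El
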