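import Fermat.Agent.S17.El.Glob.LG
import Fermat.Agent.S17.El.Glob.ZS
import Fermat.Agent.S17.El.Geo

/-!
# S17/El/Glob: the local quantities of the curve are local families with a global sum  (WP EL-G-LGC)

`X v P = max 1 (v (x P)) = nrm v ![1, x P]`, `D v P R = nrm v (Plücker)` (non zero vector for `P ≠ R`:
`Cv.exists_pl_ne_zero`), `dn = D^n / (X X)^(κ-1)`; products over the zeros: `LG.prod`, `LG.pow`.
Symmetry of `G`: `pl R P a b = pl P R b a`, `AH.absLogHeight_comp_equiv (Equiv.prodComm ..)`.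
-/

set_option autoImplicit false

open AlgebraicCurve

namespace Fermat.Agent.S17.El

open AH

variable {F : Type*} [Field F] [Algebra Qb F] [S27.IsFF Qb F]

theorem LG_zprod {oo : Place Qb F} {f : F} {ψ : AbsoluteValue Qb ℝ → Place Qb F → ℝ}
    {h : Place Qb F → ℝ} (H : ∀ P, P ≠ oo → 0 < P.ord f → LG (fun v => ψ v P) (h P)) :
    LG (fun v => zprod oo f (ψ v)) (zsum oo f h) := by
  classical
  unfold zprod zsum
  refine LG.prod _ (Φ := fun P v => ψ v P ^ (P.ord f).toNat)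
    (H := fun P => ((P.ord f).toNat : ℝ) * h P) fun P hP => ?_
  by_cases hpos : 0 < P.ord f
  · exact (H P (Finset.mem_erase.1 hP).1 hpos).pow _
  · refine LG.one.congr (fun v => ?_) ?_
    · rw [Int.toNat_of_nonpos (not_lt.1 hpos), pow_zero]
    · rw [Int.toNat_of_nonpos (not_lt.1 hpos)]
      simp

theorem LG_zprodE {oo P : Place Qb F} {f : F} {ψ : AbsoluteValue Qb ℝ → Place Qb F → ℝ}
    {h : Place Qb F → ℝ} (H : ∀ Q, Q ≠ oo → Q ≠ P → 0 < Q.ord f → LG (fun v => ψ v Q) (h Q)) :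
    LG (fun v => zprodE oo f P (ψ v)) (zsumE oo f P h) := by
  classical
  unfold zprodE zsumE
  refine LG.prod _ (Φ := fun Q v => ψ v Q ^ (Q.ord f).toNat)
    (H := fun Q => ((Q.ord f).toNat : ℝ) * h Q) fun Q hQ => ?_
  by_cases hpos : 0 < Q.ord f
  · exact (H Q (Finset.mem_erase.1 (Finset.mem_erase.1 hQ).2).1 (Finset.mem_erase.1 hQ).1 hpos).pow _
  · refine LG.one.congr (fun v => ?_) ?_
    · rw [Int.toNat_of_nonpos (not_lt.1 hpos), pow_zero]
    · rw [Int.toNat_of_nonpos (not_lt.1 hpos)]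
      simp

namespace Cv

variable (C : Cv Qb F)

theorem hX_nonneg (P : Place Qb F) : 0 ≤ C.hX P := absLogHeight_nonneg _

theorem LG_X (P : Place Qb F) : LG (fun v => C.X v P) (C.hX P) :=
  LG.max_one (S27.val P C.x)

theorem LG_D {P R : Place Qb F} (hP : P ≠ C.oo) (hR : R ≠ C.oo) (h : P ≠ R) :
    LG (fun v => C.D v P R) (C.hD P R) := by
  have hA : (fun ab : Fin C.r × Fin C.r => C.pl P R ab.1 ab.2) ≠ 0 := by
    obtain ⟨a, b, hab⟩ := C.exists_pl_ne_zero hP hR h
    intro h0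
    exact hab (congrFun h0 (a, b))
  exact LG.of_nrm hA

theorem LG_dn {P R : Place Qb F} (hP : P ≠ C.oo) (hR : R ≠ C.oo) (h : P ≠ R) :
    LG (fun v => C.dn v P R) (C.G P R) :=
  ((C.LG_D hP hR h).pow C.n).div (((C.LG_X P).mul (C.LG_X R)).pow (C.κ - 1))

/-- the Mahler measure: the leading coefficient disappears by the product formula. -/
theorem LG_mun {f : F} (hf : f ∈ Reg C.oo) (hf0 : f ≠ 0) :
    LG (fun v => C.mun v f) (zsum C.oo f C.hX) := by
  refine (((LG.abv (C.lc_ne_zero hf hf0)).pow C.n).mul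
    (LG_zprod (oo := C.oo) (f := f) (ψ := fun v => C.X v) (h := C.hX)
      fun P _ _ => C.LG_X P)).congr (fun v => rfl) ?_
  simp

theorem hD_comm (P R : Place Qb F) : C.hD P R = C.hD R P := by
  unfold hD
  rw [← absLogHeight_comp_equiv (Equiv.prodComm (Fin C.r) (Fin C.r))
    (fun ab : Fin C.r × Fin C.r => C.pl R P ab.1 ab.2)]
  congr 1
  ext ab
  simp only [Function.comp, Equiv.prodComm_apply, Prod.fst_swap, Prod.snd_swap, pl]
  ring

theorem G_comm (P R : Place Qb F) : C.G P R = C.G R P := by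
  unfold G
  rw [C.hD_comm P R, add_comm]

theorem Gh_comm (P R : Place Qb F) : C.Gh P R = C.Gh R P := by
  unfold Gh
  by_cases h : P = R
  · subst h
    rfl
  · rw [if_neg h, if_neg (Ne.symm h), C.G_comm]

theorem Gh_of_ne {P R : Place Qb F} (h : P ≠ R) : C.Gh P R = C.G P R := if_neg h

theorem Gh_self (P : Place Qb F) : C.Gh P P = C.tau P := if_pos rfl

end Cv

end Fermat.Agent.S17.El
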