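import Fermat.Agent.S17.El.Glob.NS1
import Fermat.Agent.S17.El.Glob.Defs

/-!
# S17/El/Glob: (H4) a finite set `𝒜` of classes such that every `w` has `w ± a` non special  (WP EL-G-NS)

`exists_TT` (induction on `k`; `S` a set of `≥ 2g + 2` places).  `k = 0`: nothing to do.  Step `k → k+1`: given `N`, `N'` (degree `g-2`) with
`l ≤ k+1`.  Choose `s ∈ S` outside `Bs (W - N) ∪ Bs N'` and then `s' ∈ S` outside `Bs (W - N') ∪ Bs N ∪ {s}`
(where `Bs N'`, `Bs N` are only excluded if `l(N') ≠ 0`, resp. `l(N) ≠ 0`): possible because `l(W - N) = l(N) + 1 ≠ 0`,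
`|Bs (W - N)| ≤ g`, `|Bs N'| ≤ max 0 (g - 2)` (`ncard_Bs_le`), so at most `2g`, resp. `2g + 1`, elements of `S` are excluded.  By `step`
(applied to `(N, s, s')` and to `(N', s', s)`) `l(N + s - s') ≤ k`, `l(N' + s' - s) ≤ k`; apply the induction hypothesis to these two divisors
and add `s`, `s'` to the tuples (`Fin.cons`, `S27.NS.sumDiv_cons`).
(The bound `2g ≤ |S|` of the first version is not enough for `g ≤ 1`: for `g = 0` the set `S` could be empty.)

`exists_NSpm`: `S` = any `2g + 2` places (`S27.infinite_places`), `W` canonical,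
`𝒜 = {dcl (sumDiv T - sumDiv T') | T, T' : Fin g → S}` (finite).  For `w = dcl W₀`: `N = N' = W - g·oo + W₀`, of degree `g - 2`, `l(N) ≤ g`
(`S27.finrank_L_le_degree_add_one` / `L_eq_bot_of_degree_neg`).  `T, T'` from `exists_TT` with `k = g`, `A = sumDiv T - sumDiv T'`, `a = dcl A`:
`w + a = dcl (W₀ + A)`, `l(g·oo - W₀ - A) = 1 + l(W - (g·oo - W₀ - A)) = 1 + l(N + A) = 1` (RR), and the same for `w - a` with `N - A`.
(`RR.ell D = finrank (riemannRochSpace D)` by definition.)
-/

set_option autoImplicit false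

open AlgebraicCurve

namespace Fermat.Agent.S17.El

variable {K F : Type*} [Field K] [Field F] [Algebra K F] [IsAlgClosed K] [CharZero K]
  [S27.IsFF K F]

/-- the base points, as a finite set (empty if `l(D) = 0`). -/
theorem exists_Bs_finset (D : Divisor K F) :
    ∃ B : Finset (Place K F), (B.card : ℤ) ≤ max 0 (Divisor.degree D) ∧
      ∀ P ∉ B, RR.ell D ≠ 0 → P ∉ Bs D := by
  classical
  by_cases h : RR.ell D = 0
  · exact ⟨∅, by simp, fun P _ h' => absurd h h'⟩
  · refine ⟨(finite_Bs h).toFinset, ?_, fun P hP _ hP' => hP ((finite_Bs h).mem_toFinset.2 hP')⟩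
    rw [← Set.ncard_eq_toFinset_card _ (finite_Bs h)]
    exact (ncard_Bs_le h).trans (le_max_right _ _)

theorem exists_TT (S : Finset (Place K F)) (hS : 2 * genusFF K F + 2 ≤ S.card)
    {lam : Module.Dual K (RR.Adele K F)} {W : Divisor K F} (hW : RR.IsCanonical lam W) (k : ℕ) :
    ∀ N N' : Divisor K F, Divisor.degree N = (genusFF K F : ℤ) - 2 →
      Divisor.degree N' = (genusFF K F : ℤ) - 2 → RR.ell N ≤ k → RR.ell N' ≤ k →
      ∃ T T' : Fin k → Place K F, (∀ i, T i ∈ S) ∧ (∀ i, T' i ∈ S) ∧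
        RR.ell (N + S27.sumDiv T - S27.sumDiv T') = 0 ∧
        RR.ell (N' - S27.sumDiv T + S27.sumDiv T') = 0 := by
  classical
  have hdW := hW.degree_eq
  induction k with
  | zero =>
    intro N N' _ _ h1 h2
    refine ⟨Fin.elim0, Fin.elim0, fun j => j.elim0, fun j => j.elim0, ?_, ?_⟩
    · simpa [S27.sumDiv] using h1
    · simpa [S27.sumDiv] using h2
  | succ k ih =>
    intro N N' hN hN' h1 h2
    have hne : ∀ M : Divisor K F, Divisor.degree M = (genusFF K F : ℤ) - 2 →
        RR.ell (W - M) ≠ 0 := by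
      intro M hM
      have e1 := hW.rr (W - M)
      rw [sub_sub_cancel, map_sub, hdW, hM] at e1
      omega
    have hdWM : ∀ M : Divisor K F, Divisor.degree M = (genusFF K F : ℤ) - 2 →
        Divisor.degree (W - M) = genusFF K F := by
      intro M hM
      rw [map_sub, hdW, hM]; ring
    obtain ⟨B₁, hB₁, hb₁⟩ := exists_Bs_finset (W - N)
    obtain ⟨B₂, hB₂, hb₂⟩ := exists_Bs_finset N'
    obtain ⟨B₃, hB₃, hb₃⟩ := exists_Bs_finset (W - N')
    obtain ⟨B₄, hB₄, hb₄⟩ := exists_Bs_finset N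
    rw [hdWM N hN] at hB₁
    rw [hdWM N' hN'] at hB₃
    rw [hN'] at hB₂
    rw [hN] at hB₄
    have hc₁ : B₁.card ≤ genusFF K F := by omega
    have hc₂ : B₂.card ≤ genusFF K F := by omega
    have hc₃ : B₃.card ≤ genusFF K F := by omega
    have hc₄ : B₄.card ≤ genusFF K F := by omega
    obtain ⟨s, hsS, hsB⟩ : ∃ s ∈ S, s ∉ B₁ ∪ B₂ := by
      apply Finset.exists_mem_notMem_of_card_lt_card
      have := Finset.card_union_le B₁ B₂
      omega
    obtain ⟨s', hs'S, hs'B⟩ : ∃ s' ∈ S, s' ∉ (B₃ ∪ B₄) ∪ {s} := by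
      apply Finset.exists_mem_notMem_of_card_lt_card
      have h3 := Finset.card_union_le B₃ B₄
      have h4 := Finset.card_union_le (B₃ ∪ B₄) {s}
      rw [Finset.card_singleton] at h4
      omega
    simp only [Finset.mem_union, Finset.mem_singleton, not_or] at hsB hs'B
    have hss' : s ≠ s' := fun h => hs'B.2 h.symm
    have st1 := step hW hN hss' (hb₁ s hsB.1 (hne N hN)) (hb₄ s' hs'B.1.2)
    have st2 := step hW hN' hss'.symm (hb₃ s' hs'B.1.1 (hne N' hN')) (hb₂ s hsB.2)
    obtain ⟨T, T', hT, hT', e1, e2⟩ := ih (N + Finsupp.single s 1 - Finsupp.single s' 1)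
      (N' + Finsupp.single s' 1 - Finsupp.single s 1)
      (by rw [map_sub, map_add, S27.degree_single_one, S27.degree_single_one, hN]; ring)
      (by rw [map_sub, map_add, S27.degree_single_one, S27.degree_single_one, hN']; ring)
      (by omega) (by omega)
    refine ⟨Fin.cons s T, Fin.cons s' T', ?_, ?_, ?_, ?_⟩
    · intro j
      refine Fin.cases ?_ (fun i => ?_) j
      · simpa using hsS
      · simpa using hT i
    · intro j
      refine Fin.cases ?_ (fun i => ?_) j
      · simpa using hs'S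
      · simpa using hT' i
    · rw [S27.NS.sumDiv_cons, S27.NS.sumDiv_cons, ← e1]
      congr 1
      abel
    · rw [S27.NS.sumDiv_cons, S27.NS.sumDiv_cons, ← e2]
      congr 1
      abel

/-- (H4) -/
theorem Cv.exists_NSpm (C : Cv K F) :
    ∃ 𝒜 : Set (Pic0 K F), 𝒜.Finite ∧ ∀ w, ∃ a ∈ 𝒜, w + a ∈ C.NS ∧ w - a ∈ C.NS := by
  classical
  set g := genusFF K F with hg
  have := S27.infinite_places (K := K) (F := F)
  obtain ⟨S, hScard⟩ := Infinite.exists_subset_card_eq (Place K F) (2 * g + 2)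
  obtain ⟨lam, W, hW⟩ := RR.exists_canonical (K := K) (F := F)
  have hdW := hW.degree_eq
  let I := Fintype.piFinset fun _ : Fin g => S
  refine ⟨((I ×ˢ I).image fun TT => S27.dcl (S27.sumDiv TT.1 - S27.sumDiv TT.2) :
    Finset (Pic0 K F)), Finset.finite_toSet _, fun w => ?_⟩
  obtain ⟨W₀, hW₀, rfl⟩ := S27.dcl_surjective w
  set N : Divisor K F := W - Finsupp.single C.oo (g : ℤ) + W₀ with hNdef
  have hN : Divisor.degree N = (g : ℤ) - 2 := by
    rw [hNdef, map_add, map_sub, hdW, hW₀, RR.degree_single]; ring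
  have hlN : RR.ell N ≤ g := by
    by_cases h2 : 2 ≤ g
    · have := RR.ell_le_degree_add_one (K := K) (F := F) (D := N) (by rw [hN]; omega)
      rw [hN] at this
      omega
    · rw [RR.ell_eq_zero (by rw [hN]; omega)]
      exact Nat.zero_le _
  obtain ⟨T, T', hT, hT', e1, e2⟩ := exists_TT S hScard.ge hW g N N hN hN hlN hlN
  have hdA : Divisor.degree (S27.sumDiv T - S27.sumDiv T') = 0 := S27.degree_sumDiv_sub T T'
  refine ⟨S27.dcl (S27.sumDiv T - S27.sumDiv T'), ?_, ?_, ?_⟩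
  · rw [Finset.mem_coe, Finset.mem_image]
    exact ⟨(T, T'), Finset.mem_product.2
      ⟨Fintype.mem_piFinset.2 hT, Fintype.mem_piFinset.2 hT'⟩, rfl⟩
  · refine ⟨W₀ + (S27.sumDiv T - S27.sumDiv T'), by rw [map_add, hW₀, hdA, add_zero],
      S27.dcl_add hW₀ hdA, ?_⟩
    have h1 := hW.rr (Finsupp.single C.oo (g : ℤ) - (W₀ + (S27.sumDiv T - S27.sumDiv T')))
    have h2 : W - (Finsupp.single C.oo (g : ℤ) - (W₀ + (S27.sumDiv T - S27.sumDiv T'))) =
        N + S27.sumDiv T - S27.sumDiv T' := by rw [hNdef]; abel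
    rw [h2, e1, map_sub, map_add, hW₀, hdA, RR.degree_single] at h1
    have h3 : (RR.ell (Finsupp.single C.oo (g : ℤ) - (W₀ + (S27.sumDiv T - S27.sumDiv T'))) : ℤ)
        = 1 := by push_cast at h1; omega
    exact_mod_cast h3
  · refine ⟨W₀ - (S27.sumDiv T - S27.sumDiv T'), by rw [map_sub, hW₀, hdA, sub_zero],
      S27.dcl_sub hW₀ hdA, ?_⟩
    have h1 := hW.rr (Finsupp.single C.oo (g : ℤ) - (W₀ - (S27.sumDiv T - S27.sumDiv T')))
    have h2 : W - (Finsupp.single C.oo (g : ℤ) - (W₀ - (S27.sumDiv T - S27.sumDiv T'))) =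
        N - S27.sumDiv T + S27.sumDiv T' := by rw [hNdef]; abel
    rw [h2, e2, map_sub, map_sub, hW₀, hdA, RR.degree_single] at h1
    have h3 : (RR.ell (Finsupp.single C.oo (g : ℤ) - (W₀ - (S27.sumDiv T - S27.sumDiv T'))) : ℤ)
        = 1 := by push_cast at h1; omega
    exact_mod_cast h3

end Fermat.Agent.S17.El
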