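import Fermat.Agent.S17.El.Glob.AT
import Fermat.Agent.S17.El.Glob.KI
import Fermat.Agent.S17.El.Glob.NSpm
import Fermat.Agent.S17.El.Glob.H5
import Fermat.Agent.S17.El.Glob.ExCv

/-!
# S17/El/Glob: the height half of Mordell-Weil (route E) -- final assembly
-/

set_option autoImplicit false

open AlgebraicCurve

namespace Fermat.Agent.S17.El

open AH

/-- the absolute Galois group of `ℚ`. -/
local notation "GQ" => (AlgebraicClosure ℚ ≃ₐ[ℚ] AlgebraicClosure ℚ)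

/-- same statement as `Fermat.Agent.S17.exists_quadratic_height` (`S17/HeightSpec.lean`). -/
theorem exists_quadratic_height_E {F : Type} [Field F] [Algebra Qb F] [S27.IsFF Qb F]
    (ρ : GQ →* SemilinearAut Qb F) (hρ : ∀ σ, SemilinearAut.baseAut (ρ σ) = σ.toRingEquiv)
    (j : F) (hj : j ∉ Set.range (algebraMap Qb F)) (hjρ : ∀ σ, ρ σ • j = j) :
    ∃ q : Pic0 Qb F → ℝ, (∀ x, 0 ≤ q x) ∧
      (∃ C : ℝ, ∀ x y, |q (x + y) + q (x - y) - 2 * (q x + q y)| ≤ C) ∧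
      ∀ B : ℝ, {x : Pic0 Qb F | (∀ σ, ρ σ • x = x) ∧ q x ≤ B}.Finite := by
  obtain ⟨C⟩ := exists_Cv Qb F
  obtain ⟨𝒜, h𝒜, H4⟩ := C.exists_NSpm
  obtain ⟨c₃, H3⟩ := C.KI
  have H1 : ∀ m : ℕ, ∃ c : ℝ, ∀ Z : Multiset C.Aff, Z.card ≤ m → (Z.map C.jm).sum = 0 →
      ∀ R, |(Z.map fun P => C.GhA P R).sum| ≤ c := by
    intro m
    obtain ⟨c, hc⟩ := C.QB m
    refine ⟨c, fun Z hZ hj0 R => ?_⟩
    obtain ⟨f, hf, hf0, hzs⟩ := C.exists_fun_of_sum_jm Z hj0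
    have := hc f (V_mono C.oo hZ hf) hf0 R.1 R.2
    rw [hzs] at this
    exact this
  exact abstract_height C.jm C.GhA (fun P R => C.Gh_comm P.1 R.1) H1 (genusFF Qb F) C.exists_rep
    C.NS C.sz C.sz_nonneg C.Df (2 * genusFF Qb F + 1) c₃ H3 𝒜 h𝒜 H4
    {x : Pic0 Qb F | ∀ σ, ρ σ • x = x} (fun a _ b => C.H5 ρ hρ hj hjρ a b)

end Fermat.Agent.S17.El
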