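import Fermat.Agent.S17.Quad.RR

/-!
# S17/El/Glob: base points; the exchange step   (WP EL-G-NS1)

`l(D) = RR.ell D`.  `Bs D = {P | l(D - P) = l(D)}` (base points of `|D|`).
* `ncard_Bs_le`: if `l(D) ≠ 0` pick `f ≠ 0` in `L(D)`; `P ∈ Bs D ⇒ L(D - P) = L(D) ∋ f ⇒ (div f + D)(P) ≥ 1`; the effective divisor
  `div f + D` has degree `deg D` (`Quad.card_le_degree` / `Quad.card_support_le_of_nonneg`-like counting).
* `ell_sub_single`: `l(D) - 1 ≤ l(D - P) ≤ l(D)` (`S27.finrank_L_add_single_le`, `S27.finrank_L_mono`), so `P ∉ Bs D ⇒ l(D - P) = l(D) - 1`.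
* `step`: `W` canonical, `deg N = g - 2`, `E = W - N` (degree `g`).  RR (`RR.IsCanonical.rr`): `l(E) = l(N) + 1`, `l(E - s) = l(N + s)`.
  `s ∉ Bs E ⇒ l(N + s) = l(E) - 1 = l(N)`, so `L(N + s) = L(N)` (inclusion + equal finite dimension).  For `s' ≠ s`:
  `L(N + s - s') = L(N + s) ∩ L(N + s - s') = L(N) ∩ L(N + s - s') = L(N - s')` (pointwise minimum of the two divisors), so
  `l(N + s - s') = l(N - s')`, which is `l(N) - 1` if `l(N) ≠ 0` and `s' ∉ Bs N`, and `0` if `l(N) = 0`.
-/

set_option autoImplicit false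

open AlgebraicCurve

namespace Fermat.Agent.S17.El

variable {K F : Type*} [Field K] [Field F] [Algebra K F] [IsAlgClosed K] [CharZero K]
  [S27.IsFF K F]

/-- the base points of `|D|`. -/
def Bs (D : Divisor K F) : Set (Place K F) := {P | RR.ell (D - Finsupp.single P 1) = RR.ell D}

theorem ell_sub_single_le (D : Divisor K F) (P : Place K F) :
    RR.ell (D - Finsupp.single P 1) ≤ RR.ell D :=
  RR.ell_mono (sub_le_self _ (Finsupp.single_nonneg.2 zero_le_one))

theorem ell_le_sub_single_add_one (D : Divisor K F) (P : Place K F) :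
    RR.ell D ≤ RR.ell (D - Finsupp.single P 1) + 1 := by
  have := RR.ell_add_single_le (D - Finsupp.single P 1) P
  rwa [sub_add_cancel] at this

theorem L_sub_single_eq_of_mem_Bs {D : Divisor K F} {P : Place K F} (h : P ∈ Bs D) :
    riemannRochSpace (D - Finsupp.single P 1) = riemannRochSpace D :=
  Submodule.eq_of_le_of_finrank_eq
    (S27.L_mono (sub_le_self _ (Finsupp.single_nonneg.2 zero_le_one))) h

theorem Bs_subset_support {D : Divisor K F} {f : F} (hf0 : f ≠ 0) (hf : f ∈ riemannRochSpace D) :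
    Bs D ⊆ ((D + S27.divOf f).support : Set (Place K F)) := by
  intro P hP
  rw [← L_sub_single_eq_of_mem_Bs hP] at hf
  have := ((mem_riemannRochSpace_iff.1 hf) P).resolve_left hf0
  rw [Finsupp.sub_apply, Finsupp.single_eq_same] at this
  rw [Finset.mem_coe, Finsupp.mem_support_iff, Finsupp.add_apply, S27.divOf_apply]
  omega

theorem finite_Bs {D : Divisor K F} (h : RR.ell D ≠ 0) : (Bs D).Finite := by
  obtain ⟨f, hf0, hf⟩ := RR.ell_pos_iff.1 (Nat.pos_of_ne_zero h)
  exact (Finset.finite_toSet _).subset (Bs_subset_support hf0 hf)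

theorem ncard_Bs_le {D : Divisor K F} (h : RR.ell D ≠ 0) :
    ((Bs D).ncard : ℤ) ≤ Divisor.degree D := by
  obtain ⟨f, hf0, hf⟩ := RR.ell_pos_iff.1 (Nat.pos_of_ne_zero h)
  have heff := S27.effective_of_mem_L hf0 hf
  have h1 := Set.ncard_le_ncard (Bs_subset_support hf0 hf) (Finset.finite_toSet _)
  rw [Set.ncard_coe_finset] at h1
  have h2 : (((D + S27.divOf f).support.card : ℕ) : ℤ) ≤ Divisor.degree (D + S27.divOf f) := by
    refine Quad.card_le_degree (fun P : Place K F => P) Function.injective_id heff _ ?_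
    intro P hP
    have h0 : 0 ≤ (D + S27.divOf (K := K) f) P := heff P
    have hne : (D + S27.divOf (K := K) f) P ≠ 0 := Finsupp.mem_support_iff.1 hP
    omega
  rw [map_add, S27.degree_divOf hf0, add_zero] at h2
  omega

theorem ell_sub_single_of_not_mem {D : Divisor K F} {P : Place K F} (h : P ∉ Bs D) :
    RR.ell (D - Finsupp.single P 1) = RR.ell D - 1 := by
  have h1 := ell_sub_single_le D P
  have h2 := ell_le_sub_single_add_one D P
  have h3 : RR.ell (D - Finsupp.single P 1) ≠ RR.ell D := h
  omega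

theorem step {lam : Module.Dual K (RR.Adele K F)} {W : Divisor K F} (hW : RR.IsCanonical lam W)
    {N : Divisor K F} (hN : Divisor.degree N = (genusFF K F : ℤ) - 2) {s s' : Place K F}
    (hss' : s ≠ s') (hs : s ∉ Bs (W - N)) (hs' : RR.ell N ≠ 0 → s' ∉ Bs N) :
    RR.ell (N + Finsupp.single s 1 - Finsupp.single s' 1) = RR.ell N - 1 := by
  classical
  have hdW := hW.degree_eq
  -- `l(N + s) = l(N)`
  have e1 := hW.rr (W - N)
  have e2 := hW.rr (W - N - Finsupp.single s 1)
  have e3 := ell_sub_single_of_not_mem hs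
  rw [sub_sub_cancel, map_sub, hdW, hN] at e1
  rw [sub_sub, sub_sub_cancel, map_sub, map_add, hdW, hN, S27.degree_single_one, ← sub_sub] at e2
  have e4 : RR.ell N = RR.ell (N + Finsupp.single s 1) := by omega
  have hL : riemannRochSpace N = riemannRochSpace (N + Finsupp.single s 1) :=
    Submodule.eq_of_le_of_finrank_eq
      (S27.L_mono (le_add_of_nonneg_right (Finsupp.single_nonneg.2 zero_le_one))) e4
  -- `L(N + s - s') = L(N - s')`
  have hL' : riemannRochSpace (N + Finsupp.single s 1 - Finsupp.single s' 1) =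
      riemannRochSpace (N - Finsupp.single s' 1) := by
    apply le_antisymm
    · intro f hf
      have hfN : f ∈ riemannRochSpace N := by
        rw [hL]
        exact S27.L_mono (sub_le_self _ (Finsupp.single_nonneg.2 zero_le_one)) hf
      rw [mem_riemannRochSpace_iff] at hf hfN ⊢
      intro P
      by_cases hf0 : f = 0
      · exact Or.inl hf0
      right
      have h1 := (hf P).resolve_left hf0
      have h2 := (hfN P).resolve_left hf0
      rw [Finsupp.sub_apply, Finsupp.add_apply] at h1
      rw [Finsupp.sub_apply]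
      by_cases hP : P = s'
      · subst hP
        rw [Finsupp.single_eq_of_ne (Ne.symm hss')] at h1
        omega
      · rw [Finsupp.single_eq_of_ne hP]
        omega
    · apply S27.L_mono
      exact sub_le_sub_right (le_add_of_nonneg_right (Finsupp.single_nonneg.2 zero_le_one)) _
  have e5 : RR.ell (N + Finsupp.single s 1 - Finsupp.single s' 1) =
      RR.ell (N - Finsupp.single s' 1) := by
    unfold RR.ell
    rw [hL']
  rw [e5]
  by_cases h0 : RR.ell N = 0
  · have := ell_sub_single_le N s'
    omega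
  · exact ell_sub_single_of_not_mem (hs' h0)

end Fermat.Agent.S17.El
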