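import Fermat.Agent.S17.El.Glob.LE
import Fermat.Agent.S17.El.Sec
import Fermat.Agent.S17.El.K2d

/-!
# S17/El/Glob: (QB) `Gh` is compatible with linear equivalence, everywhere   (WP EL-G-QB)

For `f ∈ L(m·oo)`, `f ≠ 0` and ANY affine `R`:  `|∑_{P ∈ Z(f)} Gh(P,R)| ≤ c_m`.

Let `μ = ord_R f ≤ m`, `y = ys R` (`ys_mem`, `ord_ys`: `y ∈ L(m_y·oo)`, `m_y = 2g+1+n`, simple zero at `R`),
`Y' = Z(y) - R` (affine, effective, `R ∉ Y'`, degree `≤ m_y`), `k = m * m_y + 2g`.
`exists_section` for `D = k·oo - μ Y'` (degree `≥ 2g`), `S = {R}`: `u ∈ L(k·oo)`, `u ≠ 0`, `ord_P u ≥ μ ord_P y` for `P ≠ R` affine,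
`ord_R u = 0`.  Then `h = f u / y^μ ∈ L((m+k)·oo)`, `h(R) ≠ 0`, `u(R) ≠ 0`, and `f u = h y^μ` gives (`zsum_mul`, `zsum_pow`)
`zsum f φ = zsum h φ + μ zsum y φ - zsum u φ` for `φ = Gh · R`.
* `zsum h (Gh · R) = zsum h (G · R)` (`zsum_congr`, `R` is not a zero of `h`), bounded by `LE (m+k)`; same for `u` (`LE k`);
* `zsum y (Gh · R) = tau R + zsumE y R (G · R) = 0` by definition of `tau` (`zsum_eq_add_zsumE`).
-/

set_option autoImplicit false

open AlgebraicCurve

namespace Fermat.Agent.S17.El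

open AH

section general

variable {K F : Type*} [Field K] [Field F] [Algebra K F] [IsAlgClosed K] [CharZero K]
  [S27.IsFF K F] (C : Cv K F)

namespace QBAux

/-- a function in `L((2g+1)·oo)` with a simple zero at `P`. -/
theorem exists_simple_zero (oo : Place K F) {P : Place K F} (hP : P ≠ oo) :
    ∃ y : F, y ∈ V oo (2 * genusFF K F + 1) ∧ P.ord y = 1 := by
  classical
  set D : Divisor K F := Finsupp.single oo ((2 * genusFF K F + 1 : ℕ) : ℤ) - Finsupp.single P 1
    with hD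
  have hDoo : D oo = ((2 * genusFF K F + 1 : ℕ) : ℤ) := by
    rw [hD]
    simp only [Finsupp.sub_apply, Finsupp.single_eq_same, Finsupp.single_eq_of_ne hP.symm]
    ring
  have hDP : D P = -1 := by
    rw [hD]
    simp only [Finsupp.sub_apply, Finsupp.single_eq_same, Finsupp.single_eq_of_ne hP]
    ring
  have hDQ : ∀ Q : Place K F, Q ≠ oo → Q ≠ P → D Q = 0 := by
    intro Q h1 h2
    rw [hD]
    simp only [Finsupp.sub_apply, Finsupp.single_eq_of_ne h1, Finsupp.single_eq_of_ne h2]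
    ring
  have hdeg : 2 * (genusFF K F : ℤ) ≤ Divisor.degree D := by
    rw [hD, map_sub, Divisor.degree_single, Divisor.degree_single, S27.deg_eq_one,
      S27.deg_eq_one]
    push_cast
    omega
  obtain ⟨u, hu, hu0, huS⟩ := exists_section D hdeg {P}
  rw [mem_riemannRochSpace_iff] at hu
  have hord : ∀ Q, -D Q ≤ Q.ord u := fun Q => (hu Q).resolve_left hu0
  refine ⟨u, ?_, ?_⟩
  · rw [mem_V_iff]
    refine ⟨fun Q hQ => ?_, Or.inr ?_⟩
    · rw [mem_place_iff_zp]
      right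
      by_cases hQP : Q = P
      · subst hQP
        have := hord Q
        rw [hDP] at this
        omega
      · have := hord Q
        rw [hDQ Q hQ hQP] at this
        omega
    · have := hord oo
      rwa [hDoo] at this
  · rw [huS P (Finset.mem_singleton_self P), hDP, neg_neg]

/-- the multiplicity of a zero is at most the degree. -/
theorem toNat_ord_le_dg {oo : Place K F} {f : F} (hf : f ∈ Reg oo) (h0 : f ≠ 0) {R : Place K F}
    (hR : R ≠ oo) : (R.ord f).toNat ≤ dg oo f := by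
  classical
  rw [← sum_ord_eq_dg hf h0]
  by_cases hRS : R ∈ (RR.divOf K f).support.erase oo
  · exact Finset.single_le_sum (f := fun P : Place K F => (P.ord f).toNat)
      (fun _ _ => Nat.zero_le _) hRS
  · have h1 : R.ord f = 0 := by
      by_contra hne
      exact hRS (Finset.mem_erase.mpr ⟨hR, by
        rw [Finsupp.mem_support_iff, RR.divOf_apply]; exact hne⟩)
    rw [h1]
    simp

end QBAux

theorem Cv.ys_spec_of_mem {P : Place K F} (hP : P ≠ C.oo) (hr : P ∈ C.RamSet) :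
    C.ys P ∈ V C.oo (2 * genusFF K F + 1) ∧ P.ord (C.ys P) = 1 := by
  have h : C.ys P =
      Classical.epsilon fun y : F => y ∈ V C.oo (2 * genusFF K F + 1) ∧ P.ord y = 1 := if_pos hr
  rw [h]
  exact Classical.epsilon_spec (QBAux.exists_simple_zero C.oo hP)

theorem Cv.ys_mem {P : Place K F} (hP : P ≠ C.oo) :
    C.ys P ∈ V C.oo (2 * genusFF K F + 1 + C.n) := by
  by_cases hr : P ∈ C.RamSet
  · exact V_mono C.oo (Nat.le_add_right _ _) (C.ys_spec_of_mem hP hr).1
  · have h : C.ys P = C.x - algebraMap K F (S27.val P C.x) := if_neg hr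
    rw [h]
    refine V_mono C.oo (Nat.le_add_left _ _) ?_
    rw [mem_V_iff]
    refine ⟨Subalgebra.sub_mem _ C.hx (Subalgebra.algebraMap_mem _ _), Or.inr ?_⟩
    have hdg : dg C.oo C.x = C.n := by
      unfold dg
      rw [C.hxn]
      simp
    have h1 := C.dg_sub_const (f := C.x) (by rw [hdg]; exact C.hn) (S27.val P C.x)
    rw [ord_eq_neg_dg (Subalgebra.sub_mem _ C.hx (Subalgebra.algebraMap_mem _ _))
      (C.x_sub_const_ne_zero _), h1, hdg]

theorem Cv.ord_ys {P : Place K F} (hP : P ≠ C.oo) : P.ord (C.ys P) = 1 := by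
  by_cases hr : P ∈ C.RamSet
  · exact (C.ys_spec_of_mem hP hr).2
  · have h : C.ys P = C.x - algebraMap K F (S27.val P C.x) := if_neg hr
    rw [h]
    exact C.ord_sub_val_eq_one hP hr

theorem Cv.ys_of_not_mem {P : Place K F} (hP : P ∉ C.RamSet) :
    C.ys P = C.x - algebraMap K F (S27.val P C.x) := if_neg hP

end general

variable {F : Type*} [Field F] [Algebra Qb F] [S27.IsFF Qb F]

theorem Cv.QB (C : Cv Qb F) (m : ℕ) :
    ∃ c : ℝ, ∀ f : F, f ∈ V C.oo m → f ≠ 0 → ∀ R : Place Qb F, R ≠ C.oo →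
      |zsum C.oo f (fun P => C.Gh P R)| ≤ c := by
  classical
  set my : ℕ := 2 * genusFF Qb F + 1 + C.n with hmy
  set k : ℕ := my + 2 * genusFF Qb F with hk
  obtain ⟨c1, hc1⟩ := C.LE (m + m * k)
  obtain ⟨c2, hc2⟩ := C.LE k
  refine ⟨c1 + m * c2, fun f hf hf0 R hR => ?_⟩
  have hfR : f ∈ Reg C.oo := (mem_V_iff.1 hf).1
  set y : F := C.ys R with hy
  have hyV : y ∈ V C.oo my := C.ys_mem hR
  have hyord : R.ord y = 1 := C.ord_ys hR
  have hy0 : y ≠ 0 := by
    intro h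
    rw [h, Place.ord_zero] at hyord
    omega
  have hyR : y ∈ Reg C.oo := (mem_V_iff.1 hyV).1
  obtain ⟨u, huV, hu0, huord, huQ⟩ := K2dAux.exists_aux C.oo hyV hR hyord
  have huR : u ∈ Reg C.oo := (mem_V_iff.1 huV).1
  set μ : ℕ := (R.ord f).toNat with hμ
  have hμf : R.ord f = μ := (Int.toNat_of_nonneg (ord_nonneg_of_mem_Reg hfR hR)).symm
  have hμm : μ ≤ m := le_trans (QBAux.toNat_ord_le_dg hfR hf0 hR) (K2Aux.dg_le_of_mem_V hf hf0)
  set h : F := f * u ^ μ / y ^ μ with hh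
  have hyμ0 : y ^ μ ≠ 0 := pow_ne_zero _ hy0
  have huμ0 : u ^ μ ≠ 0 := pow_ne_zero _ hu0
  have hh0 : h ≠ 0 := div_ne_zero (mul_ne_zero hf0 huμ0) hyμ0
  have hrel : f * u ^ μ = h * y ^ μ := by
    rw [hh, div_mul_cancel₀ _ hyμ0]
  have hordh : ∀ Q : Place Qb F, Q.ord h = Q.ord f + μ * Q.ord u - μ * Q.ord y := by
    intro Q
    have e1 := congrArg Q.ord hrel
    rw [Q.ord_mul hf0 huμ0, Q.ord_mul hh0 hyμ0, S24.Place.ord_pow, S24.Place.ord_pow] at e1
    linarith
  have hhRord : R.ord h = 0 := by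
    rw [hordh R, hμf, huord, hyord]
    ring
  have hhV : h ∈ V C.oo (m + m * k) := by
    rw [mem_V_iff]
    refine ⟨fun Q hQ => ?_, Or.inr ?_⟩
    · rw [mem_place_iff_zp]
      right
      by_cases hQR : Q = R
      · rw [hQR, hhRord]
      · rw [hordh Q]
        have h1 := huQ Q hQ hQR
        have h2 := ord_nonneg_of_mem_Reg hfR hQ
        have h3 : (μ : ℤ) * Q.ord y ≤ μ * Q.ord u :=
          mul_le_mul_of_nonneg_left h1 (Int.natCast_nonneg _)
        omega
    · rw [hordh C.oo]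
      have h1 : -(m : ℤ) ≤ C.oo.ord f := (mem_V_iff.1 hf).2.resolve_left hf0
      have h2 : -(k : ℤ) ≤ C.oo.ord u := (mem_V_iff.1 huV).2.resolve_left hu0
      have h3 : C.oo.ord y ≤ 0 := ord_oo_nonpos hyR hy0
      have h4 : (μ : ℤ) * C.oo.ord y ≤ 0 :=
        mul_nonpos_of_nonneg_of_nonpos (Int.natCast_nonneg _) h3
      have h5 : (μ : ℤ) * (-(k : ℤ)) ≤ μ * C.oo.ord u :=
        mul_le_mul_of_nonneg_left h2 (Int.natCast_nonneg _)
      have h6 : (μ : ℤ) * k ≤ m * k :=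
        mul_le_mul_of_nonneg_right (by exact_mod_cast hμm) (Int.natCast_nonneg _)
      push_cast
      linarith
  have hhR : h ∈ Reg C.oo := (mem_V_iff.1 hhV).1
  set φ : Place Qb F → ℝ := fun P => C.Gh P R with hφ
  -- the relation between the sums
  have hsum : zsum C.oo f φ + μ * zsum C.oo u φ = zsum C.oo h φ + μ * zsum C.oo y φ := by
    rw [← zsum_pow huR hu0, ← zsum_pow hyR hy0,
      ← zsum_mul hfR (Subalgebra.pow_mem _ huR _) hf0 huμ0,
      ← zsum_mul hhR (Subalgebra.pow_mem _ hyR _) hh0 hyμ0, hrel]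
  -- the three sums
  have hGh : ∀ w : F, R.ord w = 0 → zsum C.oo w φ = zsum C.oo w (fun P => C.G P R) := by
    intro w hw
    refine zsum_congr fun P _ hpos => ?_
    rw [hφ]
    refine C.Gh_of_ne ?_
    rintro rfl
    omega
  have hval : ∀ w : F, w ∈ Reg C.oo → w ≠ 0 → R.ord w = 0 → S27.val R w ≠ 0 := by
    intro w hw hw0 hord h0
    have := (LAux.val_eq_zero_iff_ord hw hw0 hR).1 h0
    omega
  have b1 : |zsum C.oo h φ| ≤ c1 := by
    rw [hGh h hhRord]
    exact hc1 h hhV hh0 R hR (hval h hhR hh0 hhRord)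
  have b2 : |zsum C.oo u φ| ≤ c2 := by
    rw [hGh u huord]
    exact hc2 u huV hu0 R hR (hval u huR hu0 huord)
  have b3 : zsum C.oo y φ = 0 := by
    rw [zsum_eq_add_zsumE y hR φ, hyord]
    have e1 : φ R = C.tau R := C.Gh_self R
    have e2 : zsumE C.oo y R φ = zsumE C.oo y R (fun Q => C.G Q R) :=
      zsumE_congr fun Q _ hQR _ => C.Gh_of_ne hQR
    rw [e1, e2]
    unfold Cv.tau
    simp [hy]
  rw [b3, mul_zero, add_zero] at hsum
  have e : zsum C.oo f φ = zsum C.oo h φ - μ * zsum C.oo u φ := by linarith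
  rw [e]
  have hc20 : 0 ≤ c2 := le_trans (abs_nonneg _) b2
  calc |zsum C.oo h φ - μ * zsum C.oo u φ| ≤ |zsum C.oo h φ| + |(μ : ℝ) * zsum C.oo u φ| :=
        abs_sub _ _
    _ = |zsum C.oo h φ| + μ * |zsum C.oo u φ| := by
        rw [abs_mul, abs_of_nonneg (Nat.cast_nonneg (α := ℝ) μ)]
    _ ≤ c1 + m * c2 := by
        refine add_le_add b1 (mul_le_mul (by exact_mod_cast hμm) b2 (abs_nonneg _)
          (Nat.cast_nonneg _))

end Fermat.Agent.S17.El
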